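import Fermat.Agent.ModCurve.Fun.AtkinLehner
import Fermat.Agent.ModCurve.Points.GenusBar
import Fermat.Agent.Curve.Basics
import Fermat.Agent.Curve.RR.Setup
import Fermat.Agent.ModCurve.Group.Counts

/-!
The two cusps of the modular curve of prime level over `ℚ̄`, and the symmetry of the modular
equation.
-/

set_option autoImplicit false
set_option linter.style.haveILetI false
set_option synthInstance.maxHeartbeats 200000

noncomputable section

open AlgebraicCurve ModularCurve CongruenceSubgroup IntermediateField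
open FermatAgent.ModFun (jBar jNBar biEval modPolyK coeffEmb_jq)

namespace FermatAgent.Mazur.Step3

local notation "Qb" => AlgebraicClosure ℚ

theorem order_qExpand' {R : Type*} [CommRing R] (N : ℕ) [NeZero N] {x : LaurentSeries R}
    (hx : x ≠ 0) : (qExpand R N x).order = (N : ℤ) * x.order := by
  have h := HahnSeries.coeff_order_eq_zero.not.mpr hx
  have hy0 : qExpand R N x ≠ 0 := (map_ne_zero_iff _ (qExpand_injective (R := R) N)).mpr hx
  apply le_antisymm
  · exact HahnSeries.order_le_of_coeff_ne_zero (by rwa [qExpand_coeff_mul])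
  · have h' := HahnSeries.coeff_order_eq_zero.not.mpr hy0
    by_cases hd : (N : ℤ) ∣ (qExpand R N x).order
    · obtain ⟨k, hk⟩ := hd
      rw [hk, qExpand_coeff_mul] at h'
      rw [hk]
      exact mul_le_mul_of_nonneg_left (HahnSeries.order_le_of_coeff_ne_zero h') (by positivity)
    · exact absurd (qExpand_coeff_of_not_dvd N x hd) h'

theorem order_jqModC (R : Type*) [CommRing R] [Nontrivial R] : (jqModC R).order = -1 := by
  apply le_antisymm
  · exact HahnSeries.order_le_of_coeff_ne_zero (by rw [coeff_jqModC_neg_one]; exact one_ne_zero)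
  · by_contra h
    exact HahnSeries.coeff_order_eq_zero.not.mpr (jqModC_ne_zero_of_nontrivial R)
      (coeff_jqModC_of_lt R (not_le.1 h))

theorem index_gamma0_prime {p : ℕ} [NeZero p] (hp : p.Prime) : (Gamma0 p).index = p + 1 := by
  rw [FermatAgent.ModCurveGroup.index_gamma0, ModularCurve.dedekindPsi, hp.divisors]
  rw [Finset.filter_true_of_mem (by
    intro d hd
    rcases Finset.mem_insert.mp hd with rfl | hd
    · exact squarefree_one
    · rw [Finset.mem_singleton.mp hd]; exact hp.squarefree)]
  rw [Finset.sum_pair hp.ne_one.symm]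
  simp [Nat.div_self hp.pos]

section LaurentRing

variable (K : Type*) [Field K]

/-- The Laurent series without negative terms, as a valuation ring. -/
def powerRing : ValuationSubring (LaurentSeries K) where
  toSubring := (HahnSeries.ofPowerSeries ℤ K).range
  mem_or_inv_mem' x := by
    rcases eq_or_ne x 0 with rfl | hx
    · exact Or.inl (zero_mem (HahnSeries.ofPowerSeries ℤ K).range)
    have key : ∀ y : LaurentSeries K, 0 ≤ y.order → y ∈ (HahnSeries.ofPowerSeries ℤ K).range :=
      fun y hy => ⟨PowerSeries.X ^ y.order.toNat * y.powerSeriesPart, by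
        rw [map_mul, LaurentSeries.ofPowerSeries_powerSeriesPart, map_pow,
          HahnSeries.ofPowerSeries_X, HahnSeries.single_pow, one_pow, ← mul_assoc,
          HahnSeries.single_mul_single, one_mul, nsmul_one, Int.toNat_of_nonneg hy]
        simp⟩
    have h : x.order + x⁻¹.order = 0 := by
      rw [← HahnSeries.order_mul hx (inv_ne_zero hx), mul_inv_cancel₀ hx, HahnSeries.order_one]
    rcases le_total 0 x.order with h' | h'
    · exact Or.inl (key x h')
    · exact Or.inr (key x⁻¹ (by omega))

theorem mem_powerRing {x : LaurentSeries K} : x ∈ powerRing K ↔ x = 0 ∨ 0 ≤ x.order := by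
  constructor
  · rintro ⟨f, rfl⟩
    rcases eq_or_ne (HahnSeries.ofPowerSeries ℤ K f) 0 with h | h
    · exact Or.inl h
    · refine Or.inr (not_lt.1 fun hlt => HahnSeries.coeff_order_eq_zero.not.mpr h ?_)
      exact ofPowerSeries_coeff_of_neg f hlt
  · intro h
    rcases h with rfl | h
    · exact zero_mem _
    rcases (powerRing K).mem_or_inv_mem x with h' | h'
    · exact h'
    rcases eq_or_ne x 0 with rfl | hx
    · exact zero_mem _
    obtain ⟨f, hf⟩ := h'
    have hsum : x.order + x⁻¹.order = 0 := by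
      rw [← HahnSeries.order_mul hx (inv_ne_zero hx), mul_inv_cancel₀ hx, HahnSeries.order_one]
    have h0 : 0 ≤ x⁻¹.order := by
      refine not_lt.1 fun hlt => HahnSeries.coeff_order_eq_zero.not.mpr (inv_ne_zero hx) ?_
      rw [← hf] at hlt ⊢
      exact ofPowerSeries_coeff_of_neg f hlt
    have hx0 : x.order = 0 := by omega
    exact ⟨x.powerSeriesPart, by
      rw [LaurentSeries.ofPowerSeries_powerSeriesPart, hx0]; simp⟩

end LaurentRing

variable (N : ℕ) [NeZero N]

/-- The valuation ring of the cusp `∞`. -/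
def cInfRing : ValuationSubring (modularFunctionFieldBar N) :=
  (powerRing Qb).comap (algebraMap (modularFunctionFieldBar N) (LaurentSeries Qb))

omit [NeZero N] in
theorem mem_cInfRing {f : modularFunctionFieldBar N} :
    f ∈ cInfRing N ↔ f = 0 ∨ 0 ≤ (f : LaurentSeries Qb).order := by
  rw [cInfRing, ValuationSubring.mem_comap, mem_powerRing]
  exact ⟨fun h => h.imp_left fun h => Subtype.ext h, fun h => h.imp_left fun h => by rw [h]; rfl⟩

theorem cInfRing_ne_top : cInfRing N ≠ ⊤ := by
  intro h
  have hj : jBar Qb N ∈ cInfRing N := h ▸ ValuationSubring.mem_top _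
  rw [mem_cInfRing] at hj
  rcases hj with hj | hj
  · exact jqModC_ne_zero_of_nontrivial Qb (congrArg Subtype.val hj)
  · rw [FermatAgent.ModFun.coe_jBar, order_jqModC] at hj; omega

/-- The cusp `∞`. -/
def cInf : Place Qb (modularFunctionFieldBar N) :=
  FermatAgent.Curve.placeOfValuationSubring (cInfRing N) (fun a => by
    rw [mem_cInfRing]
    refine Or.inr ?_
    rw [IntermediateField.coe_algebraMap_apply, algebraMap_laurentSeries_eq_single]
    rcases eq_or_ne a 0 with rfl | ha
    · simp
    · rw [HahnSeries.order_single ha]) (cInfRing_ne_top N)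

theorem mem_cInf {f : modularFunctionFieldBar N} (hf : f ≠ 0) :
    0 ≤ (cInf N).ord f ↔ 0 ≤ (f : LaurentSeries Qb).order := by
  rw [← FermatAgent.Curve.mem_iff_ord_nonneg',
    show (cInf N).toValuationSubring = cInfRing N from rfl, mem_cInfRing]
  simp [hf]

/-- The order at `∞` is the order of the expansion. -/
theorem ord_cInf (f : modularFunctionFieldBar N) :
    (cInf N).ord f = (f : LaurentSeries Qb).order := by
  set v := cInf N
  have hinv : ∀ g : modularFunctionFieldBar N, g ≠ 0 →
      ((g⁻¹ : modularFunctionFieldBar N) : LaurentSeries Qb).order =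
        -(g : LaurentSeries Qb).order := fun g hg => by
    have hg' : (g : LaurentSeries Qb) ≠ 0 := fun h => hg (Subtype.ext h)
    have h := HahnSeries.order_mul hg' (inv_ne_zero hg')
    rw [mul_inv_cancel₀ hg', HahnSeries.order_one] at h
    show ((g : LaurentSeries Qb)⁻¹).order = _
    omega
  have hzero : ∀ g : modularFunctionFieldBar N, g ≠ 0 →
      (v.ord g = 0 ↔ (g : LaurentSeries Qb).order = 0) := by
    intro g hg
    have h1 : 0 ≤ v.ord g ↔ _ := mem_cInf N hg
    have h2 : 0 ≤ v.ord g⁻¹ ↔ _ := mem_cInf N (inv_ne_zero hg)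
    rw [v.ord_inv, hinv g hg] at h2
    constructor <;> intro h0
    · have := h1.1 (by omega); have := h2.1 (by omega); omega
    · have := h1.2 (by omega); have := h2.2 (by omega); omega
  have hmul : ∀ g g' : modularFunctionFieldBar N, g ≠ 0 → g' ≠ 0 →
      ((g * g' : modularFunctionFieldBar N) : LaurentSeries Qb).order =
        (g : LaurentSeries Qb).order + (g' : LaurentSeries Qb).order := fun g g' hg hg' =>
    HahnSeries.order_mul (fun h => hg (Subtype.ext h)) (fun h => hg' (Subtype.ext h))
  have hpow : ∀ (g : modularFunctionFieldBar N) (n : ℤ), g ≠ 0 →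
      ((g ^ n : modularFunctionFieldBar N) : LaurentSeries Qb).order =
        n * (g : LaurentSeries Qb).order := fun g n hg => by
    induction n using Int.induction_on with
    | zero => simp
    | succ n ih =>
      rw [zpow_add_one₀ hg, hmul _ _ (zpow_ne_zero _ hg) hg, ih]; ring
    | pred n ih =>
      rw [zpow_sub_one₀ hg, hmul _ _ (zpow_ne_zero _ hg) (inv_ne_zero hg), ih, hinv g hg]; ring
  set t := (jBar Qb N)⁻¹
  have hj0 : jBar Qb N ≠ 0 := fun h => jqModC_ne_zero_of_nontrivial Qb (congrArg Subtype.val h)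
  have ht : t ≠ 0 := inv_ne_zero hj0
  have hto : (t : LaurentSeries Qb).order = 1 := by
    rw [hinv _ hj0, FermatAgent.ModFun.coe_jBar, order_jqModC, neg_neg]
  have hlin : ∀ g : modularFunctionFieldBar N,
      v.ord g = (g : LaurentSeries Qb).order * v.ord t := by
    intro g
    rcases eq_or_ne g 0 with rfl | hg
    · simp
    have h0 : g * t ^ (-(g : LaurentSeries Qb).order) ≠ 0 := mul_ne_zero hg (zpow_ne_zero _ ht)
    have h1 := (hzero _ h0).2 (by rw [hmul _ _ hg (zpow_ne_zero _ ht), hpow _ _ ht, hto]; ring)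
    rw [v.ord_mul hg (zpow_ne_zero _ ht), v.ord_zpow] at h1
    linarith
  obtain ⟨g, -, hg⟩ := FermatAgent.Curve.exists_ord_eq v 1
  have ht1 : v.ord t = 1 := by
    have h1 : 0 ≤ v.ord t := (mem_cInf N ht).2 (by omega)
    have h2 := hlin g
    rw [hg] at h2
    exact Int.eq_one_of_mul_eq_one_left h1 h2.symm
  rw [hlin f, ht1, mul_one]

theorem ord_cInf_jBar : (cInf N).ord (jBar Qb N) = -1 := by
  rw [ord_cInf, FermatAgent.ModFun.coe_jBar, order_jqModC]

theorem ord_cInf_jNBar : (cInf N).ord (jNBar Qb N) = -(N : ℤ) := by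
  rw [ord_cInf, FermatAgent.ModFun.coe_jNBar, ModularCurve.jqNModC,
    order_qExpand' N (jqModC_ne_zero_of_nontrivial Qb), order_jqModC]
  ring

/-- The Atkin–Lehner involution of prime level. -/
def swap (p : ℕ) [Fact p.Prime] : modularFunctionFieldBar p ≃ₐ[Qb] modularFunctionFieldBar p :=
  haveI : NeZero (p * 1) := ⟨by simpa using NeZero.ne p⟩
  ((IntermediateField.equivOfEq (congrArg modularFunctionFieldBar (mul_one p).symm)).trans
    (FermatAgent.ModFun.atkinLehnerBar (q := p) (N' := 1) (Nat.coprime_one_right p) Qb)).trans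
    (IntermediateField.equivOfEq (congrArg modularFunctionFieldBar (mul_one p)))

theorem swap_jBar (p : ℕ) [Fact p.Prime] :
    swap p (jBar Qb p) = jNBar Qb p ∧ swap p (jNBar Qb p) = jBar Qb p := by
  haveI : NeZero (p * 1) := ⟨by simpa using NeZero.ne p⟩
  set w := FermatAgent.ModFun.atkinLehnerBar (q := p) (N' := 1) (Nat.coprime_one_right p) Qb
  obtain ⟨h1, h2⟩ :=
    FermatAgent.ModFun.atkinLehner_qExpand (q := p) (N' := 1) (Nat.coprime_one_right p) (dvd_refl 1)
  have e1 : coeffEmb Qb (qExpand ℚ 1 jq) = jqModC Qb := by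
    rw [qExpand_one_apply]; exact coeffEmb_jq Qb
  have e2 : coeffEmb Qb (qExpand ℚ (p * 1) jq) = jqNModC Qb p := by
    rw [qExpand_congr (mul_one p) jq, coeffEmb, coeffMap_qExpand, jqNModC]
    exact congrArg _ (coeffEmb_jq Qb)
  have key : ∀ (y : modularFunctionFieldFull (p * 1)) (z : modularFunctionFieldBar p),
      coeffEmb Qb (y : LaurentSeries ℚ) = (z : LaurentSeries Qb) →
      ((swap p z : modularFunctionFieldBar p) : LaurentSeries Qb) =
        coeffEmb Qb (FermatAgent.ModFun.atkinLehner (q := p) (N' := 1)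
          (Nat.coprime_one_right p) y : LaurentSeries ℚ) := by
    intro y z hyz
    have : IntermediateField.equivOfEq (congrArg modularFunctionFieldBar (mul_one p).symm) z =
        FermatAgent.ModFun.toBaseChange Qb (modularFunctionFieldFull (p * 1)) y :=
      Subtype.ext (by simpa using hyz.symm)
    simp only [swap, AlgEquiv.trans_apply, this]
    rw [FermatAgent.ModFun.atkinLehnerBar_toBaseChange]
    rfl
  constructor <;> apply Subtype.ext
  · rw [key ⟨_, ModularCurve.jqd_mem_full _ (one_dvd _)⟩ (jBar Qb p) e1, h1, e2]; rfl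
  · rw [key ⟨_, ModularCurve.jqd_mem_full _ dvd_rfl⟩ (jNBar Qb p) e2, h2, e1]; rfl

/-- The cusp `0`. -/
def cZero (p : ℕ) [Fact p.Prime] : Place Qb (modularFunctionFieldBar p) :=
  FermatAgent.Curve.placeEquiv (swap p) (cInf p)

theorem ord_cZero_jBar (p : ℕ) [Fact p.Prime] : (cZero p).ord (jBar Qb p) = -(p : ℤ) := by
  rw [cZero, FermatAgent.Curve.ord_placeEquiv, (swap_jBar p).1, ord_cInf_jNBar]

theorem ord_cZero_jNBar (p : ℕ) [Fact p.Prime] : (cZero p).ord (jNBar Qb p) = -1 := by
  rw [cZero, FermatAgent.Curve.ord_placeEquiv, (swap_jBar p).2, ord_cInf_jBar]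

variable (p : ℕ) [hp : Fact p.Prime]

theorem cInf_ne_cZero : cInf p ≠ cZero p := by
  intro h
  have h1 := ord_cInf_jBar p
  rw [h, ord_cZero_jBar] at h1
  have := hp.out.one_lt
  omega

/-- The poles of `j`. -/
theorem eq_cInf_or_cZero {P : Place Qb (modularFunctionFieldBar p)}
    (hP : P.ord (jBar Qb p) < 0) : P = cInf p ∨ P = cZero p := by
  classical
  by_contra h
  push Not at h
  have htr := FermatAgent.ModFun.transcendental_jBar Qb p
  have hsum := FermatAgent.Curve.sum_ord_poles (K := Qb) htr
  rw [FermatAgent.ModFun.finrank_adjoin_jBar, index_gamma0_prime hp.out] at hsum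
  have hmem : ∀ v : Place Qb (modularFunctionFieldBar p), v.ord (jBar Qb p) < 0 →
      v ∈ FermatAgent.Curve.zerosFinset (K := Qb) (jBar Qb p)⁻¹ := fun v hv => by
    rw [FermatAgent.Curve.mem_zerosFinset, v.ord_inv]; omega
  have h3 : ({P, cInf p, cZero p} : Finset _) ⊆
      FermatAgent.Curve.zerosFinset (K := Qb) (jBar Qb p)⁻¹ := by
    intro v hv
    simp only [Finset.mem_insert, Finset.mem_singleton] at hv
    rcases hv with rfl | rfl | rfl
    · exact hmem _ hP
    · exact hmem _ (by rw [ord_cInf_jBar]; norm_num)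
    · refine hmem _ ?_
      rw [ord_cZero_jBar]; have := hp.out.one_lt; omega
  have hle := Finset.sum_le_sum_of_subset_of_nonneg h3
    (f := fun v => -v.ord (jBar Qb p)) (fun v hv _ => by
      rw [FermatAgent.Curve.mem_zerosFinset, v.ord_inv] at hv; omega)
  rw [hsum, Finset.sum_insert (by simp [h.1, h.2]), Finset.sum_pair (cInf_ne_cZero p),
    ord_cInf_jBar, ord_cZero_jBar] at hle
  push_cast at hle
  omega

theorem finrank_adjoin_jBar_prime :
    Module.finrank Qb⟮jBar Qb p⟯ (modularFunctionFieldBar p) = p + 1 := by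
  rw [FermatAgent.ModFun.finrank_adjoin_jBar, index_gamma0_prime hp.out]

theorem transcendental_jNBar : Transcendental Qb (jNBar Qb p) := by
  rw [← (swap_jBar p).1]
  intro h
  refine FermatAgent.ModFun.transcendental_jBar Qb p ?_
  have := h.algHom (swap p).symm.toAlgHom
  simpa using this

theorem finrank_adjoin_jNBar_prime :
    Module.finrank Qb⟮jNBar Qb p⟯ (modularFunctionFieldBar p) = p + 1 := by
  rw [← finrank_adjoin_jBar_prime p, ← (swap_jBar p).1]
  symm
  have e : Qb⟮swap p (jBar Qb p)⟯ = (Qb⟮jBar Qb p⟯).map (swap p).toAlgHom := by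
    rw [IntermediateField.adjoin_map, Set.image_singleton]; rfl
  rw [e]
  exact Algebra.finrank_eq_of_equiv_equiv ((Qb⟮jBar Qb p⟯).equivMap (swap p).toAlgHom).toRingEquiv
    (swap p).toRingEquiv rfl

end FermatAgent.Mazur.Step3
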