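import Fermat.Agent.Mazur.Step3.NormOne
import Fermat.Agent.JacCharts.Laurent
import Fermat.Agent.Igusa.Gauss

/-!
Functions of the modular curve with integral series, and fractions of them.
-/

set_option autoImplicit false
set_option linter.style.haveILetI false
set_option synthInstance.maxHeartbeats 200000

noncomputable section

open AlgebraicCurve ModularCurve
open FermatAgent.JacCharts (GoodReductionDatum)
open FermatAgent.Igusa (gev gevC gaussRing gaussRed IsGaussRep)

namespace FermatAgent.Mazur.Step3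

local notation "Qb" => AlgebraicClosure ℚ

variable {N : ℕ} [NeZero N] {A : ValuationSubring Qb} {k : Type*} [Field k] {π : A →+* k}

/-- The function given by an integral polynomial in `j` and `j(N ·)`. -/
def gevF (N : ℕ) [NeZero N] (A : ValuationSubring Qb) :
    Polynomial (Polynomial A) →+* modularFunctionFieldBar N :=
  ((coeffMap A.subtype).comp (gev A N)).codRestrict (modularFunctionFieldBar N) fun P => by
    rw [modularFunctionFieldBar, FermatAgent.ModFun.laurentBaseChange_full_eq]
    induction P using Polynomial.induction_on' with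
    | add P Q hP hQ => rw [map_add]; exact add_mem hP hQ
    | monomial n a =>
      rw [← Polynomial.C_mul_X_pow_eq_monomial, map_mul, map_pow]
      refine mul_mem ?_ (pow_mem ?_ n)
      · rw [RingHom.comp_apply, FermatAgent.Igusa.coeffMap_gev, Polynomial.map_C,
          FermatAgent.Igusa.gev_C, FermatAgent.Igusa.gevC_eq_aeval]
        exact IntermediateField.adjoin_simple_le_iff.mpr (jqModC_mem Qb N)
          (IntermediateField.algebra_adjoin_le_adjoin Qb _
            (Polynomial.aeval_mem_adjoin_singleton Qb _))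
      · rw [RingHom.comp_apply, FermatAgent.Igusa.gev_X, coeffMap_jqNModC]
        exact jqNModC_mem Qb N

@[simp] theorem coe_gevF (P : Polynomial (Polynomial A)) :
    (gevF N A P : LaurentSeries Qb) = coeffMap A.subtype (gev A N P) := rfl

variable {d : GoodReductionDatum A π (modularFunctionFieldBar N) (modularFunctionFieldFullC k N)}

omit [NeZero N] in
/-- An element with integral series reduces coefficientwise. -/
theorem redsTo_series (hd : d.IsLaurent) (y : LaurentSeries A)
    (hy : coeffMap A.subtype y ∈ modularFunctionFieldBar N) :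
    ∃ fb : modularFunctionFieldFullC k N, d.RedsTo ⟨coeffMap A.subtype y, hy⟩ fb ∧
      (fb : LaurentSeries k) = coeffMap π y :=
  ⟨_, GoodReductionDatum.redsTo_red (hd.intOfSeries y hy), hd.coe_red_intOfSeries y hy⟩

theorem redsTo_gevF (hd : d.IsLaurent) (P : Polynomial (Polynomial A)) :
    ∃ fb : modularFunctionFieldFullC k N, d.RedsTo (gevF N A P) fb ∧
      (fb : LaurentSeries k) = coeffMap π (gev A N P) :=
  redsTo_series hd _ (gevF N A P).2

variable (ℓ : ℕ) [Fact ℓ.Prime] [CharP k ℓ]

/-- A function is a constant times a fraction of integral polynomials with nonzero reductions. -/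
theorem exists_rep (hd : d.IsLaurent) (hℓN : ¬ ℓ ∣ N) {g : modularFunctionFieldBar N} (hg : g ≠ 0) :
    ∃ (c : Qb) (P : Polynomial (Polynomial A)) (Q : Polynomial A), c ≠ 0 ∧
      P.natDegree < (CongruenceSubgroup.Gamma0 N).index ∧ coeffMap π (gev A N P) ≠ 0 ∧
      coeffMap π (gevC A Q) ≠ 0 ∧ g * gevF N A (Polynomial.C Q) = c • gevF N A P ∧
      ∀ gb, d.RedsTo g gb → ∃ a : A, (a : Qb) = c ∧ (gb = 0 → π a = 0) := by
  haveI : Fact (Function.Surjective π) := ⟨d.residue_surjective⟩
  have hgC : (g : LaurentSeries Qb) ∈ modularFunctionFieldC Qb N := by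
    rw [← FermatAgent.ModFun.laurentBaseChange_full_eq]; exact g.2
  obtain ⟨c, o, P, Q, hrep, hc, heq, hdeg, hred⟩ :=
    FermatAgent.Igusa.exists_eq_C_mul A π N ℓ hℓN hgC (fun h => hg (Subtype.ext h))
  rw [FermatAgent.Igusa.gaussRed_eq A π N ⟨o, P, Q, hrep⟩ hrep, div_ne_zero_iff] at hred
  have hmul : g * gevF N A (Polynomial.C Q) = c • gevF N A P := by
    apply Subtype.ext
    rw [Algebra.smul_def, MulMemClass.coe_mul, MulMemClass.coe_mul,
      IntermediateField.coe_algebraMap_apply, coe_gevF, coe_gevF,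
      FermatAgent.Igusa.gev_C, ← hrep.2, heq,
      algebraMap_laurentSeries_eq_single, HahnSeries.C_apply]
    ring
  refine ⟨c, P, Q, hc, hdeg, hred.1, hred.2, hmul, fun gb hgb => ?_⟩
  obtain ⟨pb, hpb, hpb'⟩ := redsTo_gevF hd P
  obtain ⟨qb, hqb, hqb'⟩ := redsTo_gevF hd (Polynomial.C Q)
  have hpb0 : pb ≠ 0 := fun h => hred.1 (by rw [← hpb', h]; rfl)
  obtain ⟨a, ha, h⟩ := mem_of_smul_redsTo hpb hpb0 (hgb.mul hqb) hmul
  refine ⟨a, ha, fun h0 => ?_⟩
  rw [h0, zero_mul, eq_comm, smul_eq_zero] at h
  exact h.resolve_right hpb0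

/-- A function reducing to `1` is a fraction of integral polynomials with the same reduction. -/
theorem exists_rep_one (hd : d.IsLaurent) (hℓN : ¬ ℓ ∣ N) {f : modularFunctionFieldBar N}
    (hf : d.RedsTo f 1) :
    ∃ (P : Polynomial (Polynomial A)) (Q : Polynomial A) (a : A), π a = 0 ∧
      coeffMap π (gevC A Q) ≠ 0 ∧
      f * gevF N A (Polynomial.C Q) =
        gevF N A (Polynomial.C Q) + algebraMap Qb _ (a : Qb) * gevF N A P := by
  rcases eq_or_ne (f - 1) 0 with h0 | h0
  · refine ⟨0, 1, 0, map_zero π, ?_, ?_⟩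
    · simp [gevC]
    · rw [sub_eq_zero.mp h0]; simp
  obtain ⟨c, P, Q, -, -, -, hQ, hmul, hc⟩ := exists_rep ℓ hd hℓN h0
  obtain ⟨a, ha, ha0⟩ := hc 0 (by simpa using hf.sub GoodReductionDatum.redsTo_one)
  refine ⟨P, Q, a, ha0 rfl, hQ, ?_⟩
  rw [← Algebra.smul_def, ha, ← hmul]
  ring

end FermatAgent.Mazur.Step3
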