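import Fermat.Agent.Mazur.Step3.Cusps
import Fermat.Prelude.Def_ModularCurve_ArithmeticGalois

/-!
The cuspidal class and its Galois invariance.
-/

set_option autoImplicit false
set_option synthInstance.maxHeartbeats 200000

noncomputable section

open AlgebraicCurve ModularCurve
open FermatAgent.ModFun (jBar jNBar)

namespace FermatAgent.Mazur.Step3

local notation "Qb" => AlgebraicClosure ℚ
local notation "GQ" => AlgebraicClosure ℚ ≃ₐ[ℚ] AlgebraicClosure ℚ

variable (N : ℕ) [NeZero N]

theorem order_coeffMap {K K' : Type*} [Field K] [Field K'] (φ : K →+* K') (x : LaurentSeries K) :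
    (coeffMap φ x).order = x.order := by
  rcases eq_or_ne x 0 with rfl | hx
  · simp
  have hx' : coeffMap φ x ≠ 0 := (map_ne_zero (coeffMap φ)).2 hx
  refine le_antisymm (HahnSeries.order_le_of_coeff_ne_zero ?_) (HahnSeries.order_le_of_coeff_ne_zero ?_)
  · rw [coeffMap_coeff]; exact (map_ne_zero φ).2 (HahnSeries.coeff_order_eq_zero.not.mpr hx)
  · intro h
    refine HahnSeries.coeff_order_eq_zero.not.mpr hx' ?_
    rw [coeffMap_coeff, h, map_zero]

theorem galois_jBar (σ : GQ) :
    arithmeticGalois (modularFunctionFieldFull N) σ • jBar Qb N = jBar Qb N :=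
  Subtype.ext (coeffMap_jqModC (σ : Qb →+* Qb))

theorem galois_jNBar (σ : GQ) :
    arithmeticGalois (modularFunctionFieldFull N) σ • jNBar Qb N = jNBar Qb N :=
  Subtype.ext (coeffMap_jqNModC (σ : Qb →+* Qb) N)

theorem galois_smul_cInf (σ : GQ) :
    arithmeticGalois (modularFunctionFieldFull N) σ • cInf N = cInf N := by
  set g := arithmeticGalois (modularFunctionFieldFull N) σ
  ext1
  ext f
  rw [SemilinearAut.smul_toValuationSubring, ValuationSubring.mem_pointwise_smul_iff_inv_smul_mem,
    show (cInf N).toValuationSubring = cInfRing N from rfl, mem_cInfRing, mem_cInfRing,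
    inv_smul_eq_iff, smul_zero, ← map_inv]
  exact or_congr Iff.rfl (by
    rw [coe_arithmeticGalois_smul, order_coeffMap])

variable (p : ℕ) [Fact p.Prime]

theorem galois_smul_cZero (σ : GQ) :
    arithmeticGalois (modularFunctionFieldFull p) σ • cZero p = cZero p := by
  set g := arithmeticGalois (modularFunctionFieldFull p) σ
  have h : (g • cZero p).ord (jBar Qb p) = -(p : ℤ) := by
    conv_lhs => rw [← galois_jBar p σ]
    rw [SemilinearAut.ord_smul, ord_cZero_jBar]
  rcases eq_cInf_or_cZero p (P := g • cZero p)
    (by rw [h]; have := (Fact.out : p.Prime).pos; omega) with h' | h'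
  · rw [h', ord_cInf_jBar] at h
    have := (Fact.out : p.Prime).one_lt
    omega
  · exact h'

theorem deg_place (P : Place Qb (modularFunctionFieldBar N)) : P.deg = 1 :=
  FermatAgent.Curve.RR.RRSetting.deg_eq_one P

/-- The difference of two places. -/
def pairDiv (P Q : Place Qb (modularFunctionFieldBar N)) :
    Divisor.degZero (K := Qb) (F := modularFunctionFieldBar N) :=
  ⟨Finsupp.single P 1 - Finsupp.single Q 1, by
    rw [Divisor.mem_degZero, map_sub, Divisor.degree_single, Divisor.degree_single, deg_place,
      deg_place, sub_self]⟩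

@[simp] theorem coe_pairDiv (P Q : Place Qb (modularFunctionFieldBar N)) :
    (pairDiv N P Q : Divisor Qb (modularFunctionFieldBar N)) =
      Finsupp.single P 1 - Finsupp.single Q 1 := rfl

/-- The cuspidal class. -/
def cuspClass : JZero p := Pic0.mk (pairDiv p (cInf p) (cZero p))

theorem galois_smul_pair {P Q : Place Qb (modularFunctionFieldBar N)} (σ : GQ)
    (hP : arithmeticGalois (modularFunctionFieldFull N) σ • P = P)
    (hQ : arithmeticGalois (modularFunctionFieldFull N) σ • Q = Q) :
    σ • (Pic0.mk (pairDiv N P Q) : JZero N) = Pic0.mk (pairDiv N P Q) := by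
  rw [galois_smul_pic0_def, SemilinearAut.pic0_smul_mk]
  refine congrArg Pic0.mk (Subtype.ext ?_)
  rw [SemilinearAut.coe_degZeroSMulHom, coe_pairDiv, smul_sub, SemilinearAut.smul_single,
    SemilinearAut.smul_single, hP, hQ]

theorem galois_smul_cuspClass (σ : GQ) : σ • cuspClass p = cuspClass p :=
  galois_smul_pair p σ (galois_smul_cInf p σ) (galois_smul_cZero p σ)

end FermatAgent.Mazur.Step3
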