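import Fermat.Agent.Mazur.Step3.Fibre
import Fermat.Agent.ModCurve.Torsion.DegreeRatio
import Fermat.Agent.ES.Degree
import Fermat.Prelude.Def_ModularCurve_HeckeModule

/-!
The places of the source of a Hecke correspondence above the cusps of prime level.
-/

set_option autoImplicit false

noncomputable section

open AlgebraicCurve ModularCurve IntermediateField
open FermatAgent.ModFun (jBar jNBar)

namespace FermatAgent.Mazur.Step3

local notation "Qb" => AlgebraicClosure ℚ

variable (p q : ℕ) [hp : Fact p.Prime] [hq : Fact q.Prime]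

/-- `j` in the source of the correspondence. -/
def srcJ : modularFunctionFieldBar (p * q) := heckeAlphaBar Qb p q (jBar Qb p)

/-- `j(p ·)` in the source. -/
def srcJP : modularFunctionFieldBar (p * q) := heckeAlphaBar Qb p q (jNBar Qb p)

/-- `j(q ·)` in the source. -/
def srcJQ : modularFunctionFieldBar (p * q) := heckeBetaBar Qb p q (jBar Qb p)

/-- `j(pq ·)` in the source. -/
def srcJPQ : modularFunctionFieldBar (p * q) := heckeBetaBar Qb p q (jNBar Qb p)

/-- The first projection of the source to level `q`. -/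
def toLevel₁ : modularFunctionFieldBar q →ₐ[Qb] modularFunctionFieldBar (p * q) :=
  (IntermediateField.equivOfEq
    (congrArg modularFunctionFieldBar (mul_comm q p))).toAlgHom.comp (heckeAlphaBar Qb q p)

/-- The second projection of the source to level `q`. -/
def toLevel₂ : modularFunctionFieldBar q →ₐ[Qb] modularFunctionFieldBar (p * q) :=
  (IntermediateField.equivOfEq
    (congrArg modularFunctionFieldBar (mul_comm q p))).toAlgHom.comp (heckeBetaBar Qb q p)

theorem toLevel₁_j : toLevel₁ p q (jBar Qb q) = srcJ p q ∧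
    toLevel₁ p q (jNBar Qb q) = srcJQ p q :=
  ⟨Subtype.ext rfl, Subtype.ext rfl⟩

theorem toLevel₂_j : toLevel₂ p q (jBar Qb q) = srcJP p q ∧
    toLevel₂ p q (jNBar Qb q) = srcJPQ p q := by
  refine ⟨Subtype.ext rfl, Subtype.ext ?_⟩
  show qExpand Qb p (qExpand Qb q (jqModC Qb)) = qExpand Qb q (qExpand Qb p (jqModC Qb))
  rw [qExpand_qExpand, qExpand_qExpand, qExpand_congr (mul_comm p q)]

variable {p q}

/-- The orders of two functions related by the modular equation of level `q` at their poles. -/
theorem ord_ratio (ψ : modularFunctionFieldBar q →ₐ[Qb] modularFunctionFieldBar (p * q))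
    (w : Place Qb (modularFunctionFieldBar (p * q)))
    (h : w.ord (ψ (jBar Qb q)) < 0 ∨ w.ord (ψ (jNBar Qb q)) < 0) :
    w.ord (ψ (jBar Qb q)) < 0 ∧ w.ord (ψ (jNBar Qb q)) < 0 ∧
      (w.ord (ψ (jNBar Qb q)) = q * w.ord (ψ (jBar Qb q)) ∨
        w.ord (ψ (jBar Qb q)) = q * w.ord (ψ (jNBar Qb q))) := by
  have hψ := FermatAgent.Curve.isIntegralAlong ψ
  have he : (0 : ℤ) < w.ramificationIndexAlong ψ := by
    exact_mod_cast FermatAgent.Curve.ramificationIndexAlong_pos _ w
  simp only [w.ord_restrictAlong ψ hψ] at h ⊢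
  set v := w.restrictAlong ψ hψ
  set e : ℤ := ((w.ramificationIndexAlong ψ : ℕ) : ℤ)
  have hneg : ∀ x : ℤ, e * x < 0 ↔ x < 0 := fun x =>
    ⟨fun h => by nlinarith, fun h => mul_neg_of_pos_of_neg he h⟩
  rw [hneg, hneg] at h
  have hq0 : (0 : ℤ) < q := by exact_mod_cast hq.out.pos
  have hv : v = cInf q ∨ v = cZero q := h.elim (eq_cInf_or_cZero q) eq_cInf_or_cZero'
  rw [hneg, hneg]
  rcases hv with hv | hv <;> rw [hv]
  · rw [ord_cInf_jBar, ord_cInf_jNBar]
    exact ⟨by norm_num, by omega, Or.inl (by ring)⟩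
  · rw [ord_cZero_jBar, ord_cZero_jNBar]
    exact ⟨by omega, by norm_num, Or.inr (by ring)⟩

variable (w : Place Qb (modularFunctionFieldBar (p * q)))

theorem ratio₁ (h : w.ord (srcJ p q) < 0 ∨ w.ord (srcJQ p q) < 0) :
    w.ord (srcJ p q) < 0 ∧ w.ord (srcJQ p q) < 0 ∧
      (w.ord (srcJQ p q) = q * w.ord (srcJ p q) ∨
        w.ord (srcJ p q) = q * w.ord (srcJQ p q)) := by
  rw [← (toLevel₁_j p q).1, ← (toLevel₁_j p q).2] at h ⊢
  exact ord_ratio _ w h

theorem ratio₂ (h : w.ord (srcJP p q) < 0 ∨ w.ord (srcJPQ p q) < 0) :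
    w.ord (srcJP p q) < 0 ∧ w.ord (srcJPQ p q) < 0 ∧
      (w.ord (srcJPQ p q) = q * w.ord (srcJP p q) ∨
        w.ord (srcJP p q) = q * w.ord (srcJPQ p q)) := by
  rw [← (toLevel₂_j p q).1, ← (toLevel₂_j p q).2] at h ⊢
  exact ord_ratio _ w h

/-- The lower place along the first projection. -/
def downA : Place Qb (modularFunctionFieldBar p) :=
  w.restrictAlong (heckeAlphaBar Qb p q) (FermatAgent.Curve.isIntegralAlong _)

/-- The lower place along the second projection. -/
def downB : Place Qb (modularFunctionFieldBar p) :=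
  w.restrictAlong (heckeBetaBar Qb p q) (FermatAgent.Curve.isIntegralAlong _)

/-- The ramification index along the first projection. -/
def ramA : ℤ := w.ramificationIndexAlong (heckeAlphaBar Qb p q)

/-- The ramification index along the second projection. -/
def ramB : ℤ := w.ramificationIndexAlong (heckeBetaBar Qb p q)

theorem ramA_pos : 0 < ramA w := by
  unfold ramA
  exact_mod_cast FermatAgent.Curve.ramificationIndexAlong_pos _ w

theorem ramB_pos : 0 < ramB w := by
  unfold ramB
  exact_mod_cast FermatAgent.Curve.ramificationIndexAlong_pos _ w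

theorem ord_src :
    w.ord (srcJ p q) = ramA w * (downA w).ord (jBar Qb p) ∧
    w.ord (srcJP p q) = ramA w * (downA w).ord (jNBar Qb p) ∧
    w.ord (srcJQ p q) = ramB w * (downB w).ord (jBar Qb p) ∧
    w.ord (srcJPQ p q) = ramB w * (downB w).ord (jNBar Qb p) :=
  ⟨w.ord_restrictAlong _ _ _, w.ord_restrictAlong _ _ _, w.ord_restrictAlong _ _ _,
    w.ord_restrictAlong _ _ _⟩

theorem down_cusp :
    (downA w = cInf p ∨ downA w = cZero p) ↔ (downB w = cInf p ∨ downB w = cZero p) := by
  obtain ⟨h1, h2, h3, h4⟩ := ord_src w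
  have hpos := ramA_pos w
  have hpos' := ramB_pos w
  have hp0 : (0 : ℤ) < p := by exact_mod_cast hp.out.pos
  constructor <;> intro h
  · have hj : (downA w).ord (jBar Qb p) < 0 := by
      rcases h with h | h <;> rw [h]
      · rw [ord_cInf_jBar]; norm_num
      · rw [ord_cZero_jBar]; omega
    obtain ⟨-, h', -⟩ := ratio₁ w (Or.inl (h1 ▸ mul_neg_of_pos_of_neg hpos hj))
    exact eq_cInf_or_cZero p (by nlinarith)
  · have hj : (downB w).ord (jBar Qb p) < 0 := by
      rcases h with h | h <;> rw [h]
      · rw [ord_cInf_jBar]; norm_num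
      · rw [ord_cZero_jBar]; omega
    obtain ⟨h', -, -⟩ := ratio₁ w (Or.inr (h3 ▸ mul_neg_of_pos_of_neg hpos' hj))
    exact eq_cInf_or_cZero p (by nlinarith)

/-- For `q ≠ p` both projections of a place above a cusp are the same cusp. -/
theorem downA_eq_of_downB (hqp : q ≠ p) {c : Place Qb (modularFunctionFieldBar p)}
    (hc : c = cInf p ∨ c = cZero p) (h : downB w = c) : downA w = c := by
  have hA := (down_cusp w).2 (h ▸ hc)
  obtain ⟨h1, h2, h3, h4⟩ := ord_src w
  have hpos := ramA_pos w
  have hpos' := ramB_pos w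
  have hp2 : (2 : ℤ) ≤ p := by exact_mod_cast hp.out.two_le
  have hq2 : (2 : ℤ) ≤ q := by exact_mod_cast hq.out.two_le
  have hne : (q : ℤ) * q ≠ p * p := fun he => hqp <| by
    exact_mod_cast (mul_self_inj (by positivity) (by positivity)).1 he
  have hpp : (4 : ℤ) ≤ p * p := by nlinarith
  have hqq : (4 : ℤ) ≤ q * q := by nlinarith
  rw [h] at h3 h4
  rcases hA with hA | hA <;> rcases hc with hc | hc <;> subst hc <;> first | exact hA | exfalso
  · rw [hA] at h1 h2
    rw [ord_cInf_jBar] at h1; rw [ord_cInf_jNBar] at h2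
    rw [ord_cZero_jBar] at h3; rw [ord_cZero_jNBar] at h4
    obtain ⟨-, -, r1⟩ := ratio₁ w (Or.inl (by rw [h1]; linarith))
    obtain ⟨-, -, r2⟩ := ratio₂ w (Or.inl (by rw [h2]; nlinarith))
    rw [h1, h3] at r1; rw [h2, h4] at r2
    rcases r1 with r1 | r1 <;> rcases r2 with r2 | r2
    · have : ramA w * ((q : ℤ) * (p * p - 1)) = 0 := by linear_combination (p : ℤ) * r2 - r1
      rcases mul_eq_zero.1 this with e | e
      · omega
      · nlinarith [hpp, hqq, mul_le_mul hpp hqq (by norm_num) (by nlinarith)]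
    · have : ramA w * ((p : ℤ) * p - q * q) = 0 := by linear_combination -(q : ℤ) * r1 - p * r2
      rcases mul_eq_zero.1 this with e | e
      · omega
      · exact hne (by linarith)
    · have : ramA w * ((1 : ℤ) - p * p * (q * q)) = 0 := by
        linear_combination -r1 - (p : ℤ) * q * r2
      rcases mul_eq_zero.1 this with e | e
      · omega
      · nlinarith [hpp, hqq, mul_le_mul hpp hqq (by norm_num) (by nlinarith)]
    · have : ramB w * ((q : ℤ) * (p * p - 1)) = 0 := by linear_combination (p : ℤ) * r1 - r2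
      rcases mul_eq_zero.1 this with e | e
      · omega
      · nlinarith [hpp, hqq, mul_le_mul hpp hqq (by norm_num) (by nlinarith)]
  · rw [hA] at h1 h2
    rw [ord_cZero_jBar] at h1; rw [ord_cZero_jNBar] at h2
    rw [ord_cInf_jBar] at h3; rw [ord_cInf_jNBar] at h4
    obtain ⟨-, -, r1⟩ := ratio₁ w (Or.inl (by rw [h1]; nlinarith))
    obtain ⟨-, -, r2⟩ := ratio₂ w (Or.inl (by rw [h2]; linarith))
    rw [h1, h3] at r1; rw [h2, h4] at r2
    rcases r1 with r1 | r1 <;> rcases r2 with r2 | r2
    · have : ramA w * ((q : ℤ) * (p * p - 1)) = 0 := by linear_combination (p : ℤ) * r1 - r2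
      rcases mul_eq_zero.1 this with e | e
      · omega
      · nlinarith [hpp, hqq, mul_le_mul hpp hqq (by norm_num) (by nlinarith)]
    · have : ramA w * ((p : ℤ) * p * (q * q) - 1) = 0 := by
        linear_combination (p : ℤ) * q * r1 + r2
      rcases mul_eq_zero.1 this with e | e
      · omega
      · nlinarith [hpp, hqq, mul_le_mul hpp hqq (by norm_num) (by nlinarith)]
    · have : ramA w * ((q : ℤ) * q - p * p) = 0 := by linear_combination (p : ℤ) * r1 + q * r2
      rcases mul_eq_zero.1 this with e | e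
      · omega
      · exact hne (by linarith)
    · have : ramB w * ((q : ℤ) * (p * p - 1)) = 0 := by linear_combination (p : ℤ) * r2 - r1
      rcases mul_eq_zero.1 this with e | e
      · omega
      · nlinarith [hpp, hqq, mul_le_mul hpp hqq (by norm_num) (by nlinarith)]

variable (p) in
/-- At `q = p` the two middle functions coincide. -/
theorem srcJQ_self : srcJQ p p = srcJP p p := Subtype.ext rfl

/-- At `q = p`: the ramification indices in each of the four types of places above the cusps. -/
theorem ram_self (w : Place Qb (modularFunctionFieldBar (p * p))) :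
    (downA w = cInf p → downB w = cInf p → ramB w = p * ramA w) ∧
    (downA w = cZero p → downB w = cInf p → ramB w = ramA w) ∧
    (downA w = cInf p → downB w = cZero p → ramB w = ramA w) ∧
    (downA w = cZero p → downB w = cZero p → ramA w = p * ramB w) := by
  obtain ⟨-, h2, h3, -⟩ := ord_src w
  rw [srcJQ_self] at h3
  have hp0 : (p : ℤ) ≠ 0 := by exact_mod_cast hp.out.ne_zero
  have h := h2.symm.trans h3
  refine ⟨?_, ?_, ?_, ?_⟩ <;> intro hA hB <;> rw [hA, hB] at h <;>
    simp only [ord_cInf_jBar, ord_cInf_jNBar, ord_cZero_jBar, ord_cZero_jNBar] at h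
  · linear_combination h
  · linear_combination h
  · exact mul_right_cancel₀ (neg_ne_zero.2 hp0) h.symm
  · linear_combination -h

variable (p) in
/-- The place at infinity lies above the cusp at infinity on both sides. -/
theorem down_cInf :
    downA (q := p) (cInf (p * p)) = cInf p ∧ downB (q := p) (cInf (p * p)) = cInf p := by
  obtain ⟨h1, h2, h3, h4⟩ := ord_src (p := p) (q := p) (cInf (p * p))
  have e1 : (cInf (p * p)).ord (srcJ p p) = -1 := by
    rw [ord_cInf]; exact order_jqModC Qb
  have e2 : (cInf (p * p)).ord (srcJP p p) = -(p : ℤ) := by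
    rw [ord_cInf]
    show (qExpand Qb p (jqModC Qb)).order = _
    rw [order_qExpand' p (jqModC_ne_zero_of_nontrivial Qb), order_jqModC]; ring
  have e4 : (cInf (p * p)).ord (srcJPQ p p) = -((p : ℤ) * p) := by
    rw [ord_cInf]
    show (qExpand Qb p (qExpand Qb p (jqModC Qb))).order = _
    rw [order_qExpand' p ((map_ne_zero_iff _ (qExpand_injective (R := Qb) p)).mpr
      (jqModC_ne_zero_of_nontrivial Qb)),
      order_qExpand' p (jqModC_ne_zero_of_nontrivial Qb), order_jqModC]; ring
  rw [srcJQ_self] at h3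
  rw [e1] at h1; rw [e2] at h2 h3; rw [e4] at h4
  have hp2 : (2 : ℤ) ≤ p := by exact_mod_cast hp.out.two_le
  set v := cInf (p * p)
  constructor
  · rcases eq_cInf_or_cZero p (P := downA v) (by nlinarith [ramA_pos v]) with h | h
    · exact h
    · rw [h, ord_cZero_jBar] at h1; rw [h, ord_cZero_jNBar] at h2; nlinarith
  · rcases eq_cInf_or_cZero p (P := downB v) (by nlinarith [ramB_pos v]) with h | h
    · exact h
    · rw [h, ord_cZero_jBar] at h3; rw [h, ord_cZero_jNBar] at h4; nlinarith

end FermatAgent.Mazur.Step3
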