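import Fermat.Agent.JacCharts.Basic

/-!
A correspondence whose norm preserves reduction `1` respects reduction of divisors.
-/

set_option autoImplicit false

noncomputable section

open AlgebraicCurve FermatAgent.Curve.RR
open FermatAgent.JacCharts (GoodReductionDatum divOf mem_L_iff_divOf degree_divOf)
open FermatAgent.JacCharts.GoodReductionDatum (redDiv_nonneg degree_redDiv)

namespace FermatAgent.Mazur.Step3

variable {K : Type*} [Field K] {A : ValuationSubring K} {k : Type*} [Field k] {π : A →+* k}
variable {F : Type*} [Field F] [Algebra K F] {Fb : Type*} [Field Fb] [Algebra k Fb]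
variable [RRSetting K F] [RRSetting k Fb] (d : GoodReductionDatum A π F Fb)

lemma coeff_le_degree {L : Type*} [Field L] {G : Type*} [Field G] [Algebra L G] [RRSetting L G]
    {D : Divisor L G} (h : 0 ≤ D) (Q : Place L G) : D Q ≤ Divisor.degree D := by
  classical
  have h1 : 0 ≤ D - Finsupp.single Q (D Q) := by
    rw [Finsupp.le_def]
    intro v
    rcases eq_or_ne v Q with rfl | hv
    · simp
    · simpa [Finsupp.single_eq_of_ne hv] using Finsupp.le_def.mp h v
  have h2 := FermatAgent.JacCharts.degree_nonneg h1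
  rw [map_sub, Divisor.degree_single, RRSetting.deg_eq_one] at h2
  push_cast at h2
  linarith

variable (T : Divisor K F →+ Divisor K F) (m : ℤ)

/-- The hypotheses on a correspondence. -/
structure IsRigid : Prop where
  nonneg : ∀ E : Divisor K F, 0 ≤ E → 0 ≤ T E
  degree : ∀ E : Divisor K F, Divisor.degree (T E) = m * Divisor.degree E
  principal : ∀ f : F, d.RedsTo f 1 → d.redDiv (T (divOf (K := K) f)) = 0

variable {d T m}

/-- Places with the same reduction have images with the same reduction. -/
theorem IsRigid.redDiv_single (hT : IsRigid d T m) {P P' : Place K F}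
    (h : d.place P = d.place P') :
    d.redDiv (T (Finsupp.single P 1)) = d.redDiv (T (Finsupp.single P' 1)) := by
  classical
  ext Q
  set ε : Divisor K F → ℤ := fun D => d.redDiv (T D) Q with hε
  have hadd : ∀ D D', ε (D + D') = ε D + ε D' := fun D D' => by
    simp only [hε, map_add, Finsupp.add_apply]
  obtain ⟨N₀, hN₀⟩ : ∃ N : ℕ, 2 * (genusFF K F : ℤ) - 1 ≤ N := ⟨2 * genusFF K F, by omega⟩
  set E₀ := Finsupp.single P (N₀ : ℤ) with hE₀
  have hE₀0 : 0 ≤ E₀ := Finsupp.single_nonneg.2 (by positivity)
  have hdeg₀ : Divisor.degree E₀ = N₀ := by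
    rw [hE₀, Divisor.degree_single, RRSetting.deg_eq_one]; simp
  have hb : ∀ E, 0 ≤ E → 0 ≤ ε E ∧ ε E ≤ m * Divisor.degree E := fun E hE => by
    have h0 := redDiv_nonneg (d := d) (hT.nonneg E hE)
    refine ⟨Finsupp.le_def.mp h0 Q, (coeff_le_degree h0 Q).trans (le_of_eq ?_)⟩
    rw [degree_redDiv, hT.degree]
  set δ := ε (Finsupp.single P 1) - ε (Finsupp.single P' 1) with hδ
  have key : ∀ n : ℕ, |(n : ℤ) * δ| ≤ 2 * (|m| * N₀) := by
    intro n
    set G := (n : ℤ) • (Finsupp.single P (1 : ℤ) - Finsupp.single P' 1) + E₀ with hG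
    have hdegG : Divisor.degree G = N₀ := by
      rw [hG, map_add, map_zsmul, map_sub, Divisor.degree_single, Divisor.degree_single,
        RRSetting.deg_eq_one, RRSetting.deg_eq_one, hdeg₀]
      simp
    have hred : d.redDiv G = d.redDiv E₀ := by
      rw [hG, map_add, map_zsmul, map_sub]
      simp only [Finsupp.mapDomain.addMonoidHom_apply, Finsupp.mapDomain_single, h, sub_self,
        smul_zero, zero_add]
    obtain ⟨f, hf, hfr⟩ := d.exists_redsTo_of_mem_L (G := G) (fb := 1) (by rw [hdegG]; exact hN₀)
      (by rw [hred]; exact FermatAgent.JacCharts.one_mem_L (redDiv_nonneg hE₀0))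
    have hf0 := hfr.ne_zero one_ne_zero
    have hE := (mem_L_iff_divOf hf0).mp hf
    have hdegE : Divisor.degree (divOf (K := K) f + G) = N₀ := by
      rw [map_add, degree_divOf hf0, hdegG, zero_add]
    have hz : ε (divOf (K := K) f) = 0 := by
      simp only [hε, hT.principal f hfr, Finsupp.coe_zero, Pi.zero_apply]
    have heq : ε (divOf (K := K) f + G) = (n : ℤ) * δ + ε E₀ := by
      rw [hadd, hz, zero_add, hG, hadd]
      simp only [hε, hδ, map_zsmul, map_sub, Finsupp.smul_apply, Finsupp.sub_apply, smul_eq_mul]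
    obtain ⟨h1, h2⟩ := hb _ hE
    obtain ⟨h3, h4⟩ := hb _ hE₀0
    rw [hdegE, heq] at h2
    rw [heq] at h1
    rw [hdeg₀] at h4
    have hm : m * N₀ ≤ |m| * N₀ := mul_le_mul_of_nonneg_right (le_abs_self m) (by positivity)
    have hm0 : 0 ≤ |m| * (N₀ : ℤ) := by positivity
    rw [abs_le]
    constructor <;> linarith
  have hδ0 : δ = 0 := by
    by_contra h0
    have h1 := key ((2 * (|m| * N₀)).toNat + 1)
    rw [abs_mul, Nat.abs_cast] at h1
    have h2 : (1 : ℤ) ≤ |δ| := Int.one_le_abs h0
    have h3 := mul_le_mul_of_nonneg_left h2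
      (by positivity : (0 : ℤ) ≤ (((2 * (|m| * N₀)).toNat + 1 : ℕ) : ℤ))
    push_cast at h1 h3
    have := Int.self_le_toNat (2 * (|m| * (N₀ : ℤ)))
    linarith
  exact sub_eq_zero.mp hδ0

/-- A divisor which vanishes after reduction has image vanishing after reduction. -/
theorem IsRigid.redDiv_eq_zero (hT : IsRigid d T m) {D : Divisor K F} (h : d.redDiv D = 0) :
    d.redDiv (T D) = 0 := by
  classical
  rcases isEmpty_or_nonempty (Place K F) with hE | hNe
  · simp [Subsingleton.elim D 0]
  let s : Place k Fb → Place K F := fun Q =>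
    if hQ : ∃ P, d.place P = Q then hQ.choose else hNe.some
  have hs : ∀ P, d.place (s (d.place P)) = d.place P := fun P => by
    have hQ : ∃ P', d.place P' = d.place P := ⟨P, rfl⟩
    simp only [s, dif_pos hQ]
    exact hQ.choose_spec
  let L : Divisor k Fb →+ Divisor k Fb :=
    (d.redDiv.comp T).comp (Finsupp.mapDomain.addMonoidHom s)
  suffices h' : d.redDiv.comp T = L.comp d.redDiv by
    have := DFunLike.congr_fun h' D
    simp only [AddMonoidHom.comp_apply] at this
    rw [this, h, map_zero]
  refine Finsupp.addHom_ext fun P n => ?_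
  simp only [L, AddMonoidHom.comp_apply, Finsupp.mapDomain.addMonoidHom_apply,
    Finsupp.mapDomain_single]
  have hn : ∀ P : Place K F, Finsupp.single P n = n • Finsupp.single P (1 : ℤ) := fun P => by simp
  have h1 := hT.redDiv_single (P := s (d.place P)) (P' := P) (hs P)
  rw [hn P, hn (s _)]
  simp only [map_zsmul, ← Finsupp.mapDomain.addMonoidHom_apply] at h1 ⊢
  rw [h1]

end FermatAgent.Mazur.Step3
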