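import Fermat.Agent.Mazur.Step3.GaussRep
import Fermat.Agent.Mazur.Step3.Rigidity
import Fermat.Agent.ES.NormFormula
import Fermat.Agent.ES.Degree
import Fermat.Agent.Mazur.Step3.Cusps
import Fermat.Prelude.Def_ModularCurve_HeckeModule

/-!
The Hecke correspondences of prime level respect reduction of divisors at the good places.
-/

set_option autoImplicit false
set_option linter.style.haveILetI false

noncomputable section

open AlgebraicCurve ModularCurve Polynomial
open FermatAgent.JacCharts (GoodReductionDatum divOf)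
open FermatAgent.Igusa (gev gevC)
open FermatAgent.ES (normAlong qTwist)

namespace FermatAgent.Mazur.Step3

local notation "Qb" => AlgebraicClosure ℚ

/-- The Hecke correspondence on divisors. -/
def heckeDiv (N q : ℕ) [NeZero N] [NeZero q] :
    Divisor Qb (modularFunctionFieldBar N) →+ Divisor Qb (modularFunctionFieldBar N) :=
  heckeDivBar (FermatAgent.Curve.isIntegralAlong (heckeAlphaBar Qb N q))
    (FermatAgent.Curve.isIntegralAlong (heckeBetaBar Qb N q))

theorem heckeOperatorBar_mk (N : ℕ) [NeZero N] (q : Nat.Primes)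
    (D : Divisor.degZero (K := Qb) (F := modularFunctionFieldBar N)) :
    haveI : NeZero (q : ℕ) := ⟨q.2.ne_zero⟩
    ∃ h : heckeDiv N q (D : Divisor Qb (modularFunctionFieldBar N)) ∈
        Divisor.degZero (K := Qb) (F := modularFunctionFieldBar N),
      heckeOperatorBar N q (Pic0.mk D) = Pic0.mk ⟨_, h⟩ := by
  haveI : NeZero (q : ℕ) := ⟨q.2.ne_zero⟩
  have hα := FermatAgent.Curve.isIntegralAlong (heckeAlphaBar Qb N q)
  have hβ := FermatAgent.Curve.isIntegralAlong (heckeBetaBar Qb N q)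
  have hFI := FermatAgent.Curve.fundamentalIdentityAlong (heckeBetaBar Qb N q) hβ
  refine ⟨Divisor.correspondence_mem_degZero _ _ hβ hα hFI D.2, ?_⟩
  rw [heckeOperatorBar_apply,
    heckeOperatorAlong_eq hα hβ hFI (FermatAgent.Curve.finiteAlong _)
      (FermatAgent.Curve.normFormulaAlong _ _)]
  rfl

theorem correspondence_nonneg {K F F' : Type*} [Field K] [Field F] [Field F'] [Algebra K F]
    [Algebra K F'] [HasPrincipalDivisors K F'] (φ ψ : F →ₐ[K] F')
    (hφ : φ.toRingHom.IsIntegral) (hψ : ψ.toRingHom.IsIntegral) {E : Divisor K F} (hE : 0 ≤ E) :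
    0 ≤ Divisor.correspondence φ ψ hφ hψ E := by
  classical
  rw [← Finsupp.sum_single E, Finsupp.sum, map_sum]
  refine Finset.sum_nonneg fun P _ => ?_
  rw [← Finsupp.smul_single_one, map_zsmul]
  exact smul_nonneg (Finsupp.le_def.mp hE P)
    (Finsupp.le_def.mpr fun v => FermatAgent.ES.correspondence_single_nonneg φ ψ hφ hψ P v)

variable {p : ℕ} [hp : Fact p.Prime] {A : ValuationSubring Qb} {k : Type*} [Field k]
variable {π : A →+* k} {ℓ : ℕ} [Fact ℓ.Prime] [CharP k ℓ]
variable {d : GoodReductionDatum A π (modularFunctionFieldBar p) (modularFunctionFieldFullC k p)}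

/-- The norm map of a correspondence. -/
def corrNorm (N q : ℕ) [NeZero N] [NeZero q] (f : modularFunctionFieldBar N) :
    modularFunctionFieldBar N :=
  normAlong (heckeAlphaBar Qb N q) (heckeBetaBar Qb N q f)

theorem corrNorm_mul (N q : ℕ) [NeZero N] [NeZero q] (f g : modularFunctionFieldBar N) :
    corrNorm N q (f * g) = corrNorm N q f * corrNorm N q g := by
  rw [corrNorm, map_mul, normAlong_mul]; rfl

theorem root_of_unity_mem {n : ℕ} (hn : n ≠ 0) {u : Qb} (hu : u ^ n = 1) : u ∈ A :=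
  mem_of_isIntegralElem ⟨X ^ n - C 1, monic_X_pow_sub_C _ hn, by simp [eval₂_sub, hu]⟩

/-- The twisted product of a series. -/
def twistProd {R : Type*} [CommRing R] (q : ℕ) [NeZero q] (u : Rˣ) (y : LaurentSeries R) :
    LaurentSeries R :=
  qExpand R (q * q) y * ∏ b ∈ Finset.range q, qTwist (u ^ b) y

/-- The norm of a series with integral coefficients, away from the level. -/
theorem exists_series_corrNorm {q : ℕ} [NeZero q] (hq : q.Prime) (hqp : q ≠ p) :
    ∃ u : Aˣ, ∀ (y : LaurentSeries A)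
      (hy : coeffMap A.subtype y ∈ modularFunctionFieldBar p),
      ∃ w : LaurentSeries A, coeffMap A.subtype w = (corrNorm p q ⟨_, hy⟩ : LaurentSeries Qb) ∧
        qExpand A q w = twistProd q u y := by
  have hqp' : ¬ q ∣ p := fun h => hqp ((Nat.prime_dvd_prime_iff_eq hq hp.out).1 h)
  obtain ⟨ζ, hζ, hform⟩ := FermatAgent.ES.heckeNormFormula_of_degree hq hqp'
    (FermatAgent.ES.finiteAlong_heckeAlphaBar p q)
    (FermatAgent.ES.finrankAlong_heckeAlphaBar_le p q hq hqp')
  have hζ' : (ζ : Qb) ^ q = 1 := by rw [← Units.val_pow_eq_pow_val, hζ, Units.val_one]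
  let z : A := ⟨ζ, root_of_unity_mem hq.ne_zero hζ'⟩
  have hz : z ^ q = 1 := Subtype.ext (by simpa [z] using hζ')
  let zu : Aˣ := Units.ofPowEqOne z q hz hq.ne_zero
  have hzu : Units.map A.subtype.toMonoidHom zu = ζ := Units.ext rfl
  refine ⟨zu, fun y hy => ?_⟩
  set g := corrNorm p q ⟨_, hy⟩ with hg
  have hw : coeffMap A.subtype (twistProd q zu y) = qExpand Qb q (g : LaurentSeries Qb) := by
    rw [hg, corrNorm, hform, twistProd, map_mul, map_prod, ModularCurve.coeffMap_qExpand]
    refine congrArg₂ _ rfl (Finset.prod_congr rfl fun b _ => ?_)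
    rw [FermatAgent.ES.coeffMap_qTwist, map_pow, hzu]
  have hgA : ∀ n : ℤ, (g : LaurentSeries Qb).coeff n ∈ A := fun n => by
    rw [← qExpand_coeff_mul q (g : LaurentSeries Qb) n, ← hw]
    exact ((twistProd q zu y).coeff _).2
  let gA : LaurentSeries A :=
    { coeff := fun n => ⟨(g : LaurentSeries Qb).coeff n, hgA n⟩
      isPWO_support' := (g : LaurentSeries Qb).isPWO_support.mono fun n hn h => hn (Subtype.ext h) }
  have hgA' : coeffMap A.subtype gA = (g : LaurentSeries Qb) := HahnSeries.ext rfl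
  refine ⟨gA, hgA', ?_⟩
  ext n
  have h := congrArg (fun u : LaurentSeries Qb => u.coeff n) hw
  simp only [coeffMap_coeff] at h
  refine Eq.trans ?_ h.symm
  rw [← hgA', ← ModularCurve.coeffMap_qExpand]
  rfl

theorem map_eq_of_rep {P : A[X][X]} {Q : A[X]} {a : A} (ha : π a = 0) :
    coeffMap π (gev A p (C Q + C (C a) * P)) = coeffMap π (gev A p (C Q)) := by
  rw [FermatAgent.Igusa.coeffMap_gev, FermatAgent.Igusa.coeffMap_gev]
  simp [Polynomial.map_C, ha]

/-- Away from the level. -/
theorem redsTo_corrNorm (hd : d.IsLaurent) (hℓp : ℓ ≠ p) {q : ℕ} [NeZero q] (hq : q.Prime)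
    (hqp : q ≠ p) {f : modularFunctionFieldBar p} (hf : d.RedsTo f 1) :
    d.RedsTo (corrNorm p q f) 1 := by
  have hℓp' : ¬ ℓ ∣ p := fun h =>
    hℓp ((Nat.prime_dvd_prime_iff_eq (Fact.out : ℓ.Prime) hp.out).1 h)
  obtain ⟨P, Q, a, ha, hQ, hfz⟩ := exists_rep_one ℓ hd hℓp' hf
  have hy : f * gevF p A (C Q) = gevF p A (C Q + C (C a) * P) := by
    rw [hfz, map_add, map_mul]
    congr 2
    apply Subtype.ext
    rw [coe_gevF, FermatAgent.Igusa.gev_C, FermatAgent.Igusa.gevC_C,
      FermatAgent.Igusa.coeffMap_C, IntermediateField.coe_algebraMap_apply,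
      algebraMap_laurentSeries_eq_single, HahnSeries.C_apply]
    rfl
  obtain ⟨u, hu⟩ := exists_series_corrNorm (p := p) (A := A) hq hqp
  obtain ⟨w, hw, hw'⟩ := hu _ (gevF p A (C Q + C (C a) * P)).2
  obtain ⟨v, hv, hv'⟩ := hu _ (gevF p A (C Q)).2
  have hwv : coeffMap π w = coeffMap π v := by
    apply qExpand_injective (R := k) q
    rw [← ModularCurve.coeffMap_qExpand, ← ModularCurve.coeffMap_qExpand, hw', hv', twistProd,
      twistProd, map_mul, map_mul, map_prod, map_prod, ModularCurve.coeffMap_qExpand,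
      ModularCurve.coeffMap_qExpand, map_eq_of_rep ha]
    refine congrArg₂ _ rfl (Finset.prod_congr rfl fun b _ => ?_)
    rw [FermatAgent.ES.coeffMap_qTwist, FermatAgent.ES.coeffMap_qTwist, map_eq_of_rep ha]
  have hz : coeffMap π (gev A p (C Q)) ≠ 0 := by rwa [FermatAgent.Igusa.gev_C]
  have hv0 : coeffMap π v ≠ 0 := by
    intro h
    have h1 := congrArg (qExpand k q) h
    rw [map_zero, ← ModularCurve.coeffMap_qExpand, hv', twistProd, map_mul, map_prod, mul_eq_zero,
      ModularCurve.coeffMap_qExpand, map_eq_zero_iff _ (qExpand_injective (R := k) (q * q)),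
      Finset.prod_eq_zero_iff] at h1
    rcases h1 with h1 | ⟨b, -, h1⟩
    · exact hz h1
    · rw [FermatAgent.ES.coeffMap_qTwist,
        map_eq_zero_iff _ (FermatAgent.ES.qTwist_injective _)] at h1
      exact hz h1
  obtain ⟨wb, hwb, hwb'⟩ := redsTo_series hd w (hw ▸ (corrNorm p q _).2)
  obtain ⟨vb, hvb, hvb'⟩ := redsTo_series hd v (hv ▸ (corrNorm p q _).2)
  have hwv' : wb = vb := Subtype.ext (by rw [hwb', hvb', hwv])
  have hvb0 : vb ≠ 0 := fun h => hv0 (by rw [← hvb', h]; rfl)
  rw [show (⟨coeffMap A.subtype v, _⟩ : modularFunctionFieldBar p) =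
    corrNorm p q (gevF p A (C Q)) from Subtype.ext hv] at hvb
  rw [show (⟨coeffMap A.subtype w, _⟩ : modularFunctionFieldBar p) =
    corrNorm p q (gevF p A (C Q + C (C a) * P)) from Subtype.ext hw, ← hy, corrNorm_mul, hwv']
    at hwb
  have h := redsTo_div hwb hvb hvb0
  rwa [mul_div_assoc, div_self (hvb.ne_zero hvb0), mul_one, div_self hvb0] at h

/-- The one-variable polynomials in `j(p ·)`. -/
theorem beta_gevF_C (R : A[X]) : heckeBetaBar Qb p p (gevF p A (C R)) =
    heckeAlphaBar Qb p p (gevF p A (R.map C)) := by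
  apply Subtype.ext
  rw [coe_heckeBetaBar, coe_heckeAlphaBar, coe_gevF, coe_gevF, ← ModularCurve.coeffMap_qExpand,
    FermatAgent.Igusa.gev_C]
  congr 1
  have h : (qExpand A p).comp (gevC A) = (gev A p).comp (mapRingHom C) := by
    refine Polynomial.ringHom_ext (fun a => ?_) ?_
    · simp [FermatAgent.Igusa.gevC_C, FermatAgent.Igusa.gev_C, Polynomial.map_C]
    · simp [FermatAgent.Igusa.gevC_X, FermatAgent.Igusa.gev_X, jqNModC]
  exact RingHom.congr_fun h R

/-- A sum over the coefficients. -/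
theorem beta_gevF (P : A[X][X]) {n : ℕ} (hn : P.natDegree < n) :
    heckeBetaBar Qb p p (gevF p A P) = ∑ i ∈ Finset.range n,
      heckeAlphaBar Qb p p (gevF p A ((P.coeff i).map C)) *
        heckeBetaBar Qb p p (gevF p A X) ^ i := by
  conv_lhs => rw [P.as_sum_range' n hn]
  simp only [map_sum, ← C_mul_X_pow_eq_monomial, map_mul, map_pow, beta_gevF_C]

/-- The polynomials in `j(p ·)` with nonzero reduction have nonzero reduction. -/
theorem redsTo_gevF_map_ne_zero (hd : d.IsLaurent) {R : A[X]} (hR : coeffMap π (gevC A R) ≠ 0)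
    {fb : modularFunctionFieldFullC k p} (hfb : d.RedsTo (gevF p A (R.map C)) fb) : fb ≠ 0 := by
  intro h0
  obtain ⟨gb, hgb, hgb'⟩ := redsTo_gevF hd (R.map C)
  rw [hfb.unique hgb] at h0
  refine hR (qExpand_injective (R := k) p ?_)
  rw [map_zero, ← ModularCurve.coeffMap_qExpand]
  have h : qExpand A p (gevC A R) = gev A p (R.map C) := by
    have h2 := congrArg (fun x : modularFunctionFieldBar (p * p) => (x : LaurentSeries Qb))
      (beta_gevF_C R)
    simp only [coe_heckeBetaBar, coe_heckeAlphaBar, coe_gevF, ← ModularCurve.coeffMap_qExpand,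
      FermatAgent.Igusa.gev_C] at h2
    exact FermatAgent.Igusa.coeffMap_injective A.subtype_injective h2
  rw [h, ← hgb', h0]
  rfl

variable (d) in
/-- The inclusion of the integers of level `p` at level `p * p`. -/
def intEmb : intRing d →+* modularFunctionFieldBar (p * p) :=
  (heckeAlphaBar Qb p p : modularFunctionFieldBar p →+* modularFunctionFieldBar (p * p)).comp
    (intRing d).subtype

omit [Fact ℓ.Prime] [CharP k ℓ] in
theorem alpha_mem_intSub {x : modularFunctionFieldBar p} (hx : x ∈ intRing d) :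
    heckeAlphaBar Qb p p x ∈ intSub (intEmb d) :=
  mem_intSub.2 ((intEmb d).isIntegralElem_map (x := ⟨x, hx⟩))

/-- A monic relation. -/
theorem alpha_smul_div {a : Qb} {x z : modularFunctionFieldBar p} :
    heckeAlphaBar Qb p p (a • x / z) =
      algebraMap Qb _ a * heckeAlphaBar Qb p p x / heckeAlphaBar Qb p p z := by
  rw [Algebra.smul_def, map_div₀, map_mul, AlgHom.commutes]

set_option maxHeartbeats 800000 in
/-- `j(p²τ)` is integral over the integers of level `p`. -/
theorem beta_X_mem_intSub (hd : d.IsLaurent) (hℓp : ¬ ℓ ∣ p) :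
    heckeBetaBar Qb p p (gevF p A X) ∈ intSub (intEmb d) := by
  obtain ⟨gb, hgb, -⟩ := redsTo_gevF hd (X ^ (p + 1))
  have hg0 : gevF p A (X ^ (p + 1)) ≠ 0 := by
    rw [map_pow]
    refine pow_ne_zero _ fun h => ?_
    have h1 := congrArg (fun x : modularFunctionFieldBar p => (x : LaurentSeries Qb)) h
    simp only [coe_gevF, FermatAgent.Igusa.gev_X, coeffMap_jqNModC] at h1
    exact jqModC_ne_zero_of_nontrivial Qb ((map_eq_zero_iff _ (qExpand_injective p)).1 h1)
  obtain ⟨c, P, Q, -, hdeg, -, hQ, hmul, hc⟩ := exists_rep ℓ hd hℓp hg0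
  obtain ⟨a, rfl, -⟩ := hc gb hgb
  rw [index_gamma0_prime hp.out] at hdeg
  obtain ⟨zb, hzb, -⟩ := redsTo_gevF hd (Q.map C)
  have hzb0 := redsTo_gevF_map_ne_zero hd hQ hzb
  have hcoef : ∀ i, (a : Qb) • gevF p A ((P.coeff i).map C) / gevF p A (Q.map C) ∈ intRing d := by
    intro i
    obtain ⟨pb, hpb, -⟩ := redsTo_gevF hd ((P.coeff i).map C)
    exact mem_intRing.2 (redsTo_div (hpb.smul a) hzb hzb0).mem
  refine mem_intSub.2 ⟨X ^ (p + 1) - ∑ i ∈ Finset.range (p + 1), C ⟨_, hcoef i⟩ * X ^ i,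
    monic_X_pow_sub ((degree_sum_le _ _).trans_lt ?_), ?_⟩
  · refine (Finset.sup_lt_iff (WithBot.bot_lt_coe (p + 1))).2 fun i hi => ?_
    exact (degree_C_mul_X_pow_le i _).trans_lt (Nat.cast_lt.2 (Finset.mem_range.1 hi))
  simp only [eval₂_sub, eval₂_finsetSum, eval₂_mul, eval₂_C, eval₂_pow, eval₂_X]
  have hz0 : heckeAlphaBar Qb p p (gevF p A (Q.map C)) ≠ 0 :=
    (_root_.map_ne_zero _).2 (hzb.ne_zero hzb0)
  refine mul_right_cancel₀ hz0 ?_
  have h := congrArg (heckeBetaBar Qb p p) hmul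
  rw [map_mul, beta_gevF_C, Algebra.smul_def, map_mul, AlgHom.commutes, map_pow, map_pow,
    beta_gevF P hdeg] at h
  rw [zero_mul, sub_mul, sub_eq_zero, h, Finset.mul_sum, Finset.sum_mul]
  refine Finset.sum_congr rfl fun i _ => ?_
  show _ = heckeAlphaBar Qb p p
    ((a : Qb) • gevF p A ((P.coeff i).map C) / gevF p A (Q.map C)) * _ * _
  rw [alpha_smul_div]
  field_simp

/-- At the level. -/
theorem redsTo_corrNorm_self (hd : d.IsLaurent) (hℓp : ℓ ≠ p)
    {f : modularFunctionFieldBar p} (hf : d.RedsTo f 1) :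
    d.RedsTo (corrNorm p p f) 1 := by
  have hℓp' : ¬ ℓ ∣ p := fun h =>
    hℓp ((Nat.prime_dvd_prime_iff_eq (Fact.out : ℓ.Prime) hp.out).1 h)
  obtain ⟨P, Q, a, ha, hQ, hfz⟩ := exists_rep_one ℓ hd hℓp' hf
  obtain ⟨zb, hzb, -⟩ := redsTo_gevF hd (Q.map C)
  have hzb0 := redsTo_gevF_map_ne_zero hd hQ hzb
  have hh : heckeBetaBar Qb p p (gevF p A P) * heckeAlphaBar Qb p p (gevF p A (Q.map C))⁻¹ ∈
      intSub (intEmb d) := by
    refine mul_mem ?_ (alpha_mem_intSub (mem_intRing.2 (redsTo_inv hzb hzb0).mem))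
    rw [beta_gevF P (Nat.lt_succ_self _)]
    refine sum_mem fun i _ =>
      mul_mem (alpha_mem_intSub ?_) (pow_mem (beta_X_mem_intSub hd hℓp') i)
    obtain ⟨pb, hpb, -⟩ := redsTo_gevF hd ((P.coeff i).map C)
    exact mem_intRing.2 hpb.mem
  have hac := GoodReductionDatum.redsTo_algebraMap (d := d) a
  have hz0 : heckeAlphaBar Qb p p (gevF p A (Q.map C)) ≠ 0 :=
    (_root_.map_ne_zero _).2 (hzb.ne_zero hzb0)
  have hβf : heckeBetaBar Qb p p f = 1 + heckeAlphaBar Qb p p (algebraMap Qb _ (a : Qb)) *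
      (heckeBetaBar Qb p p (gevF p A P) * heckeAlphaBar Qb p p (gevF p A (Q.map C))⁻¹) := by
    have h := congrArg (heckeBetaBar Qb p p) hfz
    rw [map_mul, map_add, map_mul, beta_gevF_C, AlgHom.commutes] at h
    rw [AlgHom.commutes, map_inv₀]
    field_simp
    linear_combination h
  obtain ⟨w, hw, hn⟩ := normAlong_one_add (heckeAlphaBar Qb p p)
    (FermatAgent.ES.finiteAlong_heckeAlphaBar p p) (intRing d) (mem_intRing.2 hac.mem)
    (mem_intSub.1 hh)
  rw [corrNorm, hβf, hn]
  have h1 := GoodReductionDatum.redsTo_one.add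
    (hac.mul (GoodReductionDatum.redsTo_red (d := d) ⟨w, mem_intRing.1 hw⟩))
  rwa [ha, map_zero, zero_mul, add_zero] at h1

theorem corrNorm_ne_zero (N q : ℕ) [NeZero N] [NeZero q] {f : modularFunctionFieldBar N}
    (hf : f ≠ 0) : corrNorm N q f ≠ 0 :=
  normAlong_ne_zero _ (FermatAgent.ES.finiteAlong_heckeAlphaBar N q) ((_root_.map_ne_zero _).2 hf)

variable [RRSettingR : FermatAgent.Curve.RR.RRSetting k (modularFunctionFieldFullC k p)]

/-- Every Hecke correspondence respects reduction of divisors. -/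
theorem isRigid_heckeDiv (hd : d.IsLaurent) (hℓp : ℓ ≠ p) (q : ℕ) [NeZero q] (hq : q.Prime) :
    IsRigid d (heckeDiv p q) (finrankAlong Qb (heckeBetaBar Qb p q)) where
  nonneg E hE := correspondence_nonneg _ _ _ _ hE
  degree E := Divisor.degree_correspondence _ _ _ _
    (FermatAgent.Curve.fundamentalIdentityAlong _ _) E
  principal f hf := by
    have hf0 := hf.ne_zero one_ne_zero
    have hN : d.RedsTo (corrNorm p q f) 1 := by
      by_cases h : q = p
      · subst h; exact redsTo_corrNorm_self hd hℓp hf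
      · exact redsTo_corrNorm hd hℓp hq h hf
    have hT : heckeDiv p q (divOf (K := Qb) f) = divOf (K := Qb) (corrNorm p q f) := by
      refine Finsupp.ext fun v => ?_
      rw [FermatAgent.JacCharts.divOf_apply (corrNorm_ne_zero p q hf0)]
      exact FermatAgent.ES.correspondence_apply_principal _ _ _ _
        (FermatAgent.ES.finiteAlong_heckeAlphaBar p q)
        (FermatAgent.Curve.normFormulaAlong _ _) hf0
        (FermatAgent.JacCharts.divOf_apply hf0) v
    rw [hT, hN.redDiv_divOf one_ne_zero]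
    refine Finsupp.ext fun Q => ?_
    rw [FermatAgent.JacCharts.divOf_apply one_ne_zero, Place.ord_one]
    rfl

end FermatAgent.Mazur.Step3
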