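import Fermat.Agent.Mazur.Step3.CuspClass
import Fermat.Agent.Mazur.Step3.CuspFibres
import Fermat.Agent.Mazur.Step3.HeckeNorm
import Fermat.Prelude.Def_ModularCurve_HeckeModule

/-!
The Eisenstein ideal kills the cuspidal class.
-/

set_option autoImplicit false
set_option linter.style.haveILetI false
set_option maxHeartbeats 800000

noncomputable section

open AlgebraicCurve ModularCurve IntermediateField
open FermatAgent.ModFun (jBar jNBar)

namespace FermatAgent.Mazur.Step3

local notation "Qb" => AlgebraicClosure ℚ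

variable (p : ℕ) [hp : Fact p.Prime]

section Degrees

variable (q : ℕ) [hq : Fact q.Prime]

theorem finrankAlong_alpha_self : finrankAlong Qb (heckeAlphaBar Qb p p) = p := by
  have h := FermatAgent.ModCurveTorsion.finrankAlong_heckeAlphaBar p p Qb
  rw [FermatAgent.ModCurveTorsion.dedekindPsi_mul_of_dvd hp.out.ne_zero hp.out dvd_rfl] at h
  exact Nat.eq_of_mul_eq_mul_left (FermatAgent.ModCurveTorsion.dedekindPsi_pos hp.out.ne_zero)
    (h.trans (mul_comm _ _))

theorem finrankAlong_alpha (hqp : q ≠ p) : finrankAlong Qb (heckeAlphaBar Qb p q) = q + 1 := by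
  have h := FermatAgent.ModCurveTorsion.finrankAlong_heckeAlphaBar p q Qb
  rw [FermatAgent.ModCurveTorsion.dedekindPsi_mul_of_not_dvd hp.out.ne_zero hq.out
    (fun hd => hqp ((Nat.prime_dvd_prime_iff_eq hq.out hp.out).1 hd)), mul_comm (q + 1)] at h
  exact Nat.eq_of_mul_eq_mul_left (FermatAgent.ModCurveTorsion.dedekindPsi_pos hp.out.ne_zero) h

/-- The Atkin–Lehner involution at `q` of the source. -/
def swapAt (hco : q.Coprime p) :
    modularFunctionFieldBar (p * q) ≃ₐ[Qb] modularFunctionFieldBar (p * q) :=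
  ((IntermediateField.equivOfEq (congrArg modularFunctionFieldBar (mul_comm p q))).trans
    (FermatAgent.ModFun.atkinLehnerBar (q := q) (N' := p) hco Qb)).trans
    (IntermediateField.equivOfEq (congrArg modularFunctionFieldBar (mul_comm q p)))

theorem swapAt_series (hco : q.Coprime p) {d : ℕ} [NeZero d] (hd : d ∣ p)
    (z : modularFunctionFieldBar (p * q))
    (hz : (z : LaurentSeries Qb) = qExpand Qb d (jqModC Qb)) :
    ((swapAt p q hco z : modularFunctionFieldBar (p * q)) : LaurentSeries Qb) =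
      qExpand Qb q (qExpand Qb d (jqModC Qb)) := by
  haveI : NeZero (q * d) := ⟨Nat.mul_ne_zero hq.out.ne_zero (NeZero.ne d)⟩
  obtain ⟨h1, -⟩ := FermatAgent.ModFun.atkinLehner_qExpand (q := q) (N' := p) hco hd
  have emb : ∀ (e : ℕ) [NeZero e], coeffEmb Qb (qExpand ℚ e jq) = qExpand Qb e (jqModC Qb) := by
    intro e _
    rw [coeffEmb, coeffMap_qExpand]
    exact congrArg _ (FermatAgent.ModFun.coeffEmb_jq Qb)
  have hy : IntermediateField.equivOfEq (congrArg modularFunctionFieldBar (mul_comm p q)) z =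
      FermatAgent.ModFun.toBaseChange Qb (modularFunctionFieldFull (q * p))
        ⟨qExpand ℚ d jq, ModularCurve.jqd_mem_full _ (hd.trans (dvd_mul_left p q))⟩ :=
    Subtype.ext (by simpa [emb d] using hz)
  simp only [swapAt, AlgEquiv.trans_apply, hy]
  rw [FermatAgent.ModFun.atkinLehnerBar_toBaseChange]
  refine (congrArg (coeffEmb Qb) h1).trans ?_
  rw [emb, qExpand_qExpand]

theorem finrankAlong_beta (hqp : q ≠ p) : finrankAlong Qb (heckeBetaBar Qb p q) = q + 1 := by
  have hco : q.Coprime p := (Nat.coprime_primes hq.out hp.out).2 hqp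
  set σ := swapAt p q hco
  have hcomp : σ.toAlgHom.comp (heckeAlphaBar Qb p q) = heckeBetaBar Qb p q := by
    have e1 : σ (heckeAlphaBar Qb p q (jBar Qb p)) = heckeBetaBar Qb p q (jBar Qb p) := by
      refine Subtype.ext ((swapAt_series p q hco (one_dvd p) _ ?_).trans ?_)
      · rw [qExpand_one_apply]; rfl
      · rw [qExpand_one_apply]; rfl
    have e2 : σ (heckeAlphaBar Qb p q (jNBar Qb p)) = heckeBetaBar Qb p q (jNBar Qb p) :=
      Subtype.ext ((swapAt_series p q hco (dvd_refl p) _ rfl).trans rfl)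
    refine AlgHom.ext fun x => ?_
    have hx : x ∈ IntermediateField.adjoin Qb ({jBar Qb p, jNBar Qb p} :
        Set (modularFunctionFieldBar p)) := by
      rw [FermatAgent.ModFun.adjoin_jBar_jNBar]; exact IntermediateField.mem_top
    induction hx using IntermediateField.adjoin_induction with
    | mem x hx =>
      rcases hx with rfl | rfl
      · exact e1
      · exact e2
    | algebraMap c => rw [AlgHom.commutes, AlgHom.commutes]
    | add x y _ _ hx hy => rw [map_add, map_add, hx, hy]
    | mul x y _ _ hx hy => rw [map_mul, map_mul, hx, hy]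
    | inv x _ hx => rw [map_inv₀, map_inv₀, hx]
  rw [← finrankAlong_alpha p q hqp, ← hcomp]
  set α := heckeAlphaBar Qb p q
  have h1 := FermatAgent.ES.finrank_mul_finrankAlong (σ.toAlgHom.comp α) Qb⟮jBar Qb p⟯
  have h2 := FermatAgent.ES.finrank_mul_finrankAlong α Qb⟮jBar Qb p⟯
  rw [finrank_adjoin_jBar_prime] at h1 h2
  refine Nat.eq_of_mul_eq_mul_left p.succ_pos (h1.trans (Eq.trans ?_ h2.symm))
  rw [← IntermediateField.map_map]
  symm
  exact Algebra.finrank_eq_of_equiv_equiv
    (((Qb⟮jBar Qb p⟯).map α).equivMap σ.toAlgHom).toRingEquiv σ.toRingEquiv rfl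

end Degrees

section Divisors

variable {q : ℕ} [hq : Fact q.Prime]

/-- The fibre of the second projection. -/
def fibB (c : Place Qb (modularFunctionFieldBar p)) :
    Finset (Place Qb (modularFunctionFieldBar (p * q))) :=
  Place.fiberAlong (heckeBetaBar Qb p q) (FermatAgent.Curve.isIntegralAlong _) c

/-- The fibre of the first projection. -/
def fibA (c : Place Qb (modularFunctionFieldBar p)) :
    Finset (Place Qb (modularFunctionFieldBar (p * q))) :=
  Place.fiberAlong (heckeAlphaBar Qb p q) (FermatAgent.Curve.isIntegralAlong _) c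

theorem mem_fibB {c : Place Qb (modularFunctionFieldBar p)}
    {w : Place Qb (modularFunctionFieldBar (p * q))} : w ∈ fibB p c ↔ downB w = c :=
  Place.mem_fiberAlong

theorem mem_fibA {c : Place Qb (modularFunctionFieldBar p)}
    {w : Place Qb (modularFunctionFieldBar (p * q))} : w ∈ fibA p c ↔ downA w = c :=
  Place.mem_fiberAlong

theorem sum_ramA (c : Place Qb (modularFunctionFieldBar p)) :
    ∑ w ∈ fibA (q := q) p c, ramA w = (finrankAlong Qb (heckeAlphaBar Qb p q) : ℤ) := by
  rw [← FermatAgent.Curve.sum_ramificationIndexAlong _ (FermatAgent.Curve.isIntegralAlong _) c]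
  push_cast
  rfl

theorem sum_ramB (c : Place Qb (modularFunctionFieldBar p)) :
    ∑ w ∈ fibB (q := q) p c, ramB w = (finrankAlong Qb (heckeBetaBar Qb p q) : ℤ) := by
  rw [← FermatAgent.Curve.sum_ramificationIndexAlong _ (FermatAgent.Curve.isIntegralAlong _) c]
  push_cast
  rfl

theorem heckeDiv_single (c : Place Qb (modularFunctionFieldBar p)) :
    heckeDiv p q (Finsupp.single c 1) =
      ∑ w ∈ fibB (q := q) p c, Finsupp.single (downA w) (ramB w) := by
  show Divisor.pushforwardAlong (heckeAlphaBar Qb p q) (FermatAgent.Curve.isIntegralAlong _)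
    (Divisor.pullbackAlong (heckeBetaBar Qb p q) (FermatAgent.Curve.isIntegralAlong _) _) = _
  rw [Divisor.pullbackAlong_single, map_sum]
  refine Finset.sum_congr rfl fun w _ => ?_
  rw [Divisor.pushforwardAlong_single, FermatAgent.Curve.inertiaDegAlong_eq_one, one_mul,
    Nat.cast_one, mul_one]
  rfl

/-- For `q ≠ p` each cusp is an eigenvector. -/
theorem heckeDiv_cusp (hqp : q ≠ p) {c : Place Qb (modularFunctionFieldBar p)}
    (hc : c = cInf p ∨ c = cZero p) :
    heckeDiv p q (Finsupp.single c 1) = Finsupp.single c ((q + 1 : ℕ) : ℤ) := by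
  rw [heckeDiv_single, Finset.sum_congr rfl fun w hw => by
      rw [downA_eq_of_downB w hqp hc ((mem_fibB p).1 hw)],
    ← Finsupp.single_finsetSum, sum_ramB, finrankAlong_beta p q hqp]

/-- The image of the cuspidal divisor at `q = p`. -/
theorem heckeDiv_cusp_self :
    heckeDiv p p (Finsupp.single (cInf p) 1 - Finsupp.single (cZero p) 1) =
      Finsupp.single (cInf p) 1 - Finsupp.single (cZero p) 1 := by
  classical
  have hne := cInf_ne_cZero p
  let T : Place Qb (modularFunctionFieldBar p) → Place Qb (modularFunctionFieldBar p) →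
      Finset (Place Qb (modularFunctionFieldBar (p * p))) := fun a b =>
    (fibA (q := p) p a).filter fun w => downB w = b
  have memT : ∀ {a b w}, w ∈ T a b ↔ downA w = a ∧ downB w = b := fun {a b w} => by
    simp only [T, Finset.mem_filter, mem_fibA]
  have splitA : ∀ {a}, (a = cInf p ∨ a = cZero p) →
      fibA (q := p) p a = T a (cInf p) ∪ T a (cZero p) := fun {a} ha => by
    ext w
    simp only [Finset.mem_union, memT, mem_fibA]
    refine ⟨fun h => ?_, fun h => h.elim And.left And.left⟩
    exact ((down_cusp w).1 (h ▸ ha)).imp (⟨h, ·⟩) (⟨h, ·⟩)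
  have splitB : ∀ {b}, (b = cInf p ∨ b = cZero p) →
      fibB (q := p) p b = T (cInf p) b ∪ T (cZero p) b := fun {b} hb => by
    ext w
    simp only [Finset.mem_union, memT, mem_fibB]
    refine ⟨fun h => ?_, fun h => h.elim And.right And.right⟩
    exact ((down_cusp w).2 (h ▸ hb)).imp (⟨·, h⟩) (⟨·, h⟩)
  have djB : ∀ b, Disjoint (T (cInf p) b) (T (cZero p) b) := fun b =>
    Finset.disjoint_left.2 fun w h h' => hne ((memT.1 h).1.symm.trans (memT.1 h').1)
  have djA : ∀ a, Disjoint (T a (cInf p)) (T a (cZero p)) := fun a =>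
    Finset.disjoint_left.2 fun w h h' => hne ((memT.1 h).2.symm.trans (memT.1 h').2)
  set t1 := ∑ w ∈ T (cInf p) (cInf p), ramA w with ht1
  set t2 := ∑ w ∈ T (cInf p) (cZero p), ramA w with ht2
  set t3 := ∑ w ∈ T (cZero p) (cZero p), ramB w with ht3
  set t4 := ∑ w ∈ T (cZero p) (cInf p), ramA w with ht4
  have b1 : ∑ w ∈ T (cInf p) (cInf p), ramB w = p * t1 := by
    rw [ht1, Finset.mul_sum]
    exact Finset.sum_congr rfl fun w hw => (ram_self w).1 (memT.1 hw).1 (memT.1 hw).2
  have b2 : ∑ w ∈ T (cInf p) (cZero p), ramB w = t2 :=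
    Finset.sum_congr rfl fun w hw => (ram_self w).2.2.1 (memT.1 hw).1 (memT.1 hw).2
  have b3 : ∑ w ∈ T (cZero p) (cZero p), ramA w = p * t3 := by
    rw [ht3, Finset.mul_sum]
    exact Finset.sum_congr rfl fun w hw => (ram_self w).2.2.2 (memT.1 hw).1 (memT.1 hw).2
  have b4 : ∑ w ∈ T (cZero p) (cInf p), ramB w = t4 :=
    Finset.sum_congr rfl fun w hw => (ram_self w).2.1 (memT.1 hw).1 (memT.1 hw).2
  have eA1 := sum_ramA (q := p) p (cInf p)
  rw [splitA (Or.inl rfl), Finset.sum_union (djA _), ← ht1, ← ht2, finrankAlong_alpha_self] at eA1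
  have eA3 := sum_ramA (q := p) p (cZero p)
  rw [splitA (Or.inr rfl), Finset.sum_union (djA _), ← ht4, b3, finrankAlong_alpha_self] at eA3
  have eB1 := sum_ramB (q := p) p (cInf p)
  rw [splitB (Or.inl rfl), Finset.sum_union (djB _), b1, b4] at eB1
  have eB2 := sum_ramB (q := p) p (cZero p)
  rw [splitB (Or.inr rfl), Finset.sum_union (djB _), b2, ← ht3, ← eB1] at eB2
  have hp2 : (2 : ℤ) ≤ p := by exact_mod_cast hp.out.two_le
  have h1 : 1 ≤ t1 := by
    have hw : cInf (p * p) ∈ T (cInf p) (cInf p) := memT.2 (down_cInf p)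
    have hpos := ramA_pos (p := p) (q := p) (cInf (p * p))
    exact le_trans hpos (Finset.single_le_sum (fun w _ => (ramA_pos w).le) hw)
  have h3 : 0 ≤ t3 := Finset.sum_nonneg fun w _ => (ramB_pos w).le
  have h4 : 0 ≤ t4 := Finset.sum_nonneg fun w _ => (ramA_pos w).le
  have h2 : 0 ≤ t2 := Finset.sum_nonneg fun w _ => (ramA_pos w).le
  have ht : t3 = 1 := by
    rcases lt_trichotomy t3 1 with h | h | h
    · exfalso
      have h0 : t3 = 0 := by omega
      rw [h0] at eA3 eB2
      nlinarith
    · exact h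
    · exfalso; nlinarith
  have ht4' : t4 = 0 := by rw [ht] at eA3; linarith
  have hI : heckeDiv p p (Finsupp.single (cInf p) 1) = Finsupp.single (cInf p) ((p : ℤ) * t1) := by
    rw [heckeDiv_single, splitB (Or.inl rfl), Finset.sum_union (djB _),
      Finset.sum_congr rfl (fun w hw => by rw [(memT.1 hw).1]),
      ← Finsupp.single_finsetSum, b1,
      Finset.sum_congr (s₁ := T (cZero p) (cInf p)) rfl (fun w hw => by rw [(memT.1 hw).1]),
      ← Finsupp.single_finsetSum, b4, ht4', Finsupp.single_zero, add_zero]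
  have hZ : heckeDiv p p (Finsupp.single (cZero p) 1) =
      Finsupp.single (cInf p) t2 + Finsupp.single (cZero p) 1 := by
    rw [heckeDiv_single, splitB (Or.inr rfl), Finset.sum_union (djB _),
      Finset.sum_congr rfl (fun w hw => by rw [(memT.1 hw).1]),
      ← Finsupp.single_finsetSum, b2,
      Finset.sum_congr (s₁ := T (cZero p) (cZero p)) rfl (fun w hw => by rw [(memT.1 hw).1]),
      ← Finsupp.single_finsetSum, ← ht3, ht]
  rw [map_sub, hI, hZ, show (p : ℤ) * t1 = t2 + 1 by rw [ht, ht4'] at eB2; linarith, Finsupp.single_add]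
  abel

end Divisors

theorem heckeOperatorBar_cuspClass (q : Nat.Primes) (hq : (q : ℕ) ≠ p) :
    heckeOperatorBar p q (cuspClass p) = (1 + (q : ℕ)) • cuspClass p := by
  haveI : NeZero (q : ℕ) := ⟨q.2.ne_zero⟩
  haveI : Fact (q : ℕ).Prime := ⟨q.2⟩
  obtain ⟨h, he⟩ := heckeOperatorBar_mk p q (pairDiv p (cInf p) (cZero p))
  rw [cuspClass, he]
  refine (congrArg Pic0.mk (Subtype.ext ?_) : _ = Pic0.mk ((1 + (q : ℕ)) • pairDiv p _ _)).trans rfl
  show heckeDiv p q (pairDiv p (cInf p) (cZero p) : Divisor Qb (modularFunctionFieldBar p)) = _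
  rw [AddSubgroup.coe_nsmul, coe_pairDiv, map_sub, heckeDiv_cusp p hq (Or.inl rfl),
    heckeDiv_cusp p hq (Or.inr rfl), nsmul_sub, Finsupp.smul_single, Finsupp.smul_single,
    nsmul_one, add_comm (q : ℕ)]

theorem heckeOperatorBar_cuspClass_self (q : Nat.Primes) (hq : (q : ℕ) = p) :
    heckeOperatorBar p q (cuspClass p) = cuspClass p := by
  obtain ⟨q, hq'⟩ := q
  change q = p at hq
  subst hq
  obtain ⟨h, he⟩ := heckeOperatorBar_mk q ⟨q, hq'⟩ (pairDiv q (cInf q) (cZero q))
  rw [cuspClass, he]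
  refine congrArg Pic0.mk (Subtype.ext ?_)
  show heckeDiv q q (pairDiv q (cInf q) (cZero q) : Divisor Qb (modularFunctionFieldBar q)) = _
  rw [coe_pairDiv]
  exact heckeDiv_cusp_self q

end FermatAgent.Mazur.Step3
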