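import Fermat.Agent.Mazur.Step3.CuspHecke
import Fermat.Agent.ModCurve.Torsion.Interface
import Fermat.Agent.ModCurve.Forms.IntegralForms
import Fermat.Agent.S16

/-!
The Eisenstein ideal kills the cuspidal class; if it is a torsion class, the Eisenstein numerator
kills it.
-/

set_option autoImplicit false

noncomputable section

open AlgebraicCurve ModularCurve CuspForm

namespace FermatAgent.Mazur.Step3

variable (p : ℕ) [Fact p.Prime]

/-- A Hecke polynomial acts on the cuspidal class through the Eisenstein system. -/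
theorem heckeEvalBar_cuspClass (h : HeckeOperatorsCommuteBar p) (t : HeckeAlg) :
    heckeEvalBar h t (cuspClass p) = MvPolynomial.aeval (eisensteinSystem p) t • cuspClass p := by
  induction t using MvPolynomial.induction_on with
  | C a =>
    rw [heckeEvalBar_C, Module.End.intCast_apply, MvPolynomial.aeval_C]
    rfl
  | add s t hs ht =>
    rw [map_add, LinearMap.add_apply, hs, ht, map_add]
    exact (add_zsmul _ _ _).symm
  | mul_X s q hs =>
    rw [map_mul, Module.End.mul_apply, show (MvPolynomial.X q : HeckeAlg) = heckeGen q from rfl,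
      heckeEvalBar_heckeGen]
    have hq : heckeOperatorBar p q (cuspClass p) = eisensteinSystem p q • cuspClass p := by
      by_cases h' : (q : ℕ) = p
      · rw [heckeOperatorBar_cuspClass_self p q h', eisensteinSystem_of_dvd (h' ▸ dvd_rfl),
          one_smul]
      · rw [heckeOperatorBar_cuspClass p q h', eisensteinSystem_of_not_dvd (fun hd =>
          h' ((Nat.prime_dvd_prime_iff_eq q.2 Fact.out).1 hd)), ← natCast_zsmul]
        push_cast
        rfl
    rw [hq, map_zsmul, hs, map_mul, aeval_heckeGen, mul_comm, mul_smul]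

/-- A Hecke polynomial congruent to `1` modulo the Eisenstein ideal and `l` acts on the cuspidal
class through an integer congruent to `1` modulo `l`. -/
theorem exists_smul_cuspClass {l : ℕ} {τ : HeckeAlg}
    (hτ : τ - 1 ∈ eisensteinIdeal p ⊔ Ideal.span {(l : HeckeAlg)}) :
    ∃ m : ℤ, (letI := heckeModuleBar p; τ • cuspClass p) = (1 + l * m) • cuspClass p := by
  have h := FermatAgent.ModCurveTorsion.heckeOperatorsCommuteBar p
  obtain ⟨i, hi, j, hj, hij⟩ := Submodule.mem_sup.1 hτ
  obtain ⟨u, rfl⟩ := Ideal.mem_span_singleton'.1 hj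
  refine ⟨MvPolynomial.aeval (eisensteinSystem p) u, ?_⟩
  rw [heckeModuleBar_smul_def h, heckeEvalBar_cuspClass]
  congr 1
  have hi0 : MvPolynomial.aeval (eisensteinSystem p) i = 0 := (mem_eigenIdeal_iff _ i).1 hi
  have := congrArg (MvPolynomial.aeval (eisensteinSystem p)) hij
  rw [map_add, map_mul, map_natCast, map_sub, map_one, hi0, zero_add] at this
  linear_combination -this

variable {p}

theorem heckeEvalBar_proj (h : HeckeOperatorsCommuteBar p)
    (M : FermatAgent.ModCurveTorsion.TorsionModel p) {m : ℕ} (hm : 0 < m) (t : HeckeAlg) :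
    ∀ v, heckeEvalBar h t (M.proj m v) = M.proj m (M.hecke (heckeEvalForms p 2 t) v) := by
  induction t using MvPolynomial.induction_on with
  | C a =>
    intro v
    rw [heckeEvalBar_C, Module.End.intCast_apply, heckeEvalForms_C, eq_intCast, map_intCast,
      Module.End.intCast_apply, map_zsmul]
  | add s t hs ht =>
    intro v
    rw [map_add, LinearMap.add_apply, hs, ht, map_add, map_add, LinearMap.add_apply, map_add]
  | mul_X s q hs =>
    intro v
    rw [map_mul, Module.End.mul_apply, show (MvPolynomial.X q : HeckeAlg) = heckeGen q from rfl,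
      heckeEvalBar_heckeGen, map_mul, map_mul, Module.End.mul_apply]
    by_cases hq : (q : ℕ) ∣ p
    · rw [M.proj_U m hm q hq, hs, heckeEvalForms_heckeGen_of_dvd hq]
    · rw [M.proj_T m hm q hq, hs, heckeEvalForms_heckeGen_of_not_dvd hq]

lemma natCast_mem_map {P R S : Type*} [CommRing P] [CommRing R] [CommRing S] (f : P →+* R)
    (L : R →+* S) (hL : Function.Bijective L) (I : Ideal P) {n : ℕ}
    (hn : Nat.card (S ⧸ Ideal.map (L.comp f) I) = n) : (n : R) ∈ Ideal.map f I := by
  have h0 : Nat.card (S ⧸ Ideal.map (L.comp f) I) • (1 : S ⧸ Ideal.map (L.comp f) I) = 0 :=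
    card_nsmul_eq_zero'
  rw [hn, nsmul_one, ← map_natCast (Ideal.Quotient.mk _), Ideal.Quotient.eq_zero_iff_mem,
    ← Ideal.map_map, ← map_natCast L] at h0
  obtain ⟨y, hy, hLy⟩ := (Ideal.mem_map_iff_of_surjective L hL.2).1 h0
  rwa [← hL.1 hLy]

/-- A torsion cuspidal class is killed by the Eisenstein numerator. -/
theorem eisensteinNumerator_nsmul_cuspClass {m : ℕ} (hm : m ≠ 0) (hC : m • cuspClass p = 0) :
    eisensteinNumerator p • cuspClass p = 0 := by
  classical
  have h := FermatAgent.ModCurveTorsion.heckeOperatorsCommuteBar p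
  set M := FermatAgent.ModCurveTorsion.torsionModel p
  have hm0 := Nat.pos_of_ne_zero hm
  obtain ⟨v, hv⟩ := (M.mem_range_proj_iff m hm0 (cuspClass p)).2 (by rw [natCast_zsmul, hC])
  have hbij := latticeRestrictHom_bijective p ∅ (ModCurve.Forms.hasIntegralStructure_two p)
  set L := (latticeRestrictHom p ∅).toRingHom
  set I := Ideal.map (heckeEvalForms p 2) (eisensteinIdeal p) with hI
  have hn : (eisensteinNumerator p : heckeAlgebra p 2 (∅ : Set ℕ)) ∈ I :=
    natCast_mem_map (heckeEvalForms p 2) L hbij _ (Fermat.Agent.S16.result p)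
  have key : ∀ x ∈ I, M.proj m (M.hecke x v) = 0 := by
    intro x hx
    refine Submodule.span_induction ?_ ?_ ?_ ?_ hx
    · rintro _ ⟨t, ht, rfl⟩
      rw [← heckeEvalBar_proj h M hm0, hv, heckeEvalBar_cuspClass,
        (mem_eigenIdeal_iff _ t).1 ht]
      exact zero_zsmul _
    · rw [map_zero, LinearMap.zero_apply, map_zero]
    · intro x y _ _ hx hy
      rw [map_add, LinearMap.add_apply, map_add, hx, hy, add_zero]
    · intro r x _ hx
      rw [smul_eq_mul, map_mul, Module.End.mul_apply]
      obtain ⟨u, hu⟩ : ∃ u : Fin M.rank → ℤ, M.hecke x v = (m : ℤ) • u := by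
        have hd := (M.proj_eq_zero_iff m hm0 _).1 hx
        choose u hu using hd
        exact ⟨u, funext hu⟩
      rw [hu, map_zsmul, map_zsmul]
      exact M.zsmul_proj_self hm0 _
  have := key _ hn
  rw [map_natCast, Module.End.natCast_apply, map_nsmul, hv] at this
  exact this

end FermatAgent.Mazur.Step3
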