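import Fermat.Agent.Mazur.Step3.GaussRep
import Fermat.Agent.Mazur.Step3.Cusps
import Fermat.Agent.Igusa.Down.Model

/-!
Reductions of the places of the modular curve of prime level where `j` is not integral.
-/

set_option autoImplicit false
set_option maxHeartbeats 800000

noncomputable section

open AlgebraicCurve ModularCurve
open FermatAgent.ModFun (jBar jNBar)
open FermatAgent.JacCharts (GoodReductionDatum divOf divOf_apply)
open FermatAgent.Igusa (gev gevC)

namespace FermatAgent.Mazur.Step3

local notation "Qb" => AlgebraicClosure ℚ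

section Generic

lemma mapDomain_ge {α β : Type*} (r : α → β) (E : α →₀ ℤ) {a : α} {b : β} (hab : r a = b)
    (h : ∀ v, r v = b → 0 ≤ E v) : E a ≤ Finsupp.mapDomain r E b := by
  classical
  rw [Finsupp.mapDomain, Finsupp.sum_apply, Finsupp.sum]
  simp only [Finsupp.single_apply]
  by_cases ha : a ∈ E.support
  · refine le_trans (le_of_eq (by simp [hab])) (Finset.single_le_sum (fun v _ => ?_) ha)
    split_ifs with hv
    · exact h v hv
    · exact le_rfl
  · rw [Finsupp.notMem_support_iff.1 ha]
    refine Finset.sum_nonneg fun v _ => ?_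
    split_ifs with hv
    · exact h v hv
    · exact le_rfl

end Generic

variable {p : ℕ} [hp : Fact p.Prime]

/-- The poles of `j(p ·)`. -/
theorem eq_cInf_or_cZero' {P : Place Qb (modularFunctionFieldBar p)}
    (hP : P.ord (jNBar Qb p) < 0) : P = cInf p ∨ P = cZero p := by
  classical
  by_contra h
  push Not at h
  have hsum := FermatAgent.Curve.sum_ord_poles (K := Qb) (transcendental_jNBar p)
  rw [finrank_adjoin_jNBar_prime] at hsum
  have hmem : ∀ v : Place Qb (modularFunctionFieldBar p), v.ord (jNBar Qb p) < 0 →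
      v ∈ FermatAgent.Curve.zerosFinset (K := Qb) (jNBar Qb p)⁻¹ := fun v hv => by
    rw [FermatAgent.Curve.mem_zerosFinset, v.ord_inv]; omega
  have h3 : ({P, cInf p, cZero p} : Finset _) ⊆
      FermatAgent.Curve.zerosFinset (K := Qb) (jNBar Qb p)⁻¹ := by
    intro v hv
    simp only [Finset.mem_insert, Finset.mem_singleton] at hv
    rcases hv with rfl | rfl | rfl
    · exact hmem _ hP
    · refine hmem _ ?_
      rw [ord_cInf_jNBar]; have := hp.out.one_lt; omega
    · exact hmem _ (by rw [ord_cZero_jNBar]; norm_num)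
  have hle := Finset.sum_le_sum_of_subset_of_nonneg h3
    (f := fun v => -v.ord (jNBar Qb p)) (fun v hv _ => by
      rw [FermatAgent.Curve.mem_zerosFinset, v.ord_inv] at hv; omega)
  rw [hsum, Finset.sum_insert (by simp [h.1, h.2]), Finset.sum_pair (cInf_ne_cZero p),
    ord_cInf_jNBar, ord_cZero_jNBar] at hle
  push_cast at hle
  omega

theorem jBar_ne_zero : jBar Qb p ≠ 0 :=
  fun h => jqModC_ne_zero_of_nontrivial Qb (congrArg Subtype.val h)

theorem jNBar_ne_zero : jNBar Qb p ≠ 0 := fun h => by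
  have h1 := ord_cZero_jNBar p
  rw [h, Place.ord_zero] at h1
  omega

variable (p) in
/-- `j(p ·) / j ^ p`. -/
def wFun : modularFunctionFieldBar p := jNBar Qb p / jBar Qb p ^ p

theorem ord_wFun (P : Place Qb (modularFunctionFieldBar p)) :
    P.ord (wFun p) = P.ord (jNBar Qb p) - p * P.ord (jBar Qb p) := by
  rw [wFun, FermatAgent.Curve.ord_div _ jNBar_ne_zero (pow_ne_zero _ jBar_ne_zero),
    FermatAgent.Curve.ord_pow']

theorem leadingCoeff_jqModC (R : Type*) [CommRing R] [Nontrivial R] :
    (jqModC R).leadingCoeff = 1 := by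
  rw [HahnSeries.leadingCoeff_eq, order_jqModC, coeff_jqModC_neg_one]

theorem leadingCoeff_pow' {R : Type*} [CommRing R] [IsDomain R] (x : LaurentSeries R) (n : ℕ) :
    (x ^ n).leadingCoeff = x.leadingCoeff ^ n := by
  induction n with
  | zero => simp
  | succ n ih => rw [pow_succ, HahnSeries.leadingCoeff_mul, ih, pow_succ]

theorem leadingCoeff_jqNModC (R : Type*) [CommRing R] [Nontrivial R] (N : ℕ) [NeZero N] :
    (jqNModC R N).leadingCoeff = 1 := by
  rw [HahnSeries.leadingCoeff_eq, jqNModC, order_qExpand' N (jqModC_ne_zero_of_nontrivial R),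
    order_jqModC, qExpand_coeff_mul, coeff_jqModC_neg_one]

theorem ord_cInf_wFun_sub_one : 0 < (cInf p).ord (wFun p - 1) ∨ wFun p - 1 = 0 := by
  rcases eq_or_ne (wFun p - 1) 0 with h0 | h0
  · exact Or.inr h0
  refine Or.inl ?_
  rw [ord_cInf]
  set s : LaurentSeries Qb := (wFun p : LaurentSeries Qb) with hs
  have hs' : ((wFun p - 1 : modularFunctionFieldBar p) : LaurentSeries Qb) = s - 1 := rfl
  have hne : s - 1 ≠ 0 := fun h => h0 (Subtype.ext (hs'.trans h))
  have hord : s.order = 0 := by
    have h := ord_wFun (cInf p)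
    rw [ord_cInf, ord_cInf_jNBar, ord_cInf_jBar] at h
    rw [hs, h]; ring
  have hlc : s.leadingCoeff = 1 := by
    have h : s * (jqModC Qb) ^ p = jqNModC Qb p := by
      rw [hs, wFun]
      show ((jNBar Qb p / jBar Qb p ^ p : modularFunctionFieldBar p) : LaurentSeries Qb) *
        ((jBar Qb p ^ p : modularFunctionFieldBar p) : LaurentSeries Qb) = _
      rw [← MulMemClass.coe_mul, div_mul_cancel₀ _ (pow_ne_zero _ jBar_ne_zero)]
      rfl
    have h' := congrArg HahnSeries.leadingCoeff h
    rwa [HahnSeries.leadingCoeff_mul, leadingCoeff_pow', leadingCoeff_jqModC,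
      leadingCoeff_jqNModC, one_pow, mul_one] at h'
  rw [hs']
  by_contra hle
  push Not at hle
  have hcoeff := HahnSeries.coeff_order_eq_zero.not.mpr hne
  apply hcoeff
  rw [HahnSeries.coeff_sub, HahnSeries.coeff_one]
  rcases hle.lt_or_eq with hlt | heq
  · rw [if_neg hlt.ne, sub_zero]
    exact HahnSeries.coeff_eq_zero_of_lt_order (hord.symm ▸ hlt)
  · rw [if_pos heq, heq, ← hord, ← HahnSeries.leadingCoeff_eq, hlc, sub_self]

theorem ord_cZero_wFun : 0 < (cZero p).ord (wFun p) := by
  rw [ord_wFun, ord_cZero_jNBar, ord_cZero_jBar]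
  have := hp.out.one_lt
  nlinarith

theorem ord_neg_wFun {P : Place Qb (modularFunctionFieldBar p)} (h : P.ord (wFun p) < 0) :
    0 < P.ord (jBar Qb p) := by
  by_contra hj
  push Not at hj
  have hpos : (0 : ℤ) < p := by exact_mod_cast hp.out.pos
  have h' := ord_wFun P
  rcases lt_or_ge (P.ord (jNBar Qb p)) 0 with hN | hN
  · rcases eq_cInf_or_cZero' hN with rfl | rfl
    · rw [h', ord_cInf_jNBar, ord_cInf_jBar] at h; omega
    · exact absurd h (not_lt.2 ord_cZero_wFun.le)
  · have : (p : ℤ) * P.ord (jBar Qb p) ≤ 0 := mul_nonpos_of_nonneg_of_nonpos hpos.le hj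
    omega

variable {A : ValuationSubring Qb} {ℓ : ℕ} [Fact ℓ.Prime] [CharP (IsLocalRing.ResidueField A) ℓ]

variable (p A) in
/-- `j` on the special fibre. -/
def jRed : modularFunctionFieldFullC (IsLocalRing.ResidueField A) p :=
  ⟨jqModC (IsLocalRing.ResidueField A), modularFunctionFieldC_le_full (IsLocalRing.ResidueField A) p (jqModC_mem (IsLocalRing.ResidueField A) p)⟩

variable (p A) in
/-- `j(p ·)` on the special fibre. -/
def jNRed : modularFunctionFieldFullC (IsLocalRing.ResidueField A) p :=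
  ⟨jqNModC (IsLocalRing.ResidueField A) p, modularFunctionFieldC_le_full (IsLocalRing.ResidueField A) p (jqNModC_mem (IsLocalRing.ResidueField A) p)⟩
variable {d : GoodReductionDatum A (IsLocalRing.residue A) (modularFunctionFieldBar p) (modularFunctionFieldFullC (IsLocalRing.ResidueField A) p)}

theorem redsTo_jBar (hd : d.IsLaurent) : d.RedsTo (jBar Qb p) (jRed p A) := by
  have h : coeffMap A.subtype (jqModC A) = (jBar Qb p : LaurentSeries Qb) := by
    rw [coeffMap_jqModC]; rfl
  obtain ⟨fb, hfb, hfb'⟩ := redsTo_series hd (jqModC A) (h ▸ (jBar Qb p).2)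
  rw [coeffMap_jqModC] at hfb'
  rw [show jBar Qb p = ⟨_, h ▸ (jBar Qb p).2⟩ from Subtype.ext h.symm,
    show jRed p A = fb from Subtype.ext hfb'.symm]
  exact hfb

theorem redsTo_jNBar (hd : d.IsLaurent) : d.RedsTo (jNBar Qb p) (jNRed p A) := by
  have h : coeffMap A.subtype (jqNModC A p) = (jNBar Qb p : LaurentSeries Qb) := by
    rw [coeffMap_jqNModC]; rfl
  obtain ⟨fb, hfb, hfb'⟩ := redsTo_series hd (jqNModC A p) (h ▸ (jNBar Qb p).2)
  rw [coeffMap_jqNModC] at hfb'
  rw [show jNBar Qb p = ⟨_, h ▸ (jNBar Qb p).2⟩ from Subtype.ext h.symm,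
    show jNRed p A = fb from Subtype.ext hfb'.symm]
  exact hfb

theorem transcendental_jRed : Transcendental (IsLocalRing.ResidueField A) (jRed p A) :=
  FermatAgent.Igusa.Down.transcendental_jqModC_coe (IsLocalRing.ResidueField A) _ rfl

theorem jRed_ne_zero : jRed p A ≠ 0 :=
  fun h => jqModC_ne_zero_of_nontrivial (IsLocalRing.ResidueField A) (congrArg Subtype.val h)

variable (p A) in
/-- The reduction of `wFun`. -/
def wRed : modularFunctionFieldFullC (IsLocalRing.ResidueField A) p := jNRed p A / jRed p A ^ p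

theorem redsTo_wFun (hd : d.IsLaurent) : d.RedsTo (wFun p) (wRed p A) := by
  have hpow : ∀ n : ℕ, d.RedsTo (jBar Qb p ^ n) (jRed p A ^ n) := by
    intro n
    induction n with
    | zero => simpa using GoodReductionDatum.redsTo_one
    | succ n ih => simpa [pow_succ] using ih.mul (redsTo_jBar hd)
  exact redsTo_div (redsTo_jNBar hd) (hpow p) (pow_ne_zero _ jRed_ne_zero)

theorem wRed_ne_const (hℓp : ℓ ≠ p) (c : (IsLocalRing.ResidueField A)) :
    wRed p A - algebraMap (IsLocalRing.ResidueField A) _ c ≠ 0 := by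
  intro h
  have hnd : ¬ ℓ ∣ p := fun h' =>
    hℓp ((Nat.prime_dvd_prime_iff_eq (Fact.out : ℓ.Prime) hp.out).1 h')
  rw [sub_eq_zero, wRed, div_eq_iff (pow_ne_zero _ jRed_ne_zero)] at h
  have h' := congrArg Subtype.val h
  rw [MulMemClass.coe_mul, SubmonoidClass.coe_pow, IntermediateField.coe_algebraMap_apply] at h'
  have h0 := FermatAgent.Igusa.eq_zero_of_bEval_charP p ℓ hnd (IsLocalRing.ResidueField A)
    (P := (Polynomial.X - Polynomial.C (Polynomial.C c * Polynomial.X ^ p)))
    (by rw [Polynomial.natDegree_X_sub_C, index_gamma0_prime hp.out]; have := hp.out.pos; omega)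
    (by
      rw [map_sub, FermatAgent.ModFun.bEval_X, FermatAgent.ModFun.bEval_C, map_mul, map_pow,
        Polynomial.aeval_C, Polynomial.aeval_X, sub_eq_zero]
      exact h')
  exact Polynomial.X_sub_C_ne_zero _ h0
variable [IsAlgClosed (IsLocalRing.ResidueField A)] [FermatAgent.Curve.IsFunctionField1 (IsLocalRing.ResidueField A) (modularFunctionFieldFullC (IsLocalRing.ResidueField A) p)]
variable (hℓ : A.LiesOverPrime ℓ) (hℓp : ℓ ≠ p) (hd : d.IsLaurent)

omit [IsAlgClosed (IsLocalRing.ResidueField A)]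
  [FermatAgent.Curve.IsFunctionField1 (IsLocalRing.ResidueField A)
    (modularFunctionFieldFullC (IsLocalRing.ResidueField A) p)] in
include hℓ hℓp in
theorem finrank_adjoin_jRed :
    Module.finrank (IntermediateField.adjoin (IsLocalRing.ResidueField A) {jRed p A}) (modularFunctionFieldFullC (IsLocalRing.ResidueField A) p) =
      p + 1 := by
  have hnd : ¬ ℓ ∣ p := fun h' =>
    hℓp ((Nat.prime_dvd_prime_iff_eq (Fact.out : ℓ.Prime) hp.out).1 h')
  have h := FermatAgent.Igusa.Down.finrank_fibre A p hnd hℓ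
  rw [index_gamma0_prime hp.out] at h
  have he : jRed p A = FermatAgent.Igusa.Down.redBar A p hnd (FermatAgent.Igusa.Down.tBar A p) :=
    Subtype.ext (FermatAgent.Igusa.Down.coe_redBar_tBar A p hnd).symm
  rw [he]
  exact h

variable (p) in
/-- The polar divisor of `j`. -/
def polarDiv : Divisor Qb (modularFunctionFieldBar p) :=
  Finsupp.single (cInf p) 1 + Finsupp.single (cZero p) (p : ℤ)

theorem divOf_jBar_add_nonneg : 0 ≤ divOf (K := Qb) (jBar Qb p) + polarDiv p := by
  classical
  rw [Finsupp.le_def]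
  intro v
  rw [Finsupp.coe_zero, Pi.zero_apply, Finsupp.add_apply, divOf_apply jBar_ne_zero, polarDiv,
    Finsupp.add_apply, Finsupp.single_apply, Finsupp.single_apply]
  rcases lt_or_ge (v.ord (jBar Qb p)) 0 with hv | hv
  · rcases eq_cInf_or_cZero p hv with rfl | rfl
    · rw [if_pos rfl, if_neg (cInf_ne_cZero p).symm, ord_cInf_jBar]; norm_num
    · rw [if_neg (cInf_ne_cZero p), if_pos rfl, ord_cZero_jBar]; omega
  · split_ifs <;> omega

include hℓ hℓp hd in
theorem poles_jRed :
    ((d.place (cInf p)).ord (jRed p A) < 0 ∧ (d.place (cZero p)).ord (jRed p A) < 0) ∧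
      ∀ P : Place Qb (modularFunctionFieldBar p), 0 < P.ord (jBar Qb p) →
        0 ≤ (d.place P).ord (jRed p A) := by
  classical
  set Z := divOf (K := Qb) (jBar Qb p) + polarDiv p with hZ
  set S := FermatAgent.Curve.zerosFinset (K := (IsLocalRing.ResidueField A)) (jRed p A)⁻¹ with hS
  have hmem : ∀ Q, Q ∈ S ↔ Q.ord (jRed p A) < 0 := fun Q => by
    rw [hS, FermatAgent.Curve.mem_zerosFinset, Q.ord_inv]; omega
  have hsum := FermatAgent.Curve.sum_ord_poles (K := (IsLocalRing.ResidueField A)) (transcendental_jRed (p := p) (A := A))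
  rw [finrank_adjoin_jRed hℓ hℓp] at hsum
  have hQ : ∀ Q, Q.ord (jRed p A) = d.redDiv Z Q - d.redDiv (polarDiv p) Q := fun Q => by
    rw [hZ, map_add, Finsupp.add_apply, (redsTo_jBar hd).redDiv_divOf jRed_ne_zero,
      divOf_apply jRed_ne_zero]
    ring
  have hZ0 : ∀ Q, 0 ≤ d.redDiv Z Q := fun Q =>
    Finsupp.le_def.mp (GoodReductionDatum.redDiv_nonneg divOf_jBar_add_nonneg) Q
  have hP0 : ∀ Q, d.redDiv (polarDiv p) Q =
      (if d.place (cInf p) = Q then 1 else 0) + (if d.place (cZero p) = Q then (p : ℤ) else 0) :=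
    fun Q => by
      simp only [polarDiv, map_add, Finsupp.mapDomain.addMonoidHom_apply,
        Finsupp.mapDomain_single, Finsupp.add_apply, Finsupp.single_apply]
  rw [Finset.sum_congr rfl fun Q _ => show -Q.ord (jRed p A) =
      d.redDiv (polarDiv p) Q - d.redDiv Z Q by rw [hQ]; ring, Finset.sum_sub_distrib] at hsum
  rw [Finset.sum_congr rfl fun Q _ => hP0 Q, Finset.sum_add_distrib, Finset.sum_ite_eq,
    Finset.sum_ite_eq] at hsum
  have hpos := hp.out.pos
  have hZS : 0 ≤ ∑ Q ∈ S, d.redDiv Z Q := Finset.sum_nonneg fun Q _ => hZ0 Q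
  have h1 : d.place (cInf p) ∈ S ∧ d.place (cZero p) ∈ S ∧ ∑ Q ∈ S, d.redDiv Z Q = 0 := by
    rw [← hS] at hsum
    split_ifs at hsum with ha hb hb <;> push_cast at hsum <;>
      first
        | exact ⟨ha, hb, by omega⟩
        | exfalso; omega
  refine ⟨⟨(hmem _).1 h1.1, (hmem _).1 h1.2.1⟩, fun P hP => ?_⟩
  by_contra hneg
  push Not at hneg
  have h0 := (Finset.sum_eq_zero_iff_of_nonneg fun Q _ => hZ0 Q).1 h1.2.2 _ ((hmem _).2 hneg)
  have h2 : Z P ≤ d.redDiv Z (d.place P) := by
    simp only [Finsupp.mapDomain.addMonoidHom_apply]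
    exact mapDomain_ge _ _ rfl fun v _ => Finsupp.le_def.mp divOf_jBar_add_nonneg v
  have h3 : 0 < Z P := by
    have : 0 ≤ polarDiv p P := by
      rw [polarDiv, Finsupp.add_apply, Finsupp.single_apply, Finsupp.single_apply]
      split_ifs <;> omega
    rw [hZ, Finsupp.add_apply, divOf_apply jBar_ne_zero]
    omega
  omega

include hℓ hℓp hd in
/-- The value of `wFun` reduces to the value of its reduction above poles of `j`. -/
theorem ord_wRed_sub {P : Place Qb (modularFunctionFieldBar p)}
    (hP : (d.place P).ord (jRed p A) < 0) {β : A}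
    (hβ : 0 < P.ord (wFun p - algebraMap Qb (modularFunctionFieldBar p) (β : Qb)) ∨ wFun p - algebraMap Qb (modularFunctionFieldBar p) (β : Qb) = 0) :
    0 < (d.place P).ord (wRed p A - algebraMap (IsLocalRing.ResidueField A) _ ((IsLocalRing.residue A) β)) := by
  have hg := (redsTo_wFun hd).sub (GoodReductionDatum.redsTo_algebraMap (d := d) β)
  have hne := wRed_ne_const (A := A) (p := p) hℓp ((IsLocalRing.residue A) β)
  have hg0 := hg.ne_zero hne
  have hpos : 0 < P.ord (wFun p - algebraMap Qb (modularFunctionFieldBar p) (β : Qb)) := hβ.resolve_right hg0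
  have h := congrArg (fun D => D (d.place P)) (hg.redDiv_divOf hne)
  simp only [Finsupp.mapDomain.addMonoidHom_apply, divOf_apply hne] at h
  rw [← h]
  refine lt_of_lt_of_le hpos ((le_of_eq (divOf_apply hg0 P).symm).trans
    (mapDomain_ge _ _ rfl fun v hv => ?_))
  rw [divOf_apply hg0]
  by_contra hneg
  push Not at hneg
  have hw : v.ord (wFun p) < 0 := by
    by_contra hw
    push Not at hw
    have h1 : wFun p ∈ v.toValuationSubring := (FermatAgent.Curve.mem_iff_ord_nonneg' v).2 hw
    have h2 := FermatAgent.Curve.ord_nonneg_of_mem' v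
      (sub_mem h1 (v.algebraMap_mem' (β : Qb)))
    omega
  have h3 := (poles_jRed hℓ hℓp hd).2 v (ord_neg_wFun hw)
  rw [hv] at h3
  omega

include hℓ hℓp hd in
theorem ord_wRed_cInf : 0 < (d.place (cInf p)).ord (wRed p A - 1) := by
  have h := ord_wRed_sub hℓ hℓp hd (poles_jRed hℓ hℓp hd).1.1 (β := 1) (by
    simpa using ord_cInf_wFun_sub_one)
  simpa using h

include hℓ hℓp hd in
theorem ord_wRed_cZero : 0 < (d.place (cZero p)).ord (wRed p A) := by
  have h := ord_wRed_sub hℓ hℓp hd (poles_jRed hℓ hℓp hd).1.2 (β := 0) (by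
    simpa using Or.inl ord_cZero_wFun)
  simpa using h

include hℓ hℓp hd in
/-- The two cusps stay distinct. -/
theorem place_cInf_ne_cZero : d.place (cInf p) ≠ d.place (cZero p) := by
  intro h
  have h1 := ord_wRed_cInf hℓ hℓp hd
  have h2 := ord_wRed_cZero hℓ hℓp hd
  rw [← h] at h2
  have e1 := FermatAgent.Curve.valueAt_eq_of (d.place (cInf p)) (f := wRed p A) (a := 1)
    (Or.inr (by simpa using h1))
  have e2 := FermatAgent.Curve.valueAt_eq_of (d.place (cInf p)) (f := wRed p A) (a := 0)
    (Or.inr (by simpa using h2))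
  exact one_ne_zero (e1.symm.trans e2)

variable {P : Place Qb (modularFunctionFieldBar p)} {a b : Qb}
variable (haA : a ∉ A) (hPa : 0 < P.ord (jBar Qb p - algebraMap Qb (modularFunctionFieldBar p) a))
theorem jBar_sub_ne_zero (c : Qb) : jBar Qb p - algebraMap Qb (modularFunctionFieldBar p) c ≠ 0 := fun h =>
  FermatAgent.ModFun.transcendental_jBar Qb p (by
    rw [sub_eq_zero.1 h]; exact isAlgebraic_algebraMap c)

theorem divOf_sub_add_nonneg (c : Qb) :
    0 ≤ divOf (K := Qb) (jBar Qb p - algebraMap Qb (modularFunctionFieldBar p) c) + polarDiv p := by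
  classical
  rw [Finsupp.le_def]
  intro v
  rw [Finsupp.coe_zero, Pi.zero_apply, Finsupp.add_apply, divOf_apply (jBar_sub_ne_zero c)]
  rcases lt_or_ge (v.ord (jBar Qb p)) 0 with hv | hv
  · have he : v.ord (jBar Qb p - algebraMap Qb (modularFunctionFieldBar p) c) = v.ord (jBar Qb p) := by
      rw [sub_eq_add_neg]
      refine FermatAgent.Curve.ord_add_eq_left v jBar_ne_zero ?_
      rw [FermatAgent.Curve.ord_neg, FermatAgent.Curve.ord_algebraMap_const]
      exact Or.inr hv
    have h := Finsupp.le_def.mp (divOf_jBar_add_nonneg (p := p)) v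
    rw [Finsupp.coe_zero, Pi.zero_apply, Finsupp.add_apply, divOf_apply jBar_ne_zero] at h
    omega
  · have h1 : 0 ≤ v.ord (jBar Qb p - algebraMap Qb (modularFunctionFieldBar p) c) :=
      FermatAgent.Curve.ord_nonneg_of_mem' v
      (sub_mem ((FermatAgent.Curve.mem_iff_ord_nonneg' v).2 hv) (v.algebraMap_mem' c))
    have : 0 ≤ polarDiv p v := by
      rw [polarDiv, Finsupp.add_apply, Finsupp.single_apply, Finsupp.single_apply]
      split_ifs <;> omega
    omega

include hd haA in
theorem redDiv_sub_add :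
    d.redDiv (divOf (K := Qb) (jBar Qb p - algebraMap Qb (modularFunctionFieldBar p) a) + polarDiv p) =
      d.redDiv (polarDiv p) := by
  have ha0 : a ≠ 0 := fun h => haA (h ▸ zero_mem A)
  obtain ⟨a', ha', hπ⟩ := d.inv_mem_of_notMem haA
  set f := 1 - algebraMap Qb (modularFunctionFieldBar p) (a' : Qb) * jBar Qb p with hf
  have hfr : d.RedsTo f 1 := by
    have h := GoodReductionDatum.redsTo_one.sub
      ((GoodReductionDatum.redsTo_algebraMap (d := d) a').mul (redsTo_jBar hd))
    rwa [hπ, map_zero, zero_mul, sub_zero] at h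
  have hdiv : divOf (K := Qb) (jBar Qb p - algebraMap Qb (modularFunctionFieldBar p) a) = divOf (K := Qb) f := by
    refine Finsupp.ext fun v => ?_
    rw [divOf_apply (jBar_sub_ne_zero a), divOf_apply (hfr.ne_zero one_ne_zero)]
    have hfe : f = (-(a' : Qb)) • (jBar Qb p - algebraMap Qb (modularFunctionFieldBar p) a) := by
      rw [hf, Algebra.smul_def, map_neg, mul_sub, neg_mul, neg_mul, ← map_mul, ha',
        inv_mul_cancel₀ ha0, map_one]
      ring
    rw [hfe, FermatAgent.Curve.ord_smul_const v (neg_ne_zero.2 (by rw [ha']; exact inv_ne_zero ha0))]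
  rw [map_add, hdiv, hfr.redDiv_divOf one_ne_zero]
  refine Finsupp.ext fun Q => ?_
  rw [Finsupp.add_apply, divOf_apply one_ne_zero, Place.ord_one, zero_add]

include hd haA hPa in
theorem place_eq_or : d.place P = d.place (cInf p) ∨ d.place P = d.place (cZero p) := by
  classical
  by_contra h
  push Not at h
  have h1 : 1 ≤ d.redDiv (divOf (K := Qb) (jBar Qb p - algebraMap Qb (modularFunctionFieldBar p) a) + polarDiv p)
      (d.place P) := by
    simp only [Finsupp.mapDomain.addMonoidHom_apply]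
    refine le_trans ?_ (mapDomain_ge _ _ rfl fun v _ =>
      Finsupp.le_def.mp (divOf_sub_add_nonneg a) v)
    rw [Finsupp.add_apply, divOf_apply (jBar_sub_ne_zero a), polarDiv, Finsupp.add_apply,
      Finsupp.single_apply, Finsupp.single_apply]
    split_ifs <;> omega
  rw [redDiv_sub_add hd haA] at h1
  simp only [polarDiv, map_add, Finsupp.mapDomain.addMonoidHom_apply, Finsupp.mapDomain_single,
    Finsupp.add_apply, Finsupp.single_apply, if_neg h.1.symm, if_neg h.2.symm] at h1
  omega

include hℓ hℓp hd haA hPa in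
/-- Only one place over a nonintegral value of `j` reduces to the cusp `∞`. -/
theorem eq_of_place_eq_cInf {P' : Place Qb (modularFunctionFieldBar p)}
    (hP'a : 0 < P'.ord (jBar Qb p - algebraMap Qb (modularFunctionFieldBar p) a)) (h : d.place P = d.place (cInf p))
    (h' : d.place P' = d.place (cInf p)) : P = P' := by
  classical
  by_contra hne
  set Z := divOf (K := Qb) (jBar Qb p - algebraMap Qb (modularFunctionFieldBar p) a) + polarDiv p with hZ
  have hle : Finsupp.single P (1 : ℤ) + Finsupp.single P' 1 ≤ Z := by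
    rw [Finsupp.le_def]
    intro v
    have h0 := Finsupp.le_def.mp (divOf_sub_add_nonneg (p := p) a) v
    have hpol : ∀ u, 0 ≤ polarDiv p u := fun u => by
      rw [polarDiv, Finsupp.add_apply, Finsupp.single_apply, Finsupp.single_apply]
      split_ifs <;> omega
    rw [Finsupp.add_apply, Finsupp.single_apply, Finsupp.single_apply]
    rw [hZ, Finsupp.add_apply, divOf_apply (jBar_sub_ne_zero a)]
    rw [Finsupp.coe_zero, Pi.zero_apply, Finsupp.add_apply,
      divOf_apply (jBar_sub_ne_zero a)] at h0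
    have := hpol v
    split_ifs with e1 e2 e2
    · exact absurd (e1.trans e2.symm) hne
    · subst e1; omega
    · subst e2; omega
    · omega
  have h2 := Finsupp.le_def.mp (d.redDiv_mono hle) (d.place (cInf p))
  rw [redDiv_sub_add hd haA] at h2
  simp only [polarDiv, map_add, Finsupp.mapDomain.addMonoidHom_apply, Finsupp.mapDomain_single,
    Finsupp.add_apply, Finsupp.single_apply, h, h',
    if_neg (place_cInf_ne_cZero hℓ hℓp hd).symm] at h2
  simp at h2

variable (hPb : 0 < P.ord (jNBar Qb p - algebraMap Qb (modularFunctionFieldBar p) b))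

omit [IsAlgClosed (IsLocalRing.ResidueField A)]
  [FermatAgent.Curve.IsFunctionField1 (IsLocalRing.ResidueField A)
    (modularFunctionFieldFullC (IsLocalRing.ResidueField A) p)] in
include haA hPa hPb in
theorem ord_wFun_sub {β : Qb} (hβ : b = β * a ^ p) :
    0 < P.ord (wFun p - algebraMap Qb (modularFunctionFieldBar p) β) ∨ wFun p - algebraMap Qb (modularFunctionFieldBar p) β = 0 := by
  have ha0 : a ≠ 0 := fun h => haA (h ▸ zero_mem A)
  have hja : FermatAgent.Curve.valueAt P (jBar Qb p) = a :=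
    FermatAgent.Curve.valueAt_eq_of P (Or.inr hPa)
  have hjb : FermatAgent.Curve.valueAt P (jNBar Qb p) = b :=
    FermatAgent.Curve.valueAt_eq_of P (Or.inr hPb)
  have hmj : jBar Qb p ∈ P.toValuationSubring := by
    simpa using add_mem ((FermatAgent.Curve.mem_iff_ord_nonneg' P).2 hPa.le) (P.algebraMap_mem' a)
  have hmn : jNBar Qb p ∈ P.toValuationSubring := by
    simpa using add_mem ((FermatAgent.Curve.mem_iff_ord_nonneg' P).2 hPb.le) (P.algebraMap_mem' b)
  have hjp : FermatAgent.Curve.valueAt P (jBar Qb p ^ p) = a ^ p := by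
    rw [FermatAgent.Curve.valueAt_pow P hmj, hja]
  have hmp : jBar Qb p ^ p ∈ P.toValuationSubring := pow_mem hmj p
  have hord : P.ord (jBar Qb p ^ p) = 0 := by
    have h0 : 0 ≤ P.ord (jBar Qb p ^ p) := FermatAgent.Curve.ord_nonneg_of_mem' P hmp
    rcases h0.lt_or_eq with h0 | h0
    · have := (FermatAgent.Curve.valueAt_eq_zero_iff P hmp).2 (Or.inr h0)
      rw [hjp] at this
      exact absurd this (pow_ne_zero _ ha0)
    · exact h0.symm
  have hmi : (jBar Qb p ^ p)⁻¹ ∈ P.toValuationSubring :=
    (FermatAgent.Curve.mem_iff_ord_nonneg' P).2 (by rw [P.ord_inv, hord, neg_zero])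
  have hw : FermatAgent.Curve.valueAt P (wFun p) = β := by
    rw [wFun, div_eq_mul_inv, FermatAgent.Curve.valueAt_mul P hmn hmi,
      FermatAgent.Curve.valueAt_inv P hord, hjb, hjp, hβ,
      mul_inv_cancel_right₀ (pow_ne_zero _ ha0)]
  have hmw : wFun p ∈ P.toValuationSubring := by
    rw [wFun, div_eq_mul_inv]; exact mul_mem hmn hmi
  rcases FermatAgent.Curve.valueAt_spec P hmw with h | h
  · rw [hw] at h; exact Or.inr (sub_eq_zero.2 h)
  · rw [hw] at h; exact Or.inl h

include hℓ hℓp hd haA hPa hPb in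
/-- Reduction to the cusp `∞`. -/
theorem place_eq_cInf {β : A} (hβ : b = (β : Qb) * a ^ p) (hu : (IsLocalRing.residue A) β ≠ 0) :
    d.place P = d.place (cInf p) := by
  refine (place_eq_or hd haA hPa).resolve_right fun h => ?_
  have hpole : (d.place P).ord (jRed p A) < 0 := h ▸ (poles_jRed hℓ hℓp hd).1.2
  have h1 := ord_wRed_sub hℓ hℓp hd hpole (ord_wFun_sub haA hPa hPb hβ)
  have h2 := ord_wRed_cZero hℓ hℓp hd
  rw [h] at h1
  have hc : FermatAgent.Curve.valueAt (d.place (cZero p)) (wRed p A) = (IsLocalRing.residue A) β :=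
    FermatAgent.Curve.valueAt_eq_of _ (Or.inr h1)
  exact hu (hc.symm.trans (FermatAgent.Curve.valueAt_eq_of _ (Or.inr (by simpa using h2))))

include hℓ hℓp hd haA hPa hPb in
/-- Reduction to the cusp `0`. -/
theorem place_eq_cZero {β : A} (hβ : b = (β : Qb) * a ^ p) (hu : (IsLocalRing.residue A) β = 0) :
    d.place P = d.place (cZero p) := by
  refine (place_eq_or hd haA hPa).resolve_left fun h => ?_
  have hpole : (d.place P).ord (jRed p A) < 0 := h ▸ (poles_jRed hℓ hℓp hd).1.1
  have h1 := ord_wRed_sub hℓ hℓp hd hpole (ord_wFun_sub haA hPa hPb hβ)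
  rw [h] at h1
  have hc : FermatAgent.Curve.valueAt (d.place (cInf p)) (wRed p A) = (IsLocalRing.residue A) β :=
    FermatAgent.Curve.valueAt_eq_of _ (Or.inr h1)
  have h2 := ord_wRed_cInf hℓ hℓp hd
  have h3 : FermatAgent.Curve.valueAt (d.place (cInf p)) (wRed p A) = 1 :=
    FermatAgent.Curve.valueAt_eq_of _ (Or.inr (by simpa using h2))
  exact one_ne_zero (h3.symm.trans (hc.trans hu))

end FermatAgent.Mazur.Step3
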