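import Fermat.Agent.ModCurve.Points.GenusBar
import Fermat.Agent.Mazur.Step3.Cusps
import Fermat.Agent.Curve.RR.Main
import Fermat.Prelude.Def_ModularCurve_ModularUnit

/-!
Two distinct places of a curve of positive genus are not linearly equivalent; positivity of the
genus and of the Eisenstein numerator at the prime levels of Mazur's third step.
-/

set_option autoImplicit false

noncomputable section

open AlgebraicCurve ModularCurve

namespace FermatAgent.Mazur.Step3

section Generic

open FermatAgent.Curve.RR IntermediateField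

variable {k Fb : Type*} [Field k] [Field Fb] [Algebra k Fb] [IsAlgClosed k]
variable [FermatAgent.Curve.IsFunctionField1 k Fb]

theorem pair_notMem_principal (hg : genusFF k Fb ≠ 0) {P Q : Place k Fb} (hPQ : P ≠ Q) :
    Finsupp.single P (1 : ℤ) - Finsupp.single Q 1 ∉ Divisor.principal (K := k) (F := Fb) := by
  classical
  rintro ⟨f, hf, hD⟩
  have hord : ∀ v : Place k Fb, v ≠ Q → 0 ≤ v.ord f := fun v hv => by
    rw [← hD v, Finsupp.sub_apply, Finsupp.single_apply, Finsupp.single_apply, if_neg (Ne.symm hv)]
    split_ifs <;> norm_num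
  have hQ : Q.ord f = -1 := by
    rw [← hD Q, Finsupp.sub_apply, Finsupp.single_apply, Finsupp.single_apply, if_neg hPQ,
      if_pos rfl]
    norm_num
  have hx : Transcendental k f :=
    FermatAgent.Curve.transcendental_of_ord_ne_zero Q (by rw [hQ]; norm_num)
  set n := 2 * genusFF k Fb with hn
  have hind : LinearIndependent k fun i : Fin (n + 1) => f ^ (i : ℕ) := by
    have h := (((FermatAgent.Curve.linearIndependent_pow_of_transcendental hx).comp _
      Fin.val_injective).map' (k⟮f⟯.val.toLinearMap) (LinearMap.ker_eq_bot.2 k⟮f⟯.val.injective) :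
        LinearIndependent k (_ ∘ fun i : Fin (n + 1) => _))
    simpa [Function.comp_def] using h
  set D : Divisor k Fb := Finsupp.single Q (n : ℤ) with hDdef
  have hmem : ∀ i : Fin (n + 1), f ^ (i : ℕ) ∈ riemannRochSpace D := fun i => by
    refine mem_riemannRochSpace_iff.mpr fun v => Or.inr ?_
    rw [FermatAgent.Curve.ord_pow', hDdef, Finsupp.single_apply]
    rcases eq_or_ne v Q with rfl | hv
    · rw [if_pos rfl, hQ]
      have := i.isLt
      omega
    · rw [if_neg (Ne.symm hv), neg_zero]
      exact mul_nonneg (by positivity) (hord v hv)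
  have hle : n + 1 ≤ ell D := by
    have h := finrank_span_eq_card hind
    rw [Fintype.card_fin] at h
    rw [← h]
    exact Submodule.finrank_mono (Submodule.span_le.mpr (Set.range_subset_iff.mpr hmem))
  have hdeg : Divisor.degree D = n := by
    rw [hDdef, Divisor.degree_single, RRSetting.deg_eq_one]; simp
  have h := ell_eq_of_degree_ge (D := D) (by rw [hdeg, hn]; push_cast; omega)
  rw [hdeg] at h
  omega

end Generic

theorem two_le_eisensteinNumerator {p : ℕ} (hp : p.Prime)
    (hp' : p ∉ ({2, 3, 5, 7, 13} : Finset ℕ)) : 2 ≤ eisensteinNumerator p := by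
  simp only [Finset.mem_insert, Finset.mem_singleton, not_or] at hp'
  rcases lt_or_ge p 17 with h | h
  · obtain rfl : p = 11 := by
      have h2 := hp.two_le
      interval_cases p <;> first | rfl | omega | (exfalso; norm_num at hp)
    rw [eisensteinNumerator_eleven]; norm_num
  · rw [eisensteinNumerator]
    have hg : Nat.gcd (p - 1) 12 ≤ 12 := Nat.le_of_dvd (by norm_num) (Nat.gcd_dvd_right _ _)
    have hd := Nat.div_mul_cancel (Nat.gcd_dvd_left (p - 1) 12)
    by_contra hlt
    push Not at hlt
    interval_cases hq : (p - 1) / Nat.gcd (p - 1) 12 <;> omega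

theorem card_quadratic_le_two {p : ℕ} [Fact p.Prime] (u v : ZMod p) :
    Nat.card {x : ZMod p // x ^ 2 + u * x + v = 0} ≤ 2 := by
  classical
  rw [Nat.card_eq_fintype_card, Fintype.card_subtype]
  set P : Polynomial (ZMod p) := Polynomial.X ^ 2 + Polynomial.C u * Polynomial.X + Polynomial.C v
    with hP
  have hd : P.natDegree = 2 := by rw [hP]; compute_degree!
  have hP0 : P ≠ 0 := fun h => by rw [h] at hd; simp at hd
  refine le_trans (Finset.card_le_card (t := P.roots.toFinset) fun x hx => ?_)
    ((Multiset.toFinset_card_le _).trans (hd ▸ P.card_roots'))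
  rw [Multiset.mem_toFinset, Polynomial.mem_roots hP0]
  simpa [hP] using (Finset.mem_filter.1 hx).2

theorem genusFormula_pos {p : ℕ} [Fact p.Prime] (hp' : p ∉ ({2, 3, 5, 7, 13} : Finset ℕ)) :
    0 < genusFormula p := by
  have hp : p.Prime := Fact.out
  simp only [Finset.mem_insert, Finset.mem_singleton, not_or] at hp'
  have hψ : dedekindPsi p = p + 1 := by
    rw [← FermatAgent.ModCurveGroup.index_gamma0, index_gamma0_prime hp]
  have hc : cuspCount p = 2 := by
    rw [cuspCount, hp.divisors, Finset.sum_pair hp.ne_one.symm]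
    simp [Nat.div_self hp.pos]
  rw [genusFormula, hψ, hc]
  push_cast
  rcases lt_or_ge p 17 with h | h
  · obtain rfl : p = 11 := by
      have h2 := hp.two_le
      interval_cases p <;> first | rfl | omega | (exfalso; norm_num at hp)
    have h2 : nuTwo 11 = 0 := by rw [nuTwo, Nat.card_eq_fintype_card]; decide
    have h3 : nuThree 11 = 0 := by rw [nuThree, Nat.card_eq_fintype_card]; decide
    rw [h2, h3]; norm_num
  · have h2 : nuTwo p ≤ 2 := by
      rw [nuTwo]
      simpa using card_quadratic_le_two (0 : ZMod p) 1
    have h3 : nuThree p ≤ 2 := by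
      rw [nuThree]
      simpa using card_quadratic_le_two (1 : ZMod p) 1
    have e2 : (nuTwo p : ℚ) ≤ 2 := by exact_mod_cast h2
    have e3 : (nuThree p : ℚ) ≤ 2 := by exact_mod_cast h3
    have hp17 : (17 : ℚ) ≤ p := by exact_mod_cast h
    linarith

theorem genusFF_bar_ne_zero {p : ℕ} [Fact p.Prime] (hp' : p ∉ ({2, 3, 5, 7, 13} : Finset ℕ)) :
    genusFF (AlgebraicClosure ℚ) (modularFunctionFieldBar p) ≠ 0 := by
  intro h
  have h1 := FermatAgent.ModCurve.Points.genusFF_bar p
  rw [h, Nat.cast_zero] at h1
  exact (genusFormula_pos hp').ne h1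

end FermatAgent.Mazur.Step3
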