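import Fermat.Agent.Igusa.Fibre.WpProps

/-!
The addition, duplication and surjectivity of `℘`, by Liouville's theorem.
-/

set_option autoImplicit false

noncomputable section

namespace FermatAgent.Mazur.Step3

open Complex Filter Topology PeriodPair

/-- `F` agrees near `z`, off `z`, with a function analytic at `z`. -/
def HasExt (F : ℂ → ℂ) (z : ℂ) (a : ℂ) : Prop :=
  ∃ h : ℂ → ℂ, AnalyticAt ℂ h z ∧ F =ᶠ[𝓝[≠] z] h ∧ h z = a

variable {F G : ℂ → ℂ} {z a b : ℂ}

lemma HasExt.of_analyticAt (h : AnalyticAt ℂ F z) : HasExt F z (F z) :=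
  ⟨F, h, EventuallyEq.rfl, rfl⟩

lemma HasExt.add (hF : HasExt F z a) (hG : HasExt G z b) : HasExt (fun u => F u + G u) z (a + b) := by
  obtain ⟨f, hf, ef, rfl⟩ := hF
  obtain ⟨g, hg, eg, rfl⟩ := hG
  exact ⟨fun u => f u + g u, hf.add hg, ef.add eg, rfl⟩

lemma HasExt.sub (hF : HasExt F z a) (hG : HasExt G z b) : HasExt (fun u => F u - G u) z (a - b) := by
  obtain ⟨f, hf, ef, rfl⟩ := hF
  obtain ⟨g, hg, eg, rfl⟩ := hG
  exact ⟨fun u => f u - g u, hf.sub hg, ef.sub eg, rfl⟩

lemma HasExt.unique (hF : HasExt F z a) (hG : HasExt F z b) : a = b := by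
  obtain ⟨f, hf, ef, rfl⟩ := hF
  obtain ⟨g, hg, eg, rfl⟩ := hG
  exact tendsto_nhds_unique
    ((hf.continuousAt.tendsto.mono_left nhdsWithin_le_nhds).congr' ef.symm)
    ((hg.continuousAt.tendsto.mono_left nhdsWithin_le_nhds).congr' eg.symm)

/-- A function periodic for a lattice, analytic after removing singularities, is constant. -/
theorem exists_eq_const_of_hasExt (M : PeriodPair)
    (hper : ∀ u, ∀ l ∈ M.lattice, F (u + l) = F u) (hext : ∀ u, ∃ a, HasExt F u a) :
    ∃ c, ∀ u a, HasExt F u a → a = c := by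
  choose g hg using hext
  have hper' : ∀ u, ∀ l ∈ M.lattice, g (u + l) = g u := by
    intro u l hl
    obtain ⟨f, hf, ef, e⟩ := hg (u + l)
    have hf' : AnalyticAt ℂ (fun w => f (w + l)) u :=
      AnalyticAt.comp (g := f) hf (analyticAt_id.add analyticAt_const)
    have ht : Tendsto (fun w => w + l) (𝓝[≠] u) (𝓝[≠] (u + l)) :=
      tendsto_nhdsWithin_of_tendsto_nhds_of_eventually_within _
        (((continuous_add_const l).tendsto u).mono_left nhdsWithin_le_nhds)
        (eventually_nhdsWithin_of_forall fun w hw h => hw (add_right_cancel h))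
    have h2 : HasExt F u (f (u + l)) :=
      ⟨fun w => f (w + l), hf', by
        filter_upwards [ht.eventually ef] with w hw
        rw [← hper w l hl, hw], rfl⟩
    rw [← e]
    exact h2.unique (hg u)
  have hdiff : Differentiable ℂ g := by
    intro u
    obtain ⟨f, hf, ef, e⟩ := hg u
    refine hf.differentiableAt.congr_of_eventuallyEq ?_
    rw [EventuallyEq, eventually_nhdsWithin_iff] at ef
    filter_upwards [ef.eventually_nhds, hf.eventually_analyticAt] with w hw hfw
    rcases eq_or_ne w u with rfl | hne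
    · exact e.symm
    · refine (hg w).unique ⟨f, hfw, ?_, rfl⟩
      filter_upwards [mem_nhdsWithin_of_mem_nhds hw,
        mem_nhdsWithin_of_mem_nhds (isOpen_ne.mem_nhds hne)] with x hx hxu
      exact hx hxu
  refine ⟨g 0, fun u a ha => ?_⟩
  rw [ha.unique (hg u)]
  exact hdiff.apply_eq_apply_of_bounded (IsZLattice.isCompact_range_of_periodic M.lattice _
    hdiff.continuous fun w l hl => by
      exact hper' w l hl).isBounded u 0

variable (M : PeriodPair)

lemma eventually_notMem (u : ℂ) : ∀ᶠ w in 𝓝[≠] u, w ∉ M.lattice := by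
  filter_upwards [self_mem_nhdsWithin,
    mem_nhdsWithin_of_mem_nhds (M.compl_lattice_sdiff_singleton_mem_nhds u)] with w hw h1
  simp_all

lemma eventually_add_notMem (u v : ℂ) : ∀ᶠ w in 𝓝[≠] u, w + v ∉ M.lattice := by
  have ht : Tendsto (fun w => w + v) (𝓝[≠] u) (𝓝[≠] (u + v)) :=
    tendsto_nhdsWithin_of_tendsto_nhds_of_eventually_within _
      (((continuous_add_const v).tendsto u).mono_left nhdsWithin_le_nhds)
      (eventually_nhdsWithin_of_forall fun w hw h => hw (add_right_cancel h))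
  exact ht.eventually (eventually_notMem M (u + v))

lemma analyticAt_wp_add {u v : ℂ} (h : u + v ∉ M.lattice) :
    AnalyticAt ℂ (fun w => ℘[M] (w + v)) u :=
  AnalyticAt.comp (g := ℘[M]) (M.analyticOnNhd_weierstrassP _ h)
    (analyticAt_id.add analyticAt_const)

/-- The Laurent expansion of `℘` at a lattice point. -/
lemma exists_laurent {l : ℂ} (hl : l ∈ M.lattice) :
    ∃ φ : ℂ → ℂ, AnalyticAt ℂ φ 0 ∧ (l = 0 → φ 0 = 0) ∧
      ∀ h, h ≠ 0 → ℘[M] (l + h) = 1 / h ^ 2 + φ h := by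
  refine ⟨fun h => ℘[M - l] (l + h) - 1 / l ^ 2, ?_, ?_, fun h hh => ?_⟩
  · exact (AnalyticAt.comp (g := ℘[M - l]) (by simpa using M.analyticAt_weierstrassPExcept l)
      (analyticAt_const.add analyticAt_id)).sub analyticAt_const
  · rintro rfl
    simp
  · rw [← M.weierstrassPExcept_add ⟨l, hl⟩ (l + h)]
    simp only [add_sub_cancel_left]
    ring

/-- Taylor expansion to order four. -/
lemma exists_taylor_four {f : ℂ → ℂ} {v : ℂ} (hf : AnalyticAt ℂ f v) :
    ∃ g, AnalyticAt ℂ g 0 ∧ ∀ h, f (v + h) = f v + deriv f v * h +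
      iteratedDeriv 2 f v / 2 * h ^ 2 + iteratedDeriv 3 f v / 6 * h ^ 3 + h ^ 4 * g h := by
  have hp := hf.hasFPowerSeriesAt
  set p := FormalMultilinearSeries.ofScalars ℂ
    (fun n => iteratedDeriv n f v / (n.factorial : ℂ)) with hpdef
  let G : ℕ → ℂ → ℂ := fun n => (Function.swap dslope v)^[n] f
  have hG : ∀ n, HasFPowerSeriesAt (G n) (FormalMultilinearSeries.fslope^[n] p) v := fun n =>
    hp.has_fpower_series_iterate_dslope_fslope n
  have hval : ∀ n, G n v = iteratedDeriv n f v / (n.factorial : ℂ) := fun n => by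
    rw [← (hG n).coeff_zero 1, ← FormalMultilinearSeries.coeff,
      FormalMultilinearSeries.coeff_iterate_fslope, zero_add, hpdef,
      FormalMultilinearSeries.coeff_ofScalars]
  have hstep : ∀ n z, G n z = G n v + (z - v) * G (n + 1) z := fun n z => by
    have h1 : G (n + 1) = dslope (G n) v := Function.iterate_succ_apply' _ _ _
    rw [h1, ← smul_eq_mul, sub_smul_dslope, add_sub_cancel]
  refine ⟨fun h => G 4 (v + h), AnalyticAt.comp (g := G 4) (by simpa using (hG 4).analyticAt)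
    (analyticAt_const.add analyticAt_id), fun h => ?_⟩
  rw [show f (v + h) = G 0 (v + h) from rfl, hstep 0, hstep 1, hstep 2, hstep 3, hval, hval, hval,
    hval]
  simp only [Nat.factorial, iteratedDeriv_zero, iteratedDeriv_one, add_sub_cancel_left,
    Nat.succ_eq_add_one, Nat.reduceAdd, Nat.reduceMul]
  push_cast
  ring

lemma iteratedDeriv_two_wp {v : ℂ} (hv : v ∉ M.lattice) :
    iteratedDeriv 2 ℘[M] v = 6 * ℘[M] v ^ 2 - M.g₂ / 2 := by
  rw [iteratedDeriv_succ, iteratedDeriv_one, M.deriv_weierstrassP]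
  exact Igusa.deriv_derivWeierstrassP M hv

lemma iteratedDeriv_three_wp {v : ℂ} (hv : v ∉ M.lattice) :
    iteratedDeriv 3 ℘[M] v = 12 * ℘[M] v * ℘'[M] v := by
  have he : iteratedDeriv 2 ℘[M] =ᶠ[𝓝 v] fun w => 6 * ℘[M] w ^ 2 - M.g₂ / 2 := by
    filter_upwards [M.isClosed_lattice.isOpen_compl.mem_nhds hv] with w hw
    exact iteratedDeriv_two_wp M hw
  have hw : HasDerivAt ℘[M] (℘'[M] v) v := by
    have := (M.analyticOnNhd_weierstrassP v hv).differentiableAt.hasDerivAt
    rwa [M.deriv_weierstrassP] at this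
  rw [iteratedDeriv_succ, he.deriv_eq]
  refine (((hw.fun_pow 2).const_mul 6).sub_const _).deriv.trans ?_
  push_cast
  ring

lemma exists_wp_taylor {v : ℂ} (hv : v ∉ M.lattice) :
    ∃ g, AnalyticAt ℂ g 0 ∧ ∀ h, ℘[M] (v + h) = ℘[M] v + ℘'[M] v * h +
      (6 * ℘[M] v ^ 2 - M.g₂ / 2) / 2 * h ^ 2 + 2 * ℘[M] v * ℘'[M] v * h ^ 3 + h ^ 4 * g h := by
  obtain ⟨g, hg, hgv⟩ := exists_taylor_four (M.analyticOnNhd_weierstrassP v hv)
  refine ⟨g, hg, fun h => ?_⟩
  rw [hgv, M.deriv_weierstrassP, iteratedDeriv_two_wp M hv, iteratedDeriv_three_wp M hv]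
  ring

lemma derivWeierstrassP_eq_zero_of_two_mul_mem {v : ℂ} (h : 2 * v ∈ M.lattice) : ℘'[M] v = 0 := by
  have h1 : ℘'[M] (-v + ((⟨2 * v, h⟩ : M.lattice) : ℂ)) = ℘'[M] (-v) :=
    M.derivWeierstrassP_add_coe _ _
  rw [show (-v + ((⟨2 * v, h⟩ : M.lattice) : ℂ)) = v by simp; ring, M.derivWeierstrassP_neg] at h1
  linear_combination h1 / 2

/-- `℘` takes every value. -/
theorem exists_weierstrassP_eq (c : ℂ) : ∃ u, u ∉ M.lattice ∧ ℘[M] u = c := by
  classical
  by_contra! hne
  set F : ℂ → ℂ := fun u => (℘[M] u - c)⁻¹ with hF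
  have hlat : ∀ l ∈ M.lattice, HasExt F l 0 := by
    intro l hl
    obtain ⟨φ, hφ, -, hφl⟩ := exists_laurent M hl
    refine ⟨fun u => (u - l) ^ 2 / (1 + (u - l) ^ 2 * (φ (u - l) - c)), ?_, ?_, by simp⟩
    · have hA : AnalyticAt ℂ (fun u => φ (u - l)) l :=
        AnalyticAt.comp (g := φ) (by simpa using hφ) (analyticAt_id.sub analyticAt_const)
      exact ((analyticAt_id.sub analyticAt_const).pow 2).div
        (analyticAt_const.add (((analyticAt_id.sub analyticAt_const).pow 2).mul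
          (hA.sub analyticAt_const))) (by simp)
    · filter_upwards [self_mem_nhdsWithin] with u hu
      have h0 : u - l ≠ 0 := sub_ne_zero.2 hu
      have := hφl (u - l) h0
      rw [add_sub_cancel] at this
      simp only [hF, this]
      field_simp
      congr 1
      ring
  have han : ∀ u, u ∉ M.lattice → HasExt F u (F u) := fun u hu =>
    HasExt.of_analyticAt (((M.analyticOnNhd_weierstrassP u hu).sub analyticAt_const).inv
      (sub_ne_zero.2 (hne u hu)))
  obtain ⟨k, hk⟩ := exists_eq_const_of_hasExt M (F := F)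
    (fun u l hl => by
      have e := M.weierstrassP_add_coe u ⟨l, hl⟩
      simp only at e
      simp only [hF, e])
    (fun u => if hu : u ∈ M.lattice then ⟨0, hlat u hu⟩ else ⟨_, han u hu⟩)
  obtain ⟨u, hu⟩ : ∃ u, u ∉ M.lattice := ⟨_, M.ω₁_div_two_notMem_lattice⟩
  have : F u = 0 := (hk u _ (han u hu)).trans (hk 0 _ (hlat 0 (zero_mem _))).symm
  exact inv_ne_zero (sub_ne_zero.2 (hne u hu)) this

/-- One summand of the addition formula, extended across its pole. -/
lemma hasExt_term {z w c : ℂ} (hz : z ∉ M.lattice) (hw : ℘[M] w = c) :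
    (z + w ∈ M.lattice →
      HasExt (fun u => ℘[M] (u + w) * (℘[M] u - c) ^ 2) z (℘'[M] z ^ 2)) ∧
    (z + w ∉ M.lattice →
      HasExt (fun u => ℘[M] (u + w) * (℘[M] u - c) ^ 2) z (℘[M] (z + w) * (℘[M] z - c) ^ 2)) := by
  refine ⟨fun hl => ?_, fun hl => HasExt.of_analyticAt
    ((analyticAt_wp_add M hl).mul (((M.analyticOnNhd_weierstrassP z hz).sub analyticAt_const).pow 2))⟩
  obtain ⟨φ, hφ, -, hφl⟩ := exists_laurent M hl
  obtain ⟨g, hg, hgz⟩ := exists_wp_taylor M hz
  have hc : ℘[M] z = c := by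
    rw [← hw, ← M.weierstrassP_neg w]
    have := M.weierstrassP_add_coe (-w) ⟨z + w, hl⟩
    simpa using this
  set A : ℂ → ℂ := fun h => ℘'[M] z + (6 * ℘[M] z ^ 2 - M.g₂ / 2) / 2 * h +
    2 * ℘[M] z * ℘'[M] z * h ^ 2 + h ^ 3 * g h with hA
  have hAan : AnalyticAt ℂ A 0 :=
    ((analyticAt_const.add (analyticAt_const.mul analyticAt_id)).add
      (analyticAt_const.mul (analyticAt_id.pow 2))).add ((analyticAt_id.pow 3).mul hg)
  have hsub : AnalyticAt ℂ (fun u => (1 + (u - z) ^ 2 * φ (u - z)) * A (u - z) ^ 2) z := by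
    have hid : AnalyticAt ℂ (fun u : ℂ => u - z) z := analyticAt_id.sub analyticAt_const
    exact (analyticAt_const.add ((hid.pow 2).mul (AnalyticAt.comp (g := φ) (by simpa using hφ)
      hid))).mul ((AnalyticAt.comp (g := A) (by simpa using hAan) hid).pow 2)
  refine ⟨_, hsub, ?_, by simp [hA]⟩
  filter_upwards [self_mem_nhdsWithin] with u hu
  have h0 : u - z ≠ 0 := sub_ne_zero.2 hu
  have h1 := hgz (u - z)
  have h2 := hφl (u - z) h0
  rw [add_sub_cancel] at h1
  rw [show z + w + (u - z) = u + w by ring] at h2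
  rw [h1, h2, hc]
  simp only [hA, hc]
  field_simp
  ring

/-- The right side of the symmetric addition formula. -/
def addRHS (g₂ g₃ X c : ℂ) : ℂ := 2 * X * c * (X + c) - g₂ / 2 * (X + c) - g₃

/-- The symmetric addition formula for `℘`. -/
theorem wp_add_add_wp_sub {u v : ℂ} (hu : u ∉ M.lattice) (hv : v ∉ M.lattice)
    (h₁ : u + v ∉ M.lattice) (h₂ : u - v ∉ M.lattice) :
    (℘[M] (u + v) + ℘[M] (u - v)) * (℘[M] u - ℘[M] v) ^ 2 =
      addRHS M.g₂ M.g₃ (℘[M] u) (℘[M] v) := by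
  classical
  set c := ℘[M] v with hc
  clear_value c
  set F : ℂ → ℂ := fun u => (℘[M] (u + v) * (℘[M] u - c) ^ 2 +
    ℘[M] (u + -v) * (℘[M] u - c) ^ 2) - addRHS M.g₂ M.g₃ (℘[M] u) c with hF
  have hRHS : ∀ z, z ∉ M.lattice →
      HasExt (fun u => addRHS M.g₂ M.g₃ (℘[M] u) c) z (addRHS M.g₂ M.g₃ (℘[M] z) c) := by
    intro z hz
    refine HasExt.of_analyticAt ?_
    simp only [addRHS]
    have := M.analyticOnNhd_weierstrassP z hz
    fun_prop
  have hoff : ∀ z, z ∉ M.lattice → ∃ a, HasExt F z a := by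
    intro z hz
    have t1 := hasExt_term M (w := v) hz hc.symm
    have t2 := hasExt_term M (w := -v) hz ((M.weierstrassP_neg v).trans hc.symm)
    have ex : ∀ {w : ℂ}, ((z + w ∈ M.lattice →
        HasExt (fun u => ℘[M] (u + w) * (℘[M] u - c) ^ 2) z (℘'[M] z ^ 2)) ∧
        (z + w ∉ M.lattice → HasExt (fun u => ℘[M] (u + w) * (℘[M] u - c) ^ 2) z
          (℘[M] (z + w) * (℘[M] z - c) ^ 2))) →
        ∃ a, HasExt (fun u => ℘[M] (u + w) * (℘[M] u - c) ^ 2) z a := fun {w} t =>
      if h : z + w ∈ M.lattice then ⟨_, t.1 h⟩ else ⟨_, t.2 h⟩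
    obtain ⟨a, ha⟩ := ex t1
    obtain ⟨b, hb⟩ := ex t2
    exact ⟨_, (ha.add hb).sub (hRHS z hz)⟩
  have hlat : ∀ l ∈ M.lattice, ∃ a, HasExt F l a := by
    intro l hl
    obtain ⟨φ, hφ, -, hφl⟩ := exists_laurent M hl
    obtain ⟨g, hg, hgv⟩ := exists_wp_taylor M hv
    set T : ℂ → ℂ := fun h => g h + g (-h) with hT
    have hTan : AnalyticAt ℂ T 0 :=
      hg.add (AnalyticAt.comp (g := g) (by simpa using hg) analyticAt_id.neg)
    set d := 6 * c ^ 2 - M.g₂ / 2 with hd
    set E : ℂ → ℂ := fun h => (2 * c + d * h ^ 2 + h ^ 4 * T h) * (φ h - c) ^ 2 +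
        2 * (φ h - c) * (d + h ^ 2 * T h) + T h - 2 * c * φ h ^ 2 -
        (2 * c ^ 2 - M.g₂ / 2) * φ h + (M.g₂ / 2 * c + M.g₃) with hE
    have hEan : AnalyticAt ℂ E 0 := by
      simp only [hE]
      fun_prop
    refine ⟨_, fun u => E (u - l),
      AnalyticAt.comp (g := E) (by simpa using hEan) (analyticAt_id.sub analyticAt_const), ?_, rfl⟩
    filter_upwards [self_mem_nhdsWithin] with u hu'
    have h0 : u - l ≠ 0 := sub_ne_zero.2 hu'
    have e1 : ℘[M] (u + v) = ℘[M] (v + (u - l)) := by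
      rw [show u + v = v + (u - l) + ((⟨l, hl⟩ : M.lattice) : ℂ) by simp; ring,
        M.weierstrassP_add_coe]
    have e2 : ℘[M] (u + -v) = ℘[M] (v + -(u - l)) := by
      rw [show u + -v = -(v + -(u - l)) + ((⟨l, hl⟩ : M.lattice) : ℂ) by simp; ring,
        M.weierstrassP_add_coe, M.weierstrassP_neg]
    have e3 := hφl (u - l) h0
    rw [add_sub_cancel] at e3
    simp only [hF, addRHS, e1, e2, hgv, e3, hE, hT, hd, ← hc]
    field_simp
    ring
  obtain ⟨k, hk⟩ := exists_eq_const_of_hasExt M (F := F)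
    (fun z l hl => by
      have e : ∀ w, ℘[M] (z + l + w) = ℘[M] (z + w) := fun w => by
        rw [show z + l + w = z + w + ((⟨l, hl⟩ : M.lattice) : ℂ) by simp; ring,
          M.weierstrassP_add_coe]
      have e0 := e 0
      rw [add_zero, add_zero] at e0
      simp only [hF, e, e0])
    (fun z => if hz : z ∈ M.lattice then hlat z hz else hoff z hz)
  have hk0 : k = 0 := by
    have t2 : HasExt (fun u => ℘[M] (u + -v) * (℘[M] u - c) ^ 2) v (℘'[M] v ^ 2) :=
      (hasExt_term M hv ((M.weierstrassP_neg v).trans hc.symm)).1 (by simp)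
    have t1 : HasExt (fun u => ℘[M] (u + v) * (℘[M] u - c) ^ 2) v 0 := by
      by_cases h : v + v ∈ M.lattice
      · have := (hasExt_term M hv hc.symm).1 h
        rwa [derivWeierstrassP_eq_zero_of_two_mul_mem M (by rwa [two_mul]),
          zero_pow two_ne_zero] at this
      · have := (hasExt_term M hv hc.symm).2 h
        rwa [← hc, sub_self, zero_pow two_ne_zero, mul_zero] at this
    rw [← hk v _ ((t1.add t2).sub (hRHS v hv)), ← hc, M.derivWeierstrassP_sq v hv, addRHS, ← hc]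
    ring
  have hFu : HasExt F u (F u) := by
    refine (((HasExt.of_analyticAt ?_).add (HasExt.of_analyticAt ?_)).sub (hRHS u hu))
    · exact (analyticAt_wp_add M h₁).mul
        (((M.analyticOnNhd_weierstrassP u hu).sub analyticAt_const).pow 2)
    · exact (analyticAt_wp_add M (by rwa [← sub_eq_add_neg])).mul
        (((M.analyticOnNhd_weierstrassP u hu).sub analyticAt_const).pow 2)
  have := (hk u _ hFu).trans hk0
  simp only [hF, ← sub_eq_add_neg] at this
  linear_combination this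

/-- The duplication formula for `℘`. -/
theorem wp_two_mul {v : ℂ} (hv : v ∉ M.lattice) (hd : ℘'[M] v ≠ 0) :
    2 * v ∉ M.lattice ∧
      ℘[M] (2 * v) = -2 * ℘[M] v + (6 * ℘[M] v ^ 2 - M.g₂ / 2) ^ 2 / (4 * ℘'[M] v ^ 2) := by
  have h2 : 2 * v ∉ M.lattice := fun h => hd (derivWeierstrassP_eq_zero_of_two_mul_mem M h)
  refine ⟨h2, ?_⟩
  obtain ⟨g, hg, hgv⟩ := exists_wp_taylor M hv
  obtain ⟨φ, hφ, hφ0, hφl⟩ := exists_laurent M (zero_mem M.lattice)
  set c := ℘[M] v with hc
  clear_value c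
  set d := 6 * c ^ 2 - M.g₂ / 2 with hdd
  set p := ℘'[M] v with hp
  set A₂ : ℂ → ℂ := fun h => 2 * c * p + h * g h with hA₂
  set A : ℂ → ℂ := fun h => p + d / 2 * h + h ^ 2 * A₂ h with hA
  set B : ℂ → ℂ := fun h => (d ^ 2 / 4 - 2 * p * A₂ h) - h ^ 2 * A₂ h ^ 2 with hB
  set E : ℂ → ℂ := fun h => 2 * c + B h / A h ^ 2 - φ h with hE
  have hA0 : A 0 ≠ 0 := by simpa [hA] using hd
  have hEan : AnalyticAt ℂ E 0 := by
    simp only [hE, hB, hA, hA₂] at *
    fun_prop (disch := simpa using hd)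
  have hcl : Tendsto (fun h : ℂ => v + v + h) (𝓝 0) (𝓝 (v + v)) := by
    simpa using (continuous_const_add (v + v)).tendsto (0 : ℂ)
  have hev : (fun h : ℂ => ℘[M] (v + v + h)) =ᶠ[𝓝[≠] (0 : ℂ)] E := by
    have hA' : ∀ᶠ h in 𝓝 (0 : ℂ), A h ≠ 0 := by
      refine ContinuousAt.eventually_ne ?_ hA0
      refine AnalyticAt.continuousAt (𝕜 := ℂ) ?_
      simp only [hA, hA₂]
      fun_prop
    filter_upwards [self_mem_nhdsWithin, nhdsWithin_le_nhds hA', eventually_notMem M 0,
      nhdsWithin_le_nhds (hcl.eventually (M.isClosed_lattice.isOpen_compl.mem_nhds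
        (by rwa [← two_mul]))), eventually_add_notMem M 0 v] with h hh hAh hhl hvv hhv
    have hh : h ≠ 0 := hh
    have key := wp_add_add_wp_sub M (u := v + h) (v := v) (by rwa [add_comm]) hv
      (by rwa [show v + h + v = v + v + h by ring]) (by rwa [add_sub_cancel_left])
    rw [show v + h + v = v + v + h by ring, add_sub_cancel_left,
      show ℘[M] h = 1 / h ^ 2 + φ h by simpa using hφl h hh,
      show ℘[M] (v + h) = c + h * A h by rw [hgv]; simp only [hA, hA₂, hdd]; ring,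
      ← hc, add_sub_cancel_left, addRHS] at key
    have hsq : p ^ 2 = 4 * c ^ 3 - M.g₂ * c - M.g₃ := by
      rw [hc, hp]; exact M.derivWeierstrassP_sq v hv
    have hBq : h ^ 2 * B h = p ^ 2 + d * h * A h - A h ^ 2 := by
      simp only [hB, hA]; ring
    have hW : (℘[M] (v + v + h) + φ h - 2 * c) * A h ^ 2 = B h := by
      refine mul_left_cancel₀ (pow_ne_zero 2 hh) ?_
      have e : 1 / h ^ 2 * h ^ 2 = 1 := by field_simp
      linear_combination key - hBq - hsq + (h * A h * hdd) - A h ^ 2 * e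
    simp only [hE, ← hW]
    field_simp
    ring
  have hl : ℘[M] (v + v) = E 0 := by
    refine tendsto_nhds_unique ?_
      ((hEan.continuousAt.tendsto.mono_left nhdsWithin_le_nhds).congr' hev.symm)
    exact ((M.analyticOnNhd_weierstrassP (v + v) (by rwa [← two_mul])).continuousAt.tendsto.comp
      hcl).mono_left nhdsWithin_le_nhds
  rw [two_mul, hl]
  simp only [hE, hB, hA, hA₂, hφ0 rfl]
  field_simp
  ring

end FermatAgent.Mazur.Step3
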