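import Fermat.Agent.Mazur.LineMap
import Fermat.Agent.Mazur.Node

/-!
The node of a curve with multiplicative reduction, and the sizes of the invariant of the curve and
of its quotient by a line of odd prime order.
-/

set_option autoImplicit false

noncomputable section

namespace FermatAgent.Mazur.Step3

open WeierstrassCurve WeierstrassCurve.Affine FermatAgent.LocalP FermatAgent.Local Polynomial
open FermatAgent.Mazur

variable {K : Type*} [Field K] {A : ValuationSubring K} {W : WeierstrassCurve.Affine K}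

/-- The invariant attached to three differences of roots. -/
def jDiff (u v w : K) : K := 32 * (u ^ 2 + v ^ 2 + w ^ 2) ^ 3 / (u * v * w) ^ 2

lemma c₄_eq (S : Split W) :
    W.c₄ = 8 * ((S.e₁ - S.e₂) ^ 2 + (S.e₂ - S.e₃) ^ 2 + (S.e₃ - S.e₁) ^ 2) := by
  simp only [WeierstrassCurve.c₄]
  rw [S.hb₂, S.hb₄]; ring

lemma Δ_eq [CharZero K] (S : Split W) :
    W.Δ = 16 * ((S.e₁ - S.e₂) * (S.e₂ - S.e₃) * (S.e₃ - S.e₁)) ^ 2 := by
  have hb := W.b_relation
  simp only [WeierstrassCurve.Δ]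
  rw [S.hb₂, S.hb₄, S.hb₆] at hb ⊢
  linear_combination -((-4 * (S.e₁ + S.e₂ + S.e₃)) ^ 2 / 4) * hb

lemma c₄_pow_div_Δ [CharZero K] (S : Split W) :
    W.c₄ ^ 3 / W.Δ = jDiff (S.e₁ - S.e₂) (S.e₂ - S.e₃) (S.e₃ - S.e₁) := by
  rw [c₄_eq S, Δ_eq S, jDiff]
  have h : (S.e₁ - S.e₂) * (S.e₂ - S.e₃) * (S.e₃ - S.e₁) ≠ 0 :=
    mul_ne_zero (mul_ne_zero (sub_ne_zero.2 S.h₁₂) (sub_ne_zero.2 S.h₂₃)) (sub_ne_zero.2 S.h₃₁)
  field_simp
  ring

lemma mem_of_monic_cubic {b c d r : K} (hb : b ∈ A) (hc : c ∈ A) (hd : d ∈ A)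
    (h : r ^ 3 + b * r ^ 2 + c * r + d = 0) : r ∈ A := by
  by_contra hr
  have hi : r⁻¹ ∈ A := (A.mem_or_inv_mem r).resolve_left hr
  have h0 : r ≠ 0 := fun h0 => hr (h0 ▸ zero_mem A)
  refine hr ?_
  have : r = -(b + c * r⁻¹ + d * r⁻¹ ^ 2) := by
    field_simp
    linear_combination h
  rw [this]
  exact neg_mem (add_mem (add_mem hb (mul_mem hc hi)) (mul_mem hd (pow_mem hi 2)))

/-- A nonsingular curve has a splitting. -/
theorem exists_splitting [IsAlgClosed K] [CharZero K] (hΔ0 : W.Δ ≠ 0) : Nonempty (Split W) := by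
  have h4 : (4 : K) ≠ 0 := by norm_num
  obtain ⟨r, hr⟩ := IsAlgClosed.exists_root
    (C (4 : K) * X ^ 3 + C W.b₂ * X ^ 2 + C (2 * W.b₄) * X + C W.b₆)
    (by rw [degree_cubic h4]; decide)
  simp only [IsRoot.def, eval_add, eval_mul, eval_C, eval_pow, eval_X] at hr
  obtain ⟨s, hs⟩ := IsAlgClosed.exists_root
    (C (4 : K) * X ^ 2 + C (W.b₂ + 4 * r) * X + C (2 * W.b₄ + W.b₂ * r + 4 * r ^ 2))
    (by rw [degree_quadratic h4]; decide)
  simp only [IsRoot.def, eval_add, eval_mul, eval_C, eval_pow, eval_X] at hs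
  set t : K := -W.b₂ / 4 - r - s with ht
  have e2 : W.b₂ = -4 * (r + s + t) := by rw [ht]; ring
  have e4 : W.b₄ = 2 * (r * s + s * t + t * r) := by
    rw [ht]; linear_combination (1 / 2 : K) * hs
  have e6 : W.b₆ = -4 * (r * s * t) := by
    rw [ht]; linear_combination hr - r * hs
  have hΔ' : W.Δ = 16 * ((r - s) * (s - t) * (t - r)) ^ 2 := by
    have hb := W.b_relation
    simp only [WeierstrassCurve.Δ]
    rw [e2, e4, e6] at hb ⊢
    linear_combination -((-4 * (r + s + t)) ^ 2 / 4) * hb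
  rw [hΔ'] at hΔ0
  simp only [ne_eq, mul_eq_zero, pow_eq_zero_iff two_ne_zero, sub_eq_zero, not_or] at hΔ0
  exact ⟨⟨r, s, t, e2, e4, e6, hΔ0.2.1.1, hΔ0.2.1.2, hΔ0.2.2⟩⟩

/-- A curve with multiplicative reduction has a node. -/
theorem exists_node [IsAlgClosed K] [CharZero K] (hW : IntCoeffs A W) (hΔ0 : W.Δ ≠ 0)
    (hΔ : A.valuation W.Δ < 1) (hc₄ : A.valuation W.c₄ = 1) : ∃ S : Split W, Node A S := by
  obtain ⟨S⟩ : Nonempty (Split W) := exists_splitting hΔ0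
  -- the scaled roots are integral
  have hb2 : W.b₂ ∈ A := add_mem (pow_mem hW.a₁ 2) (mul_mem (natCast_mem A 4) hW.a₂)
  have hb4 : W.b₄ ∈ A := add_mem (mul_mem (natCast_mem A 2) hW.a₄) (mul_mem hW.a₁ hW.a₃)
  have hb6 : W.b₆ ∈ A := add_mem (pow_mem hW.a₃ 2) (mul_mem (natCast_mem A 4) hW.a₆)
  have hint : ∀ T : Split W, 4 * T.e₁ ∈ A := fun T => by
    refine mem_of_monic_cubic hb2 (mul_mem (natCast_mem A 8) hb4) (mul_mem (natCast_mem A 16) hb6)
      (?_ : (4 * T.e₁) ^ 3 + W.b₂ * (4 * T.e₁) ^ 2 + (8 : ℕ) * W.b₄ * (4 * T.e₁) +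
        (16 : ℕ) * W.b₆ = 0)
    have := T.psi2_eq T.e₁
    rw [Split.psi2] at this
    push_cast
    linear_combination 16 * this
  -- a congruent pair
  obtain ⟨T, hT⟩ : ∃ T : Split W, A.valuation (4 * T.e₁ - 4 * T.e₂) < 1 := by
    by_contra hc
    push Not at hc
    have h3 := mul_le_mul' (mul_le_mul' (hc S) (hc S.rot)) (hc S.rot.rot)
    rw [one_mul, one_mul, ← map_mul, ← map_mul] at h3
    refine absurd (le_trans (le_of_eq (one_mul (1 : A.ValueGroup)).symm) (mul_le_mul' h3 h3))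
      (not_le.2 ?_)
    rw [← map_mul, show ((4 * S.e₁ - 4 * S.e₂) * (4 * S.rot.e₁ - 4 * S.rot.e₂) *
      (4 * S.rot.rot.e₁ - 4 * S.rot.rot.e₂)) * ((4 * S.e₁ - 4 * S.e₂) *
      (4 * S.rot.e₁ - 4 * S.rot.e₂) * (4 * S.rot.rot.e₁ - 4 * S.rot.rot.e₂)) =
      ((256 : ℕ) : K) * W.Δ by simp only [Split.rot]; rw [Δ_eq S]; push_cast; ring, map_mul]
    exact val_mul_lt_one_of_le_of_lt (val_le_one_of_mem (natCast_mem A 256)) hΔ
  have i1 := hint T
  have i2 : 4 * T.e₂ ∈ A := hint T.rot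
  have i3 : 4 * T.e₃ ∈ A := hint T.rot.rot
  set α := 4 * T.e₁ - 4 * T.e₂
  set β := 4 * T.e₁ - 4 * T.e₃
  have hβA : β ∈ A := sub_mem i1 i3
  have hβ : A.valuation β = 1 := by
    refine le_antisymm (val_le_one_of_mem hβA) (not_lt.1 fun hlt => ?_)
    refine hc₄.not_lt ?_
    rw [show W.c₄ = β ^ 2 - α * β + α ^ 2 by rw [c₄_eq T]; ring]
    refine A.valuation.map_add_lt ((A.valuation.map_sub _ _).trans_lt (max_lt ?_ ?_)) ?_
    · rw [map_pow]; exact pow_lt_one₀ zero_le hlt two_ne_zero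
    · rw [map_mul]; exact val_mul_lt_one_of_lt_of_le hT hlt.le
    · rw [map_pow]; exact pow_lt_one₀ zero_le hT two_ne_zero
  have hfar : A.valuation (4 * (T.e₁ - T.e₃)) = 1 := by rw [mul_sub]; exact hβ
  have hfar2 : A.valuation (4 * (T.e₂ - T.e₃)) = 1 := by
    rw [show 4 * (T.e₂ - T.e₃) = β + -α by ring, val_add_eq_left] <;> rw [hβ]
    rwa [Valuation.map_neg]
  refine ⟨T, ?_, hfar, ?_⟩
  · by_cases h4 : A.valuation (4 : K) = 1
    · refine mem_of_val_le_one ?_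
      have := val_le_one_of_mem i1
      rwa [map_mul, h4, one_mul] at this
    have h4' : A.valuation (4 : K) < 1 :=
      val_lt_one_of_mem_of_ne (natCast_mem A 4) h4
    have h2 : A.valuation (2 : K) < 1 := val_sq_lt (by norm_num; exact h4')
    have hb2u : A.valuation W.b₂ = 1 := by
      refine le_antisymm (val_le_one_of_mem hb2) (not_lt.1 fun hlt => hc₄.not_lt ?_)
      rw [WeierstrassCurve.c₄, show (24 : K) * W.b₄ = 2 * (((12 : ℕ) : K) * W.b₄) by
        push_cast; ring]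
      refine (A.valuation.map_sub _ _).trans_lt (max_lt ?_ ?_)
      · rw [map_pow]; exact pow_lt_one₀ zero_le hlt two_ne_zero
      · rw [map_mul]
        exact val_mul_lt_one_of_lt_of_le h2 (val_le_one_of_mem (mul_mem (natCast_mem A 12) hb4))
    by_contra he
    have he0 : T.e₁ ≠ 0 := fun h => he (h ▸ zero_mem A)
    have hi : A.valuation T.e₁⁻¹ < 1 := by
      rw [map_inv₀]; exact inv_lt_one_of_one_lt₀ (one_lt_val_of_not_mem he)
    -- the scaled root is congruent to `-b₂`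
    have hE : A.valuation (4 * T.e₁ + W.b₂) < 1 := by
      have := T.psi2_eq T.e₁
      rw [Split.psi2, sub_self, zero_mul, zero_mul, mul_zero] at this
      rw [show 4 * T.e₁ + W.b₂ = -(((2 : ℕ) : K) * W.b₄ + W.b₆ * T.e₁⁻¹) * T.e₁⁻¹ by
        field_simp; push_cast; linear_combination this, map_mul, Valuation.map_neg]
      exact val_mul_lt_one_of_le_of_lt (val_le_one_of_mem (add_mem (mul_mem (natCast_mem A 2) hb4)
        (mul_mem hb6 (mem_of_val_le_one hi.le)))) hi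
    have u1 : A.valuation (4 * T.e₁) = 1 := by
      rw [show 4 * T.e₁ = -W.b₂ + (4 * T.e₁ + W.b₂) by ring, val_add_eq_left] <;>
        rw [Valuation.map_neg, hb2u]
      exact hE
    have u2 : A.valuation (4 * T.e₂) = 1 := by
      rw [show 4 * T.e₂ = 4 * T.e₁ + -α by ring, val_add_eq_left] <;> rw [u1]
      rwa [Valuation.map_neg]
    have u3 : A.valuation (4 * T.e₃) = 1 := by
      rw [show 4 * T.e₃ = 4 * T.e₂ + -(((2 : ℕ) : K) * (4 * T.e₂) + (4 * T.e₁ + W.b₂) +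
        0) by rw [T.hb₂]; push_cast; ring, val_add_eq_left] <;> rw [u2]
      rw [Valuation.map_neg, add_zero]
      refine A.valuation.map_add_lt ?_ hE
      rw [map_mul, u2, mul_one]; exact_mod_cast h2
    have hprod : A.valuation ((4 * T.e₁) * (4 * T.e₂) * (4 * T.e₃)) < 1 := by
      rw [show (4 * T.e₁) * (4 * T.e₂) * (4 * T.e₃) = -(4 * (((4 : ℕ) : K) * W.b₆)) by
        rw [T.hb₆]; push_cast; ring, Valuation.map_neg, map_mul]
      exact val_mul_lt_one_of_lt_of_le h4' (val_le_one_of_mem (mul_mem (natCast_mem A 4) hb6))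
    rw [map_mul, map_mul, u1, u2, u3, one_mul, one_mul] at hprod
    exact lt_irrefl _ hprod
  · refine val_sq_lt ?_
    have : W.Δ * ((4 * (T.e₁ - T.e₃)) ^ 2) =
        T.c ^ 2 * ((4 * (T.e₂ - T.e₃)) ^ 2 * (4 * (T.e₁ - T.e₃)) ^ 2) := by
      rw [Δ_eq T, Split.c]; ring
    have hh := congrArg A.valuation this
    simp only [map_mul, map_pow, hfar, hfar2, one_pow, mul_one] at hh
    rw [map_pow, ← hh]; exact hΔ

variable [CharZero K]

section Sizes

variable {S : Split W} (hS : Node A S)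
include hS

omit [CharZero K] in
lemma val_far₂ : A.valuation (4 * (S.e₂ - S.e₃)) = 1 := by
  rw [show 4 * (S.e₂ - S.e₃) = 4 * (-(S.e₁ - S.e₂) + (S.e₁ - S.e₃)) by ring]
  exact hS.val_four_mul (by rw [Valuation.map_neg]; exact hS.near_lt)

lemma val_Δ_eq : A.valuation W.Δ = A.valuation S.c ^ 2 := by
  have : W.Δ * ((4 * (S.e₁ - S.e₃)) ^ 2) =
      S.c ^ 2 * ((4 * (S.e₂ - S.e₃)) ^ 2 * (4 * (S.e₁ - S.e₃)) ^ 2) := by
    rw [Δ_eq S, Split.c]; ring
  have hh := congrArg A.valuation this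
  simpa only [map_mul, map_pow, hS.far, val_far₂ hS, one_pow, mul_one] using hh

omit [CharZero K] in
lemma val_c₄_eq : A.valuation W.c₄ = 1 := by
  rw [show W.c₄ = (4 * (S.e₂ - S.e₃)) ^ 2 + (4 * (4 * (S.e₁ - S.e₂)) * (S.e₁ - S.e₃)) by
    rw [c₄_eq S]; ring, val_add_eq_left]
  · rw [map_pow, val_far₂ hS, one_pow]
  · rw [map_pow, val_far₂ hS, one_pow,
      show 4 * (4 * (S.e₁ - S.e₂)) * (S.e₁ - S.e₃) = 4 * (S.e₁ - S.e₂) * (4 * (S.e₁ - S.e₃)) by
        ring, map_mul, hS.far, mul_one, map_mul]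
    exact val_mul_lt_one_of_le_of_lt (val_ofNat_le_one 4) hS.near_lt

/-- The size of the invariant. -/
theorem val_j : A.valuation (W.c₄ ^ 3 / W.Δ) = (A.valuation S.c ^ 2)⁻¹ := by
  rw [map_div₀, map_pow, val_c₄_eq hS, val_Δ_eq hS, one_pow, one_div]

theorem one_lt_val_j : 1 < A.valuation (W.c₄ ^ 3 / W.Δ) := by
  rw [val_j hS, one_lt_inv₀]
  · exact pow_lt_one₀ zero_le hS.c_lt two_ne_zero
  · exact pow_pos (zero_lt_iff.2 ((_root_.map_ne_zero _).2 S.c_ne_zero)) 2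

end Sizes

end FermatAgent.Mazur.Step3
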