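import Fermat.Agent.Mazur.Step3.LatticeAddition
import Fermat.Agent.Mazur.Step3.NodeGeneral
import Fermat.Agent.ModCurve.Points.JLine

/-!
The invariants of lattices, uniformisation of three roots, and normalisation of a point of order
`p` modulo a lattice to a multiple of `1/p`.
-/

set_option autoImplicit false

noncomputable section

namespace FermatAgent.Mazur.Step3

open UpperHalfPlane hiding I
open Complex PeriodPair
open FermatAgent.ModFun (jFun)
open FermatAgent.ModCurve.Forms (pairOf G_pairOf scalePt)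
open scoped Real MatrixGroups

lemma riemannZeta_six : riemannZeta 6 = (π : ℂ) ^ 6 / 945 := by
  have h := riemannZeta_two_mul_nat (k := 3) three_ne_zero
  have hb : bernoulli' 6 = 1 / 42 := by
    have h5 : bernoulli' 5 = 0 := bernoulli'_eq_zero_of_odd (by decide) (by norm_num)
    rw [bernoulli'_def]
    norm_num [Finset.sum_range_succ, h5, bernoulli'_four, Nat.choose]
  rw [show (2 : ℂ) * ((3 : ℕ) : ℂ) = 6 by norm_num, show (2 * 3 : ℕ) = 6 from rfl,
    bernoulli_eq_bernoulli'_of_ne_one (by norm_num), hb] at h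
  rw [h]
  norm_num [Nat.factorial]
  ring

lemma g₂_pairOf (τ : ℍ) (w : ℂ) (hw : w ≠ 0) :
    (pairOf τ w hw).g₂ = 4 * (π : ℂ) ^ 4 / 3 * ModularForm.E₄ τ / w ^ 4 := by
  rw [PeriodPair.g₂, G_pairOf (k := 4) (by norm_num)]
  simp [riemannZeta_four, zpow_ofNat]
  ring

lemma g₃_pairOf (τ : ℍ) (w : ℂ) (hw : w ≠ 0) :
    (pairOf τ w hw).g₃ = 8 * (π : ℂ) ^ 6 / 27 * ModularForm.E₆ τ / w ^ 6 := by
  rw [PeriodPair.g₃, G_pairOf (k := 6) (by norm_num)]
  simp [riemannZeta_six, zpow_ofNat]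
  ring

/-- The cubic of a lattice. -/
def cubic (M : PeriodPair) (x : ℂ) : ℂ := 4 * x ^ 3 - M.g₂ * x - M.g₃

/-- Three distinct roots of the cubic of a lattice determine its invariants. -/
lemma invariants_of_roots {M : PeriodPair} {a b c : ℂ} (hab : a ≠ b) (hbc : b ≠ c) (hca : c ≠ a)
    (ha : cubic M a = 0) (hb : cubic M b = 0) (hc : cubic M c = 0) :
    a + b + c = 0 ∧ M.g₂ = -4 * (a * b + b * c + c * a) ∧ M.g₃ = 4 * (a * b * c) := by
  simp only [cubic] at ha hb hc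
  have h1 : 4 * (a ^ 2 + a * b + b ^ 2) = M.g₂ :=
    mul_left_cancel₀ (sub_ne_zero.2 hab) (by linear_combination ha - hb)
  have h2 : 4 * (b ^ 2 + b * c + c ^ 2) = M.g₂ :=
    mul_left_cancel₀ (sub_ne_zero.2 hbc) (by linear_combination hb - hc)
  have hs : a + b + c = 0 :=
    mul_left_cancel₀ (sub_ne_zero.2 hca.symm) (by linear_combination (h1 - h2) / 4)
  have hg : M.g₂ = -4 * (a * b + b * c + c * a) := by
    linear_combination -h1 + 4 * (a + b) * hs
  refine ⟨hs, hg, ?_⟩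
  linear_combination -ha + 4 * a ^ 2 * hs - a * hg

/-- The value of `j` from the roots of the cubic of the lattice. -/
theorem jFun_eq_jDiff {τ : ℍ} {w : ℂ} {hw : w ≠ 0} {a b c : ℂ} (hab : a ≠ b) (hbc : b ≠ c)
    (hca : c ≠ a) (ha : cubic (pairOf τ w hw) a = 0) (hb : cubic (pairOf τ w hw) b = 0)
    (hc : cubic (pairOf τ w hw) c = 0) :
    jFun τ = jDiff (a - b) (b - c) (c - a) := by
  obtain ⟨hs, h2, h3⟩ := invariants_of_roots hab hbc hca ha hb hc
  rw [g₂_pairOf] at h2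
  rw [g₃_pairOf] at h3
  have hπ : (π : ℂ) ≠ 0 := ofReal_ne_zero.2 Real.pi_ne_zero
  have e4 : ModularForm.E₄ τ = -3 * (a * b + b * c + c * a) * w ^ 4 / (π : ℂ) ^ 4 := by
    field_simp at h2 ⊢
    linear_combination h2
  have e6 : ModularForm.E₆ τ = 27 / 2 * (a * b * c) * w ^ 6 / (π : ℂ) ^ 6 := by
    field_simp at h3 ⊢
    linear_combination h3 / 4
  have hd : (a - b) * (b - c) * (c - a) ≠ 0 :=
    mul_ne_zero (mul_ne_zero (sub_ne_zero.2 hab) (sub_ne_zero.2 hbc)) (sub_ne_zero.2 hca)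
  have hΔ : ModularForm.discriminant τ =
      ((a - b) * (b - c) * (c - a)) ^ 2 * w ^ 12 / (256 * (π : ℂ) ^ 12) := by
    rw [ModCurve.Points.disc_eq', e4, e6]
    obtain rfl : c = -a - b := by linear_combination hs
    field_simp
    ring
  rw [jFun, hΔ, e4, jDiff]
  obtain rfl : c = -a - b := by linear_combination hs
  field_simp
  ring

/-- Lattices with three prescribed roots. -/
theorem exists_pairOf_roots {a b c : ℂ} (hab : a ≠ b) (hbc : b ≠ c) (hca : c ≠ a)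
    (hs : a + b + c = 0) : ∃ (τ : ℍ) (w : ℂ) (hw : w ≠ 0),
      cubic (pairOf τ w hw) a = 0 ∧ cubic (pairOf τ w hw) b = 0 ∧ cubic (pairOf τ w hw) c = 0 := by
  obtain ⟨τ, hτ⟩ := ModCurve.Points.jFun_surjective (jDiff (a - b) (b - c) (c - a))
  set S := -(a * b + b * c + c * a) with hS
  set g2 := 4 * S with hg2
  set g3 := 4 * (a * b * c) with hg3
  have hd : (a - b) * (b - c) * (c - a) ≠ 0 :=
    mul_ne_zero (mul_ne_zero (sub_ne_zero.2 hab) (sub_ne_zero.2 hbc)) (sub_ne_zero.2 hca)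
  have hdisc : g2 ^ 3 - 27 * g3 ^ 2 = 16 * ((a - b) * (b - c) * (c - a)) ^ 2 := by
    obtain rfl : c = -a - b := by linear_combination hs
    simp only [hg2, hg3, hS]; ring
  have hnd : ∀ τ : ℍ, ModularForm.E₄ τ ^ 3 ≠ ModularForm.E₆ τ ^ 2 := fun τ h0 =>
    ModularForm.discriminant_ne_zero τ (by rw [ModCurve.Points.disc_eq', h0]; simp)
  have hrel : ModularForm.E₄ τ ^ 3 * (27 * g3 ^ 2) = g2 ^ 3 * ModularForm.E₆ τ ^ 2 := by
    have hsq : (a - b) ^ 2 + (b - c) ^ 2 + (c - a) ^ 2 = 6 * S := by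
      obtain rfl : c = -a - b := by linear_combination hs
      simp only [hS]; ring
    rw [jFun, jDiff, hsq, div_eq_div_iff (ModularForm.discriminant_ne_zero τ) (pow_ne_zero 2 hd),
      ModCurve.Points.disc_eq'] at hτ
    have h16 : 27 * g3 ^ 2 = g2 ^ 3 - 16 * ((a - b) * (b - c) * (c - a)) ^ 2 := by
      linear_combination -hdisc
    rw [h16]
    simp only [hg2] at *
    linear_combination -16 * hτ
  have hπ : (π : ℂ) ≠ 0 := ofReal_ne_zero.2 Real.pi_ne_zero
  set a' := 3 * g2 / (4 * (π : ℂ) ^ 4) with ha'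
  set b' := 27 * g3 / (8 * (π : ℂ) ^ 6) with hb'
  have ea : a' ^ 3 = 27 / (64 * (π : ℂ) ^ 12) * g2 ^ 3 := by rw [ha']; ring
  have eb : b' ^ 2 = 27 / (64 * (π : ℂ) ^ 12) * (27 * g3 ^ 2) := by rw [hb']; ring
  have hk : 27 / (64 * (π : ℂ) ^ 12) ≠ 0 :=
    div_ne_zero (by norm_num) (mul_ne_zero (by norm_num) (pow_ne_zero _ hπ))
  obtain ⟨w, hw, hw4, hw6⟩ := ModCurve.Points.exists_scale (ModularForm.E₄ τ) (ModularForm.E₆ τ)
    a' b' (by
      rw [ea, eb]
      linear_combination (27 / (64 * (π : ℂ) ^ 12)) * hrel) (hnd τ) (by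
      intro h
      rw [ea, eb] at h
      refine pow_ne_zero 2 hd ?_
      linear_combination -hdisc / 16 + (mul_left_cancel₀ hk h) / 16)
  refine ⟨τ, w⁻¹, inv_ne_zero hw, ?_⟩
  have e2 : (pairOf τ w⁻¹ (inv_ne_zero hw)).g₂ = g2 := by
    rw [g₂_pairOf, inv_pow, div_inv_eq_mul, mul_assoc, mul_comm (ModularForm.E₄ τ), hw4, ha']
    field_simp
  have e3 : (pairOf τ w⁻¹ (inv_ne_zero hw)).g₃ = g3 := by
    rw [g₃_pairOf, inv_pow, div_inv_eq_mul, mul_assoc, mul_comm (ModularForm.E₆ τ), hw6, hb']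
    field_simp
  obtain rfl : c = -a - b := by linear_combination hs
  refine ⟨?_, ?_, ?_⟩ <;> simp only [cubic, e2, e3, hg2, hg3, hS] <;> ring

lemma mem_pairOf_lattice {τ : ℍ} {w : ℂ} {hw : w ≠ 0} {x : ℂ} :
    x ∈ (pairOf τ w hw).lattice ↔ ∃ m n : ℤ, (m : ℂ) * (w * τ) + n * w = x :=
  PeriodPair.mem_lattice

lemma g₂_congr {M N : PeriodPair} (h : M.lattice = N.lattice) : M.g₂ = N.g₂ ∧ M.g₃ = N.g₃ := by
  simp only [PeriodPair.g₂, PeriodPair.g₃, PeriodPair.G]
  rw [h]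
  exact ⟨rfl, rfl⟩

lemma weierstrassP_congr {M N : PeriodPair} (h : M.lattice = N.lattice) :
    M.weierstrassP = N.weierstrassP := by
  funext z
  simp only [PeriodPair.weierstrassP]
  rw [h]

/-- A point killed by `p` is, for a suitable basis, a multiple of `1/p` of the second period. -/
theorem exists_normalise {τ : ℍ} {w : ℂ} (hw : w ≠ 0) {p : ℕ} (hp : p.Prime) {z : ℂ}
    (hz : z ∉ (pairOf τ w hw).lattice) (hpz : (p : ℂ) * z ∈ (pairOf τ w hw).lattice) :
    ∃ (τ' : ℍ) (w' : ℂ) (hw' : w' ≠ 0) (k : ℤ),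
      (pairOf τ' w' hw').lattice = (pairOf τ w hw).lattice ∧ ¬ (p : ℤ) ∣ k ∧
      z - (k : ℂ) * (w' / p) ∈ (pairOf τ' w' hw').lattice := by
  have : Fact p.Prime := ⟨hp⟩
  obtain ⟨m, n, hmn⟩ := mem_pairOf_lattice.1 hpz
  have hp0 : (p : ℂ) ≠ 0 := Nat.cast_ne_zero.2 hp.ne_zero
  by_cases hm : (p : ℤ) ∣ m
  · obtain ⟨m', rfl⟩ := hm
    refine ⟨τ, w, hw, n, rfl, fun ⟨n', hn⟩ => hz ?_, mem_pairOf_lattice.2 ⟨m', 0, ?_⟩⟩
    · refine mem_pairOf_lattice.2 ⟨m', n', mul_left_cancel₀ hp0 ?_⟩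
      rw [← hmn, hn]; push_cast; ring
    · refine mul_left_cancel₀ hp0 ?_
      rw [mul_sub, ← hmn]; push_cast; field_simp; ring
  · have hm0 : ((m : ℤ) : ZMod p) ≠ 0 := fun h => hm ((ZMod.intCast_zmod_eq_zero_iff_dvd _ _).1 h)
    set d : ℤ := (((n : ZMod p) * (m : ZMod p)⁻¹).val : ℤ) with hd
    obtain ⟨r, hr⟩ : (p : ℤ) ∣ n - m * d := by
      rw [← ZMod.intCast_zmod_eq_zero_iff_dvd]
      simp [hd]
      field_simp
      ring
    have him : 0 < (-1 / ((τ : ℂ) + d)).im := by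
      rw [neg_div, Complex.neg_im, one_div, Complex.inv_im, neg_div, neg_neg]
      refine div_pos (by simpa using τ.im_pos) (Complex.normSq_pos.2 fun h => ?_)
      have := congrArg Complex.im h
      simp [τ.im_ne_zero] at this
    set τ' : ℍ := ⟨-1 / ((τ : ℂ) + d), him⟩ with hτ'
    have hne : (τ : ℂ) + d ≠ 0 := fun h => by
      have := congrArg Complex.im h
      simp [τ.im_ne_zero] at this
    have hw' : w * ((τ : ℂ) + d) ≠ 0 := mul_ne_zero hw hne
    have hmul : w * ((τ : ℂ) + d) * (τ' : ℂ) = -w := by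
      show w * ((τ : ℂ) + d) * (-1 / ((τ : ℂ) + d)) = -w
      field_simp
    refine ⟨τ', w * ((τ : ℂ) + d), hw', m, ?_, hm, mem_pairOf_lattice.2 ⟨-r, 0, ?_⟩⟩
    · ext x
      rw [mem_pairOf_lattice, mem_pairOf_lattice]
      simp only [hmul]
      constructor
      · rintro ⟨a, b, rfl⟩
        exact ⟨b, b * d - a, by push_cast; ring⟩
      · rintro ⟨a, b, rfl⟩
        exact ⟨a * d - b, a, by push_cast; ring⟩
    · refine mul_left_cancel₀ hp0 ?_
      rw [mul_sub, ← hmn, hmul]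
      have hr' : (n : ℂ) - m * d = p * r := by exact_mod_cast congrArg (fun t : ℤ => (t : ℂ)) hr
      field_simp
      push_cast
      linear_combination -hr'

end FermatAgent.Mazur.Step3
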