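import Fermat.Agent.Mazur.Step3.NodeGeneral

/-!
The invariant of the quotient of a curve by a line, and its size at a place of multiplicative
reduction.
-/

set_option autoImplicit false

noncomputable section

namespace FermatAgent.Mazur.Step3

open WeierstrassCurve WeierstrassCurve.Affine FermatAgent.LocalP FermatAgent.Local Polynomial
open FermatAgent.Mazur

variable {K : Type*} [Field K] [DecidableEq K] {W : WeierstrassCurve.Affine K}
variable {p : ℕ} [hp : Fact p.Prime]

/-- The invariant of the quotient curve, from the differences of its roots. -/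
def jQ (L : Line W p) (S : Split W) : K := jDiff (L.D S) (L.D S.rot) (L.D S.rot.rot)

omit [DecidableEq K] in
lemma jDiff_rot (u v w : K) : jDiff v w u = jDiff u v w := by
  rw [jDiff, jDiff, show v * w * u = u * v * w by ring,
    show v ^ 2 + w ^ 2 + u ^ 2 = u ^ 2 + v ^ 2 + w ^ 2 by ring]

omit [DecidableEq K] in
lemma jDiff_swap (u v w : K) : jDiff (-u) (-w) (-v) = jDiff u v w := by
  rw [jDiff, jDiff,
    show (-u) ^ 2 + (-w) ^ 2 + (-v) ^ 2 = u ^ 2 + v ^ 2 + w ^ 2 by ring,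
    show -u * -w * -v = -(u * v * w) by ring, neg_sq (u * v * w)]

lemma jQ_rot (L : Line W p) (S : Split W) : jQ L S.rot = jQ L S := by
  rw [jQ, jQ, Split.rot_rot_rot, jDiff_rot]

/-- Exchange of the first two roots. -/
def swap₁₂ (S : Split W) : Split W where
  e₁ := S.e₂
  e₂ := S.e₁
  e₃ := S.e₃
  hb₂ := by rw [S.hb₂]; ring
  hb₄ := by rw [S.hb₄]; ring
  hb₆ := by rw [S.hb₆]; ring
  h₁₂ := S.h₁₂.symm
  h₂₃ := S.h₃₁.symm
  h₃₁ := S.h₂₃.symm

lemma jQ_swap (L : Line W p) (S : Split W) : jQ L (swap₁₂ S) = jQ L S := by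
  have h1 : L.D (swap₁₂ S) = -L.D S := by
    simp only [Line.D, Line.hv, swap₁₂, Split.rot]
    rw [show S.e₂ - S.e₁ = -(S.e₁ - S.e₂) by ring, L.odd.neg_pow]; ring
  have h2 : L.D (swap₁₂ S).rot = -L.D S.rot.rot := by
    simp only [Line.D, Line.hv, swap₁₂, Split.rot]
    rw [show S.e₁ - S.e₃ = -(S.e₃ - S.e₁) by ring, L.odd.neg_pow]; ring
  have h3 : L.D (swap₁₂ S).rot.rot = -L.D S.rot := by
    simp only [Line.D, Line.hv, swap₁₂, Split.rot]
    rw [show S.e₃ - S.e₂ = -(S.e₂ - S.e₃) by ring, L.odd.neg_pow]; ring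
  rw [jQ, jQ, h1, h2, h3, jDiff_swap]

variable [CharZero K]

omit [DecidableEq K] in
lemma root_cases (S T : Split W) : T.e₁ = S.e₁ ∨ T.e₁ = S.e₂ ∨ T.e₁ = S.e₃ := by
  have h := S.psi2_eq T.e₁
  rw [T.psi2_eq T.e₁] at h
  simp only [Split.psi2, sub_self, zero_mul, mul_zero] at h
  have := h.symm
  simpa only [mul_eq_zero, OfNat.ofNat_ne_zero, false_or, sub_eq_zero, or_assoc] using this

omit [DecidableEq K] [CharZero K] in
lemma split_ext {S T : Split W} (h1 : T.e₁ = S.e₁) (h2 : T.e₂ = S.e₂) (h3 : T.e₃ = S.e₃) :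
    T = S := by
  cases S; cases T; subst h1 h2 h3; rfl

/-- The invariant does not depend on the order of the roots. -/
theorem jQ_eq (L : Line W p) (S T : Split W) : jQ L T = jQ L S := by
  suffices h : ∀ T : Split W, T.e₁ = S.e₁ → jQ L T = jQ L S by
    rcases root_cases S T with h1 | h1 | h1
    · exact h T h1
    · rcases root_cases S T.rot with h2 | h2 | h2
      · rw [← jQ_rot L T]; exact h _ h2
      · exact absurd (h1.trans h2.symm) T.h₁₂
      · rw [← jQ_rot L T, ← jQ_rot L T.rot]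
        refine h _ ?_
        rcases root_cases S T.rot.rot with h3 | h3 | h3
        · exact h3
        · exact absurd (h3.trans h1.symm) T.h₃₁
        · exact absurd (h2.trans h3.symm) T.h₂₃
    · rcases root_cases S T.rot with h2 | h2 | h2
      · rw [← jQ_rot L T]; exact h _ h2
      · rw [← jQ_rot L T, ← jQ_rot L T.rot]
        refine h _ ?_
        rcases root_cases S T.rot.rot with h3 | h3 | h3
        · exact h3
        · exact absurd (h2.trans h3.symm) T.h₂₃
        · exact absurd (h3.trans h1.symm) T.h₃₁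
      · exact absurd (h1.trans h2.symm) T.h₁₂
  intro T h1
  rcases root_cases S T.rot with h2 | h2 | h2
  · exact absurd (h1.trans h2.symm) T.h₁₂
  · rcases root_cases S T.rot.rot with h3 | h3 | h3
    · exact absurd (h3.trans h1.symm) T.h₃₁
    · exact absurd (h2.trans h3.symm) T.h₂₃
    · rw [split_ext h1 h2 h3]
  · rcases root_cases S T.rot.rot with h3 | h3 | h3
    · exact absurd (h3.trans h1.symm) T.h₃₁
    · rw [← jQ_swap L S, ← jQ_rot L (swap₁₂ S)]
      rw [split_ext (S := (swap₁₂ S).rot) (T := T) h1 h2 h3]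
    · exact absurd (h2.trans h3.symm) T.h₂₃

variable [IsAlgClosed K] {A : ValuationSubring K} {S : Split W} (hS : Node A S) (L : Line W p)

omit [IsAlgClosed K] [CharZero K] in
lemma line_pt_kill (n : ZMod p) : p • L.pt n = 0 := by
  show p • L.ptHom n = 0
  rw [← map_nsmul, nsmul_eq_mul, ZMod.natCast_self, zero_mul, _root_.map_zero]

omit [IsAlgClosed K] [CharZero K] in
lemma xs_mem (hW : IntCoeffs A W) (hpA : A.valuation (p : K) = 1) (n : ZMod p) : L.xs n ∈ A := by
  have h := line_pt_kill L n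
  rw [Line.xs]
  rcases hP : L.pt n with _ | ⟨x, y, hxy⟩
  · exact zero_mem A
  · rw [hP] at h
    exact x_mem_of_nsmul_eq_zero hW hpA hxy h

include hS

omit [IsAlgClosed K] [DecidableEq K] hS in
lemma val_jDiff_le {u v w : K} (hsum : u + v + w = 0) (hu : A.valuation (4 * u) ≤ 1)
    (hv : A.valuation (4 * v) = 1) :
    A.valuation (jDiff u v w) ≤ (A.valuation (u * w) ^ 2)⁻¹ ∧
      (A.valuation (4 * u) < 1 → A.valuation (jDiff u v w) = (A.valuation (u * w) ^ 2)⁻¹) := by
  have hd : A.valuation (16 * (u * v * w) ^ 2) = A.valuation (u * w) ^ 2 := by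
    rw [show 16 * (u * v * w) ^ 2 = (u * w) ^ 2 * (4 * v) ^ 2 by ring, map_mul, map_pow, map_pow,
      hv, one_pow, mul_one]
  have hc : 8 * (u ^ 2 + v ^ 2 + w ^ 2) = (4 * v) ^ 2 + (4 * u) * (4 * u + 4 * v) := by
    rw [show w = -u - v by linear_combination hsum]; ring
  have hj : jDiff u v w = (8 * (u ^ 2 + v ^ 2 + w ^ 2)) ^ 3 / (16 * (u * v * w) ^ 2) := by
    rw [jDiff]
    field_simp
    ring
  have hle : A.valuation ((4 * u) * (4 * u + 4 * v)) ≤ A.valuation (4 * u) := by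
    rw [map_mul]; exact mul_le_of_le_one_right' (A.valuation.map_add_le hu hv.le)
  rw [hj, map_div₀, map_pow, hd]
  constructor
  · rw [div_eq_mul_inv]
    refine mul_le_of_le_one_left' (pow_le_one' ?_ 3)
    rw [hc]
    exact A.valuation.map_add_le (by rw [map_pow, hv, one_pow]) (hle.trans hu)
  · intro hlt
    rw [hc, val_add_eq_left, map_pow, hv, one_pow, one_pow, one_div]
    rw [map_pow, hv, one_pow]
    exact hle.trans_lt hlt

omit [IsAlgClosed K] [CharZero K] hS in
lemma val_hv₃ (hx : ∀ n : ZMod p, n ≠ 0 → A.valuation (L.xs n - S.e₃) = A.valuation (S.e₁ - S.e₃)) :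
    A.valuation (L.hv S.rot.rot) = A.valuation (S.e₁ - S.e₃) ^ L.H.card := by
  rw [Line.hv, L.h_eval, map_prod, ← Finset.prod_const]
  exact Finset.prod_congr rfl fun k hk => by
    rw [Valuation.map_sub_swap]
    exact hx k (L.ne_zero_of_mem_H hk)

omit [IsAlgClosed K] [CharZero K] in
/-- The two large differences. -/
lemma val_D_far {M : A.ValueGroup} (hM0 : M ≠ 0) (h1 : A.valuation (L.hv S) = M)
    (h2 : A.valuation (L.hv S.rot) = M)
    (h3 : A.valuation (L.hv S.rot.rot) = A.valuation (S.e₁ - S.e₃) ^ L.H.card) :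
    A.valuation (4 * L.D S.rot) = 1 ∧ A.valuation (4 * L.D S.rot.rot) = 1 := by
  have hp2 := L.two_mul_card
  set r := A.valuation (S.e₁ - S.e₃) with hr
  have h4 : A.valuation (4 : K) * r = 1 := by rw [hr, ← map_mul]; exact hS.far
  have h23 : A.valuation (S.e₂ - S.e₃) = r := by
    rw [show S.e₂ - S.e₃ = (S.e₁ - S.e₃) + -(S.e₁ - S.e₂) by ring, val_add_eq_left]
    rw [Valuation.map_neg]
    exact hS.near_lt.trans_le hS.one_le_far
  have hrp : r ^ p = (r ^ L.H.card) ^ 2 * r := by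
    conv_lhs => rw [← hp2]
    rw [pow_succ, pow_mul']
  have hr0 : r ≠ 0 := fun h => by rw [h, mul_zero] at h4; exact zero_ne_one h4
  constructor
  · rw [map_mul, Line.D, map_div₀, map_mul, map_mul, Valuation.map_neg, map_pow,
      show S.rot.e₁ - S.rot.e₂ = S.e₂ - S.e₃ from rfl, h23, Split.rot_rot_rot, map_pow, map_pow,
      map_pow, h1, h2, h3, hrp, ← mul_div_assoc, div_eq_one_iff_eq
        (mul_ne_zero (pow_ne_zero 2 hM0) (pow_ne_zero 2 (pow_ne_zero _ hr0)))]
    rw [show A.valuation (4 : K) * ((r ^ L.H.card) ^ 2 * r * M ^ 2) =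
      (A.valuation (4 : K) * r) * (M ^ 2 * (r ^ L.H.card) ^ 2) by ac_rfl, h4, one_mul]
  · have h31 : A.valuation (S.rot.rot.e₁ - S.rot.rot.e₂) = r := Valuation.map_sub_swap _ _ _
    rw [map_mul, Line.D, map_div₀, map_mul, map_mul, Valuation.map_neg, map_pow, h31,
      show S.rot.rot.rot.rot = S.rot by rw [Split.rot_rot_rot], Split.rot_rot_rot, map_pow, map_pow,
      map_pow, h1, h2, h3, hrp, ← mul_div_assoc, div_eq_one_iff_eq
        (mul_ne_zero (pow_ne_zero 2 (pow_ne_zero _ hr0)) (pow_ne_zero 2 hM0))]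
    rw [show A.valuation (4 : K) * ((r ^ L.H.card) ^ 2 * r * M ^ 2) =
      (A.valuation (4 : K) * r) * ((r ^ L.H.card) ^ 2 * M ^ 2) by ac_rfl, h4, one_mul]

omit [CharZero K] in
lemma val_jQ {M : A.ValueGroup} [CharZero K] (hM0 : M ≠ 0) (h1 : A.valuation (L.hv S) = M)
    (h2 : A.valuation (L.hv S.rot) = M)
    (h3 : A.valuation (L.hv S.rot.rot) = A.valuation (S.e₁ - S.e₃) ^ L.H.card) :
    A.valuation (jQ L S) ≤ ((A.valuation S.c ^ p / M ^ 4) ^ 2)⁻¹ ∧
      (A.valuation S.c ^ p / M ^ 4 < 1 →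
        A.valuation (jQ L S) = ((A.valuation S.c ^ p / M ^ 4) ^ 2)⁻¹) := by
  obtain ⟨hv, hw⟩ := val_D_far hS L hM0 h1 h2 h3
  have hc' : A.valuation (L.D S * L.D S.rot.rot) = A.valuation S.c ^ p / M ^ 4 := by
    rw [← Valuation.map_neg, ← show L.c' S = -(L.D S * L.D S.rot.rot) from rfl, L.c'_eq,
      map_div₀, map_pow, map_pow, h1]
  have hu : A.valuation (4 * L.D S) ≤ 1 := by
    rw [show 4 * L.D S = -(4 * L.D S.rot) + -(4 * L.D S.rot.rot) by
      linear_combination (4 : K) * L.D_cyclic S]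
    exact A.valuation.map_add_le (by rw [Valuation.map_neg, hv]) (by rw [Valuation.map_neg, hw])
  obtain ⟨hle, heq⟩ := val_jDiff_le (L.D_cyclic S) hu hv
  rw [hc'] at hle heq
  refine ⟨hle, fun hlt => heq ?_⟩
  have : A.valuation (4 * L.D S) = A.valuation (4 : K) * A.valuation (4 : K) *
      (A.valuation S.c ^ p / M ^ 4) := by
    rw [← hc', ← map_mul, ← map_mul, show (4 : K) * 4 * (L.D S * L.D S.rot.rot) =
      (4 * L.D S) * (4 * L.D S.rot.rot) by ring, map_mul (A.valuation) (4 * L.D S), hw, mul_one]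
  rw [this]
  exact val_mul_lt_one_of_le_of_lt (mul_le_one' (val_ofNat_le_one 4) (val_ofNat_le_one 4)) hlt

/-- A line in the component of the origin: the invariant is raised to the power `p`. -/
theorem val_jQ_of_in (hW : IntCoeffs A W) (hpA : A.valuation (p : K) = 1)
    (hin : ∀ n : ZMod p, InE0 A W (L.pt n)) :
    A.valuation (jQ L S) = A.valuation (W.c₄ ^ 3 / W.Δ) ^ p := by
  have hne : ∀ {n : ZMod p}, n ≠ 0 → L.pt n ≠ 0 := fun hn h => hn (L.pt_eq_zero.1 h)
  have hx1 : ∀ n : ZMod p, n ≠ 0 → A.valuation (L.xs n - S.e₁) = 1 := fun n hn =>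
    ((hS.inE0_iff hW (hne hn)).1 (hin n)).resolve_left (not_not.2 (xs_mem L hW hpA n))
  have hx2 : ∀ n : ZMod p, n ≠ 0 → A.valuation (L.xs n - S.e₂) = 1 := fun n hn => by
    rw [show L.xs n - S.e₂ = (L.xs n - S.e₁) + (S.e₁ - S.e₂) by ring, val_add_eq_left] <;>
      rw [hx1 n hn]
    exact hS.near_lt
  have hx3 : ∀ n : ZMod p, n ≠ 0 → A.valuation (L.xs n - S.e₃) = A.valuation (S.e₁ - S.e₃) := by
    intro n hn
    rcases hS.one_le_far.lt_or_eq with h | h
    · rw [show L.xs n - S.e₃ = (S.e₁ - S.e₃) + (L.xs n - S.e₁) by ring, val_add_eq_left]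
      rwa [hx1 n hn]
    · rw [← h]
      have he3 : S.e₃ ∈ A := by
        rw [show S.e₃ = S.e₁ - (S.e₁ - S.e₃) by ring]
        exact sub_mem hS.e_mem (mem_of_val_le_one h.ge)
      refine val_sub_root_eq_one (S := S.rot.rot) hW he3 ?_ (L.two_nsmul_pt_ne_zero hn)
        (xs_mem L hW hpA n) ?_
      · rw [Split.c, map_mul]
        show A.valuation (S.e₃ - S.e₁) * A.valuation (S.e₃ - S.e₂) = 1
        rw [Valuation.map_sub_swap, ← h, one_mul, show S.e₃ - S.e₂ =
          -(S.e₁ - S.e₃) + (S.e₁ - S.e₂) by ring, val_add_eq_left] <;>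
          rw [Valuation.map_neg, ← h]
        exact hS.near_lt
      · rw [two_nsmul, ← L.pt_add]; exact xs_mem L hW hpA (n + n)
  have h1 : A.valuation (L.hv S) = 1 := by
    rw [Line.hv, L.h_eval, map_prod]
    exact Finset.prod_eq_one fun k hk => by
      rw [Valuation.map_sub_swap]; exact hx1 k (L.ne_zero_of_mem_H hk)
  have h2 : A.valuation (L.hv S.rot) = 1 := by
    rw [Line.hv, L.h_eval, map_prod]
    exact Finset.prod_eq_one fun k hk => by
      rw [Valuation.map_sub_swap]; exact hx2 k (L.ne_zero_of_mem_H hk)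
  have := (val_jQ hS L one_ne_zero h1 h2 (val_hv₃ L hx3)).2
    (by rw [one_pow, div_one]; exact pow_lt_one₀ zero_le hS.c_lt hp.out.ne_zero)
  rw [this, val_j hS, one_pow, div_one, inv_pow, ← pow_mul, ← pow_mul, mul_comm]

/-- A line off the component of the origin: the invariant is smaller. -/
theorem val_jQ_of_out (hW : IntCoeffs A W) (hout : ∀ n : ZMod p, n ≠ 0 → ¬ InE0 A W (L.pt n)) :
    A.valuation (jQ L S) < A.valuation (W.c₄ ^ 3 / W.Δ) ^ p := by
  have hu : ∀ n : ZMod p, n ≠ 0 → A.valuation (L.xs n - S.e₁) < 1 ∧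
      A.valuation S.c < A.valuation (L.xs n - S.e₁) := fun n hn =>
    ⟨(hS.of_not_inE0 hW (hout n hn)).2.2,
      hS.lt_of_not_inE0 hW L.odd (line_pt_kill L n) (hout n hn)⟩
  set M := A.valuation (L.hv S) with hMdef
  have hM0 : M ≠ 0 := (_root_.map_ne_zero _).2 (L.hv_ne_zero S)
  have hH : L.H.Nonempty := by
    refine Finset.card_pos.1 ?_
    have := L.two_mul_card
    have := hp.out.two_le
    omega
  have hM : M < 1 := by
    obtain ⟨k, hk⟩ := hH
    rw [hMdef, Line.hv, L.h_eval, map_prod, ← Finset.mul_prod_erase _ _ hk]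
    refine val_mul_lt_one_of_lt_of_le ?_ (Finset.prod_le_one' fun i hi => ?_)
    · rw [Valuation.map_sub_swap]; exact (hu k (L.ne_zero_of_mem_H hk)).1
    · rw [Valuation.map_sub_swap]
      exact (hu i (L.ne_zero_of_mem_H (Finset.mem_of_mem_erase hi))).1.le
  have h2 : A.valuation (L.hv S.rot) = M := by
    rw [hMdef, Line.hv, Line.hv, L.h_eval, L.h_eval, map_prod, map_prod]
    exact Finset.prod_congr rfl fun k hk => by
      rw [Valuation.map_sub_swap, Valuation.map_sub_swap _ S.e₁]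
      exact hS.val_sub_e₂ (hu k (L.ne_zero_of_mem_H hk)).2
  refine (val_jQ hS L hM0 rfl h2 (val_hv₃ L fun n hn => hS.val_sub_e₃ (hu n hn).1)).1.trans_lt ?_
  have hc0 : (0 : A.ValueGroup) < A.valuation S.c := zero_lt_iff.2 ((_root_.map_ne_zero _).2 S.c_ne_zero)
  rw [val_j hS, inv_pow, ← pow_mul, mul_comm, pow_mul]
  refine (inv_lt_inv₀ ?_ (pow_pos (pow_pos hc0 p) 2)).2 ?_
  · exact pow_pos (div_pos (pow_pos hc0 p) (pow_pos (zero_lt_iff.2 hM0) 4)) 2
  refine pow_lt_pow_left₀ ?_ zero_le two_ne_zero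
  exact lt_div_iff₀ (pow_pos (zero_lt_iff.2 hM0) 4) |>.2
    (mul_lt_of_lt_one_right (pow_pos hc0 p) (pow_lt_one₀ zero_le hM (by norm_num)))

end FermatAgent.Mazur.Step3
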