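import Fermat.Agent.Mazur.Step3.LatticeInvariants
import Fermat.Agent.Mazur.Step3.QuotientInvariant

/-!
A curve with a line of odd prime order, over an algebraically closed subfield of `ℂ`, is
uniformised by a lattice in which the line is generated by `1/p`: the invariants of the curve and
of its quotient are `j(τ)` and `j(pτ)`.
-/

set_option autoImplicit false

noncomputable section

namespace FermatAgent.Mazur.Step3

open UpperHalfPlane hiding I
open Complex Filter Topology PeriodPair WeierstrassCurve WeierstrassCurve.Affine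
open FermatAgent.LocalP FermatAgent.Mazur
open FermatAgent.ModFun (jFun)
open FermatAgent.ModCurve.Forms (pairOf scalePt)

/-! ### Identities -/

lemma dup_identity {a b c X g₂ : ℂ} (hs : a + b + c = 0)
    (hg : g₂ = -4 * (a * b + b * c + c * a)) :
    (6 * X ^ 2 - g₂ / 2) ^ 2 / 4 - (2 * X + a) * (4 * ((X - a) * (X - b) * (X - c))) =
      ((X - a) ^ 2 - (a - b) * (a - c)) ^ 2 := by
  obtain rfl : c = -a - b := by linear_combination hs
  subst hg
  ring

lemma add_identity {a b c X Y g₂ g₃ : ℂ} (hs : a + b + c = 0)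
    (hg : g₂ = -4 * (a * b + b * c + c * a)) (hg₃ : g₃ = 4 * (a * b * c)) :
    2 * (X - a) * (Y - a) * ((X - a) + (Y - a)) + 4 * (2 * a - b - c) * ((X - a) * (Y - a)) +
        2 * ((a - b) * (a - c)) * ((X - a) + (Y - a)) + 2 * a * (X - Y) ^ 2 =
      addRHS g₂ g₃ X Y := by
  obtain rfl : c = -a - b := by linear_combination hs
  subst hg hg₃
  simp only [addRHS]
  ring

lemma root_identity {a b c X g₂ g₃ : ℂ} (hs : a + b + c = 0)
    (hg : g₂ = -4 * (a * b + b * c + c * a)) (hg₃ : g₃ = 4 * (a * b * c)) :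
    addRHS g₂ g₃ X a = 2 * (X - a) * (a * (X - a) + (a - b) * (a - c)) := by
  obtain rfl : c = -a - b := by linear_combination hs
  subst hg hg₃
  simp only [addRHS]
  ring

lemma jDiff_neg (u v w : ℂ) : jDiff (-u) (-v) (-w) = jDiff u v w := by
  rw [jDiff, jDiff, neg_sq, neg_sq, neg_sq, show -u * -v * -w = -(u * v * w) by ring,
    neg_sq (u * v * w)]

variable {K : Type*} [Field K] {W : WeierstrassCurve.Affine K} (ι : K →+* ℂ)

lemma map_jDiff (u v w : K) : ι (jDiff u v w) = jDiff (ι u) (ι v) (ι w) := by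
  simp [jDiff, map_ofNat]

/-- The shift from abscissae to values of `℘`. -/
def shift (W : WeierstrassCurve.Affine K) : ℂ := ι W.b₂ / 12

/-- The shifted first root. -/
def rootC (S : Split W) : ℂ := ι S.e₁ + shift ι W

lemma rootC_sum (S : Split W) :
    rootC ι S + rootC ι S.rot + rootC ι S.rot.rot = 0 := by
  simp only [rootC, Split.rot, shift]
  rw [S.hb₂]
  simp [map_ofNat]
  ring

lemma rootC_injective (S : Split W) : rootC ι S ≠ rootC ι S.rot := fun h =>
  S.h₁₂ (ι.injective (add_right_cancel h))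

/-- The lattice has the shifted roots as the roots of its cubic. -/
structure Unif (S : Split W) (M : PeriodPair) : Prop where
  h₁ : cubic M (rootC ι S) = 0
  h₂ : cubic M (rootC ι S.rot) = 0
  h₃ : cubic M (rootC ι S.rot.rot) = 0

namespace Unif

variable {ι} {S : Split W} {M : PeriodPair}

lemma rot (U : Unif ι S M) : Unif ι S.rot M :=
  ⟨U.h₂, U.h₃, by simpa using U.h₁⟩

lemma invariants (U : Unif ι S M) :
    M.g₂ = -4 * (rootC ι S * rootC ι S.rot + rootC ι S.rot * rootC ι S.rot.rot +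
      rootC ι S.rot.rot * rootC ι S) ∧
    M.g₃ = 4 * (rootC ι S * rootC ι S.rot * rootC ι S.rot.rot) :=
  (invariants_of_roots (rootC_injective ι S) (rootC_injective ι S.rot)
    (by simpa using rootC_injective ι S.rot.rot) U.h₁ U.h₂ U.h₃).2

lemma cubic_eq (U : Unif ι S M) (x : ℂ) :
    cubic M x = 4 * ((x - rootC ι S) * (x - rootC ι S.rot) * (x - rootC ι S.rot.rot)) := by
  obtain ⟨h2, h3⟩ := U.invariants
  rw [cubic, h2, h3]
  linear_combination (4 * x ^ 2) * rootC_sum ι S

/-- A point with `℘` the root, which is a half period. -/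
lemma exists_half (U : Unif ι S M) :
    ∃ T, T ∉ M.lattice ∧ 2 * T ∈ M.lattice ∧ ℘[M] T = rootC ι S := by
  obtain ⟨T, hT, hval⟩ := exists_weierstrassP_eq M (rootC ι S)
  refine ⟨T, hT, ?_, hval⟩
  by_contra h2
  set u₁ := M.ω₁ / 2 with hu₁
  set u₂ := M.ω₂ / 2 with hu₂
  set u₃ := M.ω₁ / 2 + M.ω₂ / 2 with hu₃
  have hq : ∀ α β : ℚ, (α.den ≠ 1 ∨ β.den ≠ 1) → (α : ℂ) * M.ω₁ + β * M.ω₂ ∉ M.lattice :=
    fun α β h hm => by
      have := M.mul_ω₁_add_mul_ω₂_mem_lattice.1 hm
      tauto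
  have h1m : u₁ ∉ M.lattice := M.ω₁_div_two_notMem_lattice
  have h2m : u₂ ∉ M.lattice := M.ω₂_div_two_notMem_lattice
  have h3m : u₃ ∉ M.lattice := by
    convert hq (1 / 2) (1 / 2) (Or.inl (by norm_num)) using 1
    simp [hu₃]; ring_nf
  have hroot : ∀ u, u ∉ M.lattice → 2 * u ∈ M.lattice → cubic M (℘[M] u) = 0 := fun u hu hu2 => by
    rw [cubic, ← M.derivWeierstrassP_sq u hu, derivWeierstrassP_eq_zero_of_two_mul_mem M hu2,
      zero_pow two_ne_zero]
  have hd1 : 2 * u₁ ∈ M.lattice := by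
    rw [hu₁, mul_div_cancel₀ _ two_ne_zero]; exact M.ω₁_mem_lattice
  have hd2 : 2 * u₂ ∈ M.lattice := by
    rw [hu₂, mul_div_cancel₀ _ two_ne_zero]; exact M.ω₂_mem_lattice
  have hd3 : 2 * u₃ ∈ M.lattice := by
    rw [hu₃, mul_add, mul_div_cancel₀ _ two_ne_zero, mul_div_cancel₀ _ two_ne_zero]
    exact add_mem M.ω₁_mem_lattice M.ω₂_mem_lattice
  have hne : ∀ {u v}, u ∉ M.lattice → v ∉ M.lattice → 2 * v ∈ M.lattice → u - v ∉ M.lattice →
      ℘[M] u ≠ ℘[M] v := fun {u v} hu hv hv2 huv h => by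
    rcases (Igusa.weierstrassP_eq_iff M hu hv).1 h with h' | h'
    · exact huv h'
    · exact huv (by convert sub_mem h' hv2 using 1; ring)
  have hT' : ∀ u, u ∉ M.lattice → 2 * u ∈ M.lattice → ℘[M] T ≠ ℘[M] u := fun u hu hu2 =>
    hne hT hu hu2 fun h => h2 (by
      convert add_mem (add_mem h h) hu2 using 1; ring)
  have h12 : ℘[M] u₁ ≠ ℘[M] u₂ := hne h1m h2m hd2 (by
    convert hq (1 / 2) (-1 / 2) (Or.inl (by norm_num)) using 1
    simp [hu₁, hu₂]; ring_nf)
  have h23 : ℘[M] u₂ ≠ ℘[M] u₃ := hne h2m h3m hd3 (by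
    rw [show u₂ - u₃ = ((-1 / 2 : ℚ) : ℂ) * M.ω₁ + ((0 : ℚ) : ℂ) * M.ω₂ by
      simp [hu₂, hu₃]; ring]
    exact hq _ _ (Or.inl (by norm_num)))
  have h31 : ℘[M] u₃ ≠ ℘[M] u₁ := hne h3m h1m hd1 (by
    convert hq 0 (1 / 2) (Or.inr (by norm_num)) using 1
    simp [hu₁, hu₃]; ring_nf)
  obtain ⟨hs, hg2, hg3⟩ := invariants_of_roots h12 h23 h31 (hroot _ h1m hd1) (hroot _ h2m hd2)
    (hroot _ h3m hd3)
  have hz : 4 * ((℘[M] T - ℘[M] u₁) * (℘[M] T - ℘[M] u₂) * (℘[M] T - ℘[M] u₃)) = 0 := by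
    have h0 := U.h₁
    rw [← hval, cubic, hg2, hg3] at h0
    linear_combination h0 - (4 * ℘[M] T ^ 2) * hs
  simp [sub_eq_zero, hT' _ h1m hd1, hT' _ h2m hd2, hT' _ h3m hd3] at hz

variable [DecidableEq K] [CharZero K] {p : ℕ} [hp : Fact p.Prime] (L : Line W p)

/-- The multiples of a preimage of the generator. -/
theorem multiples (U : Unif ι S M) {z : ℂ} (hz : z ∉ M.lattice)
    (hval : ℘[M] z = ι (xCoord L.gen) + shift ι W) :
    ∀ n : ℕ, 0 < n → n < p → (n : ℂ) * z ∉ M.lattice ∧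
      ℘[M] ((n : ℂ) * z) = ι (xCoord (n • L.gen)) + shift ι W := by
  have hp3 : 3 ≤ p := by
    obtain ⟨k, hk⟩ := L.odd
    have := hp.out.two_le
    omega
  obtain ⟨hg2, hg3⟩ := U.invariants
  have hs := rootC_sum ι S
  have hne : ∀ k : ℕ, 0 < k → k < p → k • L.gen ≠ 0 := fun k hk hkp h => by
    have := L.pt_eq_zero.1 ((L.pt_natCast k).trans h)
    rw [ZMod.natCast_eq_zero_iff] at this
    exact absurd (Nat.le_of_dvd hk this) (not_le.2 hkp)
  intro n
  induction n using Nat.strong_induction_on with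
  | _ n ih =>
    intro hn hnp
    match n, hn with
    | 1, _ => simpa using ⟨hz, hval⟩
    | 2, _ =>
      have h2 := hne 2 two_pos hp3
      have hψ := S.psi2_ne_zero h2
      have hmap := congrArg ι (S.two_nsmul_sub h2)
      have hsq : ℘'[M] z ^ 2 = ι (S.psi2 (xCoord L.gen)) := by
        rw [M.derivWeierstrassP_sq z hz, show 4 * ℘[M] z ^ 3 - M.g₂ * ℘[M] z - M.g₃ =
          cubic M (℘[M] z) from rfl, U.cubic_eq, hval]
        simp [rootC, Split.psi2, Split.rot, map_ofNat]
      have hd : ℘'[M] z ≠ 0 := fun h => by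
        rw [h, zero_pow two_ne_zero] at hsq
        exact hψ ((map_eq_zero ι).1 hsq.symm)
      obtain ⟨hm, hdup⟩ := wp_two_mul M hz hd
      refine ⟨by simpa using hm, ?_⟩
      have hid := dup_identity (a := rootC ι S) (b := rootC ι S.rot) (c := rootC ι S.rot.rot)
        (X := ℘[M] z) (g₂ := M.g₂) hs hg2
      rw [← U.cubic_eq, cubic, ← M.derivWeierstrassP_sq z hz, hsq] at hid
      rw [Nat.cast_two, hdup, hsq]
      have hψ' : ι (S.psi2 (xCoord L.gen)) ≠ 0 := (map_ne_zero ι).2 hψ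
      simp only [map_mul, map_sub, map_pow, Split.c] at hmap
      field_simp
      simp only [rootC, Split.rot, hval] at hid ⊢
      linear_combination 16 * hid - 16 * hmap
    | k + 3, _ =>
      obtain ⟨hm1, hv1⟩ := ih (k + 1) (by omega) (by omega) (by omega)
      obtain ⟨hm2, hv2⟩ := ih (k + 2) (by omega) (by omega) (by omega)
      set P := (k + 2) • L.gen with hP
      have hP0 : P ≠ 0 := hne _ (by omega) (by omega)
      have hx : xCoord P ≠ xCoord L.gen := by
        refine xCoord_ne_of_ne_neg hP0 L.gen_ne (fun h => ?_) (fun h => ?_)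
        · refine hne (k + 1) (by omega) (by omega) ?_
          rw [hP, show k + 2 = (k + 1) + 1 from rfl, succ_nsmul] at h
          simpa using h
        · refine hne (k + 3) (by omega) hnp ?_
          rw [succ_nsmul, ← hP, h, neg_add_cancel]
      have hX : ℘[M] (((k + 2 : ℕ) : ℂ) * z) ≠ ℘[M] z := by
        rw [hv2, hval]
        exact fun h => hx (ι.injective (add_right_cancel h))
      have h3 : ((k + 2 : ℕ) : ℂ) * z + z ∉ M.lattice := fun h =>
        hX ((Igusa.weierstrassP_eq_iff M hm2 hz).2 (Or.inr h))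
      have e3 : ((k + 2 : ℕ) : ℂ) * z + z = ((k + 3 : ℕ) : ℂ) * z := by push_cast; ring
      have e1 : ((k + 2 : ℕ) : ℂ) * z - z = ((k + 1 : ℕ) : ℂ) * z := by push_cast; ring
      have key := wp_add_add_wp_sub M hm2 hz h3 (by rwa [e1])
      rw [e3, e1, hv1, hv2, hval, ← add_identity (a := rootC ι S) (b := rootC ι S.rot)
        (c := rootC ι S.rot.rot) hs hg2 hg3] at key
      refine ⟨e3 ▸ h3, ?_⟩
      have hmap := congrArg ι (S.sub_add_sub hP0 L.gen_ne hx)
      rw [show P + L.gen = (k + 3) • L.gen from (succ_nsmul _ _).symm,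
        show P - L.gen = (k + 1) • L.gen by
          rw [hP, show k + 2 = (k + 1) + 1 from rfl, succ_nsmul, add_sub_cancel_right]] at hmap
      simp only [map_mul, map_sub, map_add, map_pow, map_ofNat, Split.c] at hmap
      simp only [rootC, Split.rot] at key
      refine mul_right_cancel₀ (pow_ne_zero 2 (sub_ne_zero.2 fun h => hx (ι.injective h))) ?_
      linear_combination key - hmap

/-- The preimage of the generator is killed by `p`. -/
theorem prime_mul_mem (U : Unif ι S M) {z : ℂ} (hz : z ∉ M.lattice)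
    (hval : ℘[M] z = ι (xCoord L.gen) + shift ι W) : (p : ℂ) * z ∈ M.lattice := by
  obtain ⟨r, hr⟩ := L.odd
  have := hp.out.two_le
  obtain ⟨hm1, hv1⟩ := multiples L U hz hval r (by omega) (by omega)
  obtain ⟨hm2, hv2⟩ := multiples L U hz hval (r + 1) (by omega) (by omega)
  have hneg : (r + 1) • L.gen = -(r • L.gen) := by
    rw [eq_neg_iff_add_eq_zero, ← add_nsmul, show r + 1 + r = p by omega, L.nsmul_gen]
  rw [hneg, xCoord_neg] at hv2
  rcases (Igusa.weierstrassP_eq_iff M hm2 hm1).1 (hv2.trans hv1.symm) with h | h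
  · exact absurd (by convert h using 1; push_cast; ring) hz
  · convert h using 1
    rw [hr]; push_cast; ring

end Unif

/-! ### The quotient -/

section Quotient

variable [DecidableEq K] [CharZero K] {p : ℕ} [hp : Fact p.Prime] (L : Line W p)

omit [CharZero K] in
lemma sum_univ_H {A : Type*} [AddCommMonoid A] (f : ZMod p → A) :
    ∑ n, f n = f 0 + ∑ k ∈ L.H, (f k + f (-k)) := by
  simpa using congrArg Multiplicative.toAdd (L.prod_univ fun n => Multiplicative.ofAdd (f n))

variable [IsAlgClosed K]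

omit [IsAlgClosed K] [CharZero K] in
lemma D_ne_zero (S : Split W) : L.D S ≠ 0 := by
  have h2 := L.hv_ne_zero S.rot.rot
  exact div_ne_zero (mul_ne_zero (neg_ne_zero.2 (pow_ne_zero _ (sub_ne_zero.2 S.h₁₂)))
    (pow_ne_zero 2 h2)) (mul_ne_zero (pow_ne_zero 2 (L.hv_ne_zero S))
    (pow_ne_zero 2 (L.hv_ne_zero S.rot)))

/-- The invariants of a curve with a line and of the quotient are `j(τ)` and `j(pτ)`. -/
theorem exists_tau (S : Split W) :
    ∃ τ : ℍ, jFun τ = ι (W.c₄ ^ 3 / W.Δ) ∧ jFun (scalePt p τ) = ι (jQ L S) := by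
  classical
  have hp0 : (p : ℂ) ≠ 0 := Nat.cast_ne_zero.2 hp.out.ne_zero
  have hi3 : rootC ι S.rot.rot ≠ rootC ι S := by simpa using rootC_injective ι S.rot.rot
  obtain ⟨τ₀, w₀, hw₀, a1, a2, a3⟩ := exists_pairOf_roots (rootC_injective ι S)
    (rootC_injective ι S.rot) hi3 (rootC_sum ι S)
  obtain ⟨z, hz₀, hval₀⟩ :=
    exists_weierstrassP_eq (pairOf τ₀ w₀ hw₀) (ι (xCoord L.gen) + shift ι W)
  obtain ⟨τ, w, hw, k, hlat, hk, hzk⟩ := exists_normalise hw₀ hp.out hz₀
    (Unif.prime_mul_mem (S := S) L ⟨a1, a2, a3⟩ hz₀ hval₀)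
  set M := pairOf τ w hw with hM
  have U : Unif ι S M := by
    refine ⟨?_, ?_, ?_⟩ <;> simp only [cubic, (g₂_congr hlat).1, (g₂_congr hlat).2] <;> assumption
  have hz : z ∉ M.lattice := hlat ▸ hz₀
  have hval : ℘[M] z = ι (xCoord L.gen) + shift ι W := by
    rw [weierstrassP_congr hlat]; exact hval₀
  refine ⟨τ, ?_, ?_⟩
  · rw [jFun_eq_jDiff (rootC_injective ι S) (rootC_injective ι S.rot) hi3 U.h₁ U.h₂ U.h₃,
      c₄_pow_div_Δ S, map_jDiff]
    simp [rootC, Split.rot]
  have hpz := Unif.prime_mul_mem L U hz hval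
  have hmul := Unif.multiples L U hz hval
  have hw' : w / p ≠ 0 := div_ne_zero hw hp0
  set N := pairOf (scalePt p τ) (w / p) hw' with hN
  -- multiples of `z` indexed by `ZMod p`
  set g : ZMod p → ℂ := fun n => (n.val : ℂ) * z with hg
  have g_add : ∀ m n, g (m + n) - (g m + g n) ∈ M.lattice := by
    intro m n
    obtain ⟨t, ht⟩ : (p : ℤ) ∣ ((m + n).val : ℤ) - (m.val + n.val) := by
      rw [← ZMod.intCast_zmod_eq_zero_iff_dvd]
      simp
    have : g (m + n) - (g m + g n) = (t : ℤ) • ((p : ℂ) * z) := by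
      have ht' : (((m + n).val : ℂ) - (m.val + n.val)) = p * t := by
        exact_mod_cast congrArg (fun x : ℤ => (x : ℂ)) ht
      simp only [hg, zsmul_eq_mul]
      linear_combination z * ht'
    rw [this]
    exact Submodule.smul_mem _ _ hpz
  have g_zero : g 0 = 0 := by simp [hg]
  have g_mem : ∀ n, g n ∈ M.lattice → n = 0 := fun n h => by
    by_contra hn
    exact (hmul n.val (Nat.pos_of_ne_zero ((ZMod.val_eq_zero n).not.2 hn)) (ZMod.val_lt n)).1 h
  have g_val : ∀ n, n ≠ 0 → ℘[M] (g n) = ι (L.xs n) + shift ι W := fun n hn => by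
    rw [(hmul n.val (Nat.pos_of_ne_zero ((ZMod.val_eq_zero n).not.2 hn)) (ZMod.val_lt n)).2,
      Line.xs, ← L.pt_natCast, ZMod.natCast_zmod_val]
  have wp_congr : ∀ {u v : ℂ}, u - v ∈ M.lattice → ℘[M] u = ℘[M] v := fun {u v} h => by
    simpa using M.weierstrassP_add_coe v ⟨u - v, h⟩
  have g_neg : ∀ n, g (-n) + g n ∈ M.lattice := fun n => by
    have := g_add (-n) n
    rw [neg_add_cancel, g_zero, zero_sub] at this
    exact neg_mem_iff.1 this
  -- the sublattice
  have hscale : (w / p) * (scalePt p τ : ℂ) = w * τ := by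
    rw [ModCurve.Forms.coe_scalePt]; field_simp
  have hMN : ∀ x ∈ M.lattice, x ∈ N.lattice := fun x hx => by
    obtain ⟨m, n, rfl⟩ := mem_pairOf_lattice.1 hx
    refine mem_pairOf_lattice.2 ⟨m, n * p, ?_⟩
    rw [hscale]; push_cast; field_simp
  have hzN : z ∈ N.lattice := by
    have h1 : (k : ℂ) * (w / p) ∈ N.lattice := mem_pairOf_lattice.2 ⟨0, k, by simp⟩
    simpa using add_mem (hMN _ hzk) h1
  have hgN : ∀ n, g n ∈ N.lattice := fun n => by
    simpa [hg] using Submodule.smul_mem N.lattice (n.val : ℤ) hzN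
  have hclass : ∀ l ∈ N.lattice, ∃ n, l - g n ∈ M.lattice := by
    intro l hl
    obtain ⟨a, b, rfl⟩ := mem_pairOf_lattice.1 hl
    have hk0 : (k : ZMod p) ≠ 0 := fun h => hk ((ZMod.intCast_zmod_eq_zero_iff_dvd _ _).1 h)
    set n : ZMod p := (b : ZMod p) * (k : ZMod p)⁻¹ with hn
    obtain ⟨t, ht⟩ : (p : ℤ) ∣ b - (n.val : ℤ) * k := by
      rw [← ZMod.intCast_zmod_eq_zero_iff_dvd]
      simp [hn, hk0]
    refine ⟨n, ?_⟩
    have ht' : (b : ℂ) - (n.val : ℂ) * k = p * t := by
      exact_mod_cast congrArg (fun x : ℤ => (x : ℂ)) ht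
    have : (a : ℂ) * (w / p * (scalePt p τ : ℂ)) + b * (w / p) - g n =
        ((a : ℂ) * (w * τ) + t * w) - (n.val : ℤ) • (z - k * (w / p)) := by
      rw [hscale]
      simp only [hg, zsmul_eq_mul, Int.cast_natCast]
      field_simp
      linear_combination w * ht'
    rw [this]
    exact sub_mem (mem_pairOf_lattice.2 ⟨a, t, rfl⟩) (Submodule.smul_mem _ _ hzk)
  -- Liouville
  set F : ℂ → ℂ := fun u => ℘[N] u - ∑ n, ℘[M] (u + g n) with hF
  have hper : ∀ u, ∀ l ∈ N.lattice, F (u + l) = F u := by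
    intro u l hl
    obtain ⟨m, hm⟩ := hclass l hl
    have h1 := N.weierstrassP_add_coe u ⟨l, hl⟩
    simp only at h1
    simp only [hF, h1]
    congr 1
    refine Fintype.sum_equiv (Equiv.addLeft m) _ _ fun n => wp_congr ?_
    convert sub_mem hm (g_add m n) using 1
    simp; ring
  have hanalytic : ∀ u n, u + g n ∉ M.lattice → AnalyticAt ℂ (fun v => ℘[M] (v + g n)) u :=
    fun u n h => analyticAt_wp_add M h
  have hoff : ∀ u, u ∉ N.lattice → HasExt F u (F u) := by
    intro u hu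
    refine HasExt.of_analyticAt ((N.analyticOnNhd_weierstrassP u hu).sub
      (Finset.analyticAt_fun_sum _ fun n _ => hanalytic u n fun h => hu ?_))
    simpa using sub_mem (hMN _ h) (hgN n)
  have hon : ∀ u, u ∈ N.lattice → ∃ a, HasExt F u a := by
    intro u hu
    obtain ⟨m, hm⟩ := hclass u hu
    have hn0 : u + g (-m) ∈ M.lattice := by
      convert add_mem hm (g_neg m) using 1; ring
    have hrest : ∀ n ∈ (Finset.univ : Finset (ZMod p)).erase (-m), u + g n ∉ M.lattice := by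
      intro n hn h
      refine Finset.ne_of_mem_erase hn ?_
      rw [← add_eq_zero_iff_eq_neg]
      refine g_mem _ ?_
      convert add_mem (g_add n m) (sub_mem h hm) using 1; ring
    obtain ⟨φ, hφ, -, hφl⟩ := exists_laurent N hu
    obtain ⟨ψ, hψ, -, hψl⟩ := exists_laurent M hn0
    refine ⟨_, fun v => (φ (v - u) - ψ (v - u)) -
      ∑ n ∈ (Finset.univ : Finset (ZMod p)).erase (-m), ℘[M] (v + g n), ?_, ?_, rfl⟩
    · have hid : AnalyticAt ℂ (fun v : ℂ => v - u) u := analyticAt_id.sub analyticAt_const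
      exact ((AnalyticAt.comp (g := φ) (by simpa using hφ) hid).sub
        (AnalyticAt.comp (g := ψ) (by simpa using hψ) hid)).sub
        (Finset.analyticAt_fun_sum _ fun n hn => hanalytic u n (hrest n hn))
    · filter_upwards [self_mem_nhdsWithin] with v hv
      have hv0 : v - u ≠ 0 := sub_ne_zero.2 hv
      have e1 := hφl _ hv0
      have e2 := hψl _ hv0
      rw [add_sub_cancel] at e1
      rw [show u + g (-m) + (v - u) = v + g (-m) by ring] at e2
      simp only [hF]
      rw [← Finset.add_sum_erase _ _ (Finset.mem_univ (-m)), e1, e2]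
      ring
  obtain ⟨C, hC⟩ := exists_eq_const_of_hasExt N hper fun u =>
    if hu : u ∈ N.lattice then hon u hu else ⟨_, hoff u hu⟩
  -- the images of the half periods
  have key : ∀ S : Split W, Unif ι S M → ∃ T, T ∉ N.lattice ∧ cubic N (℘[N] T) = 0 ∧
      ℘[N] T = C + (rootC ι S + 2 * ∑ j ∈ L.H,
        (rootC ι S + ι (S.c / (L.xs j - S.e₁)))) := by
    intro S U
    obtain ⟨T, hT, hT2, hTv⟩ := U.exists_half
    have hX : ∀ j, j ≠ 0 → ℘[M] (g j) ≠ ℘[M] T := fun j hj h => by
      rw [g_val j hj, hTv] at h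
      exact L.xs_sub_root_ne S hj (sub_eq_zero.2 (ι.injective (add_right_cancel h)))
    have hTg : ∀ j, T + g j ∉ M.lattice := fun j h => by
      rcases eq_or_ne j 0 with rfl | hj
      · exact hT (by simpa [g_zero] using h)
      refine hX j hj ((Igusa.weierstrassP_eq_iff M (fun h => hj (g_mem j h)) hT).2 (Or.inr ?_))
      rwa [add_comm]
    have hTN : T ∉ N.lattice := fun h => by
      obtain ⟨m, hm⟩ := hclass T h
      exact hTg (-m) (by convert add_mem hm (g_neg m) using 1; ring)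
    refine ⟨T, hTN, ?_, ?_⟩
    · rw [cubic, ← N.derivWeierstrassP_sq T hTN,
        derivWeierstrassP_eq_zero_of_two_mul_mem N (hMN _ hT2), zero_pow two_ne_zero]
    have hsum : ℘[N] T = C + ∑ n, ℘[M] (T + g n) :=
      sub_eq_iff_eq_add.1 (hC T _ (hoff T hTN))
    rw [hsum, sum_univ_H L, g_zero, add_zero, hTv, Finset.mul_sum]
    congr 2
    refine Finset.sum_congr rfl fun j hj => ?_
    have hj0 := L.ne_zero_of_mem_H hj
    have hgj : g j ∉ M.lattice := fun h => hj0 (g_mem j h)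
    have hm' : g j - T ∉ M.lattice := fun h => hTg j (by
      convert add_mem h hT2 using 1; ring)
    have e1 : ℘[M] (g j - T) = ℘[M] (T + g j) := wp_congr (by
      convert neg_mem hT2 using 1; ring)
    have e2 : ℘[M] (T + g (-j)) = ℘[M] (T + g j) := by
      rw [← e1, ← M.weierstrassP_neg (g j - T)]
      refine wp_congr ?_
      convert g_neg j using 1; ring
    have hadd := wp_add_add_wp_sub M hgj hT (by rw [add_comm]; exact hTg j) hm'
    rw [e1, add_comm (g j) T, hTv, g_val j hj0, root_identity (rootC_sum ι S) U.invariants.1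
      U.invariants.2] at hadd
    have hne : ι (L.xs j) - ι S.e₁ ≠ 0 :=
      sub_ne_zero.2 fun h => L.xs_sub_root_ne S hj0 (sub_eq_zero.2 (ι.injective h))
    rw [e2, ← two_mul]
    congr 1
    simp only [map_div₀, map_sub, map_mul, Split.c]
    simp only [rootC, Split.rot] at hadd ⊢
    field_simp
    refine mul_left_cancel₀ hne ?_
    linear_combination hadd / 2
  have hD : ∀ S : Split W, ι (L.D S) =
      (rootC ι S.rot + 2 * ∑ j ∈ L.H, (rootC ι S.rot + ι (S.rot.c / (L.xs j - S.rot.e₁)))) -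
      (rootC ι S + 2 * ∑ j ∈ L.H, (rootC ι S + ι (S.c / (L.xs j - S.e₁)))) := by
    intro S
    rw [L.D_eq_sum S]
    simp only [rootC, map_sub, map_add, map_mul, map_sum, map_ofNat, Finset.sum_add_distrib,
      Finset.sum_const, nsmul_eq_mul, map_natCast, show S.rot.e₁ = S.e₂ from rfl]
    ring
  obtain ⟨T₁, -, c1, v1⟩ := key S U
  obtain ⟨T₂, -, c2, v2⟩ := key S.rot U.rot
  obtain ⟨T₃, -, c3, v3⟩ := key S.rot.rot U.rot.rot
  have d12 : ℘[N] T₁ - ℘[N] T₂ = -ι (L.D S) := by rw [v1, v2, hD S]; ring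
  have d23 : ℘[N] T₂ - ℘[N] T₃ = -ι (L.D S.rot) := by rw [v2, v3, hD S.rot]; ring
  have d31 : ℘[N] T₃ - ℘[N] T₁ = -ι (L.D S.rot.rot) := by
    rw [v3, v1, hD S.rot.rot, Split.rot_rot_rot]; ring
  have nz : ∀ S : Split W, -ι (L.D S) ≠ 0 := fun S =>
    neg_ne_zero.2 ((map_ne_zero ι).2 (D_ne_zero L S))
  rw [jFun_eq_jDiff (sub_ne_zero.1 (d12 ▸ nz S)) (sub_ne_zero.1 (d23 ▸ nz S.rot))
    (sub_ne_zero.1 (d31 ▸ nz S.rot.rot)) c1 c2 c3, d12, d23, d31, jDiff_neg, jQ, map_jDiff]

end Quotient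

end FermatAgent.Mazur.Step3
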