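import Fermat.Agent.Mazur.Step3.LatticeQuotient
import Fermat.Agent.ModCurve.Fun.Degree
import Fermat.Agent.LocalP.NotAllInE1

/-!
Relations of the modular function field hold at the invariants of a curve with a line and of its
quotient; Galois invariance of the quotient invariant.
-/

set_option autoImplicit false

noncomputable section

namespace FermatAgent.Mazur.Step3

open UpperHalfPlane hiding I
open Polynomial FermatAgent.ModFun
open FermatAgent.ModCurve.Forms (scalePt)

lemma dil_eq_scalePt (N : ℕ) [NeZero N] (τ : ℍ) : dil N τ = scalePt N τ :=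
  UpperHalfPlane.ext (by rw [coe_dil, ModCurve.Forms.coe_scalePt])

/-- A relation between `j` and `j(N ·)` holds at every point of the upper half plane. -/
theorem eval_eq_zero_of_biEval {L : Type*} [Field L] [Algebra ℚ L] (N : ℕ) [NeZero N]
    (ι : L →+* ℂ) {P : L[X][X]} (h : biEval (jBar L N) (jNBar L N) P = 0) (τ : ℍ) :
    ((P.map (mapRingHom ι)).map (evalRingHom (jFun τ))).eval (jFun (scalePt N τ)) = 0 := by
  have h0 : bEval L N P = 0 := by rw [← coe_biEval, h]; rfl
  obtain ⟨hm, he⟩ := qLaurent_mem_cuspRing_aeval (P.map (mapRingHom ι)) N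
  have h1 : (⟨_, hm⟩ : cuspRing) = 0 := qLaurentHom_injective (by
    rw [qLaurentHom_apply, he, ← coeffMap_bEval, h0, map_zero, map_zero])
  rw [← dil_eq_scalePt]
  exact congrFun (congrArg Subtype.val h1) τ

/-- A relation between `j` and `j(N ·)` holds at a pair of values coming from a point of `ℍ`. -/
theorem eval_eq_zero_of_biEval' {L : Type*} [Field L] [Algebra ℚ L] (N : ℕ) [NeZero N]
    (ι : L →+* ℂ) {P : L[X][X]} (h : biEval (jBar L N) (jNBar L N) P = 0) {a b : L} {τ : ℍ}
    (ha : jFun τ = ι a) (hb : jFun (scalePt N τ) = ι b) :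
    (P.map (evalRingHom a)).eval b = 0 := by
  have h1 := eval_eq_zero_of_biEval N ι h τ
  rw [ha, hb, Polynomial.map_map,
    show (evalRingHom (ι a)).comp (mapRingHom ι) = ι.comp (evalRingHom a) from
      Polynomial.ringHom_ext (fun r => by simp) (by simp),
    ← Polynomial.map_map, eval_map, eval₂_hom, map_eq_zero] at h1
  exact h1

open WeierstrassCurve WeierstrassCurve.Affine FermatAgent.Local FermatAgent.LocalP

/-- The quotient invariant of a line with a fixed generator is fixed. -/
theorem jQ_fixed {W : WeierstrassCurve ℤ} {p : ℕ} [Fact p.Prime]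
    (L : Line (qbarCurve W) p) (S : Split (qbarCurve W))
    (σ : AlgebraicClosure ℚ ≃ₐ[ℚ] AlgebraicClosure ℚ) (hgen : σ • L.gen = L.gen) :
    σ (jQ L S) = jQ L S := by
  have hx : ∀ n, σ (L.xs n) = L.xs n := fun n => by
    rw [Line.xs, ← xCoord_smul, ← ZMod.natCast_zmod_val n, L.pt_natCast]
    congr 1
    show (DistribSMul.toAddMonoidHom (qbarCurve W).Point σ) (n.val • L.gen) = n.val • L.gen
    rw [map_nsmul, DistribSMul.toAddMonoidHom_apply, hgen]
  have hb₂ : σ (qbarCurve W).b₂ = (qbarCurve W).b₂ := by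
    simp [qbarCurve, WeierstrassCurve.b₂, WeierstrassCurve.baseChange, WeierstrassCurve.map,
      map_ofNat]
  have hb₄ : σ (qbarCurve W).b₄ = (qbarCurve W).b₄ := by
    simp [qbarCurve, WeierstrassCurve.b₄, WeierstrassCurve.baseChange, WeierstrassCurve.map,
      map_ofNat]
  have hb₆ : σ (qbarCurve W).b₆ = (qbarCurve W).b₆ := by
    simp [qbarCurve, WeierstrassCurve.b₆, WeierstrassCurve.baseChange, WeierstrassCurve.map,
      map_ofNat]
  let T : Split (qbarCurve W) :=
    { e₁ := σ S.e₁
      e₂ := σ S.e₂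
      e₃ := σ S.e₃
      hb₂ := by rw [← hb₂, S.hb₂]; simp [map_ofNat]
      hb₄ := by rw [← hb₄, S.hb₄]; simp [map_ofNat]
      hb₆ := by rw [← hb₆, S.hb₆]; simp [map_ofNat]
      h₁₂ := fun h => S.h₁₂ (σ.injective h)
      h₂₃ := fun h => S.h₂₃ (σ.injective h)
      h₃₁ := fun h => S.h₃₁ (σ.injective h) }
  have hD : σ (L.D S) = L.D T ∧ σ (L.D S.rot) = L.D T.rot ∧
      σ (L.D S.rot.rot) = L.D T.rot.rot := by
    refine ⟨?_, ?_, ?_⟩ <;>
      simp only [Line.D, Line.hv, Split.rot, L.h_eval, map_neg, map_mul, map_pow, map_div₀,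
        map_sub, map_prod, hx, T]
  obtain ⟨h1, h2, h3⟩ := hD
  calc σ (jQ L S) = jDiff (σ (L.D S)) (σ (L.D S.rot)) (σ (L.D S.rot.rot)) := by
        simp [jQ, jDiff, map_ofNat]
    _ = jQ L T := by rw [h1, h2, h3, jQ]
    _ = jQ L S := jQ_eq L S T

end FermatAgent.Mazur.Step3
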