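import Fermat.Agent.Mazur.Step3.LatticeRelation
import Fermat.Agent.Mazur.Step3.CuspClass
import Fermat.Agent.Mazur.S12Reduction

/-!
The point of the modular curve of prime level attached to a curve over `ℚ` with a rational point of
order `p`, and the sizes of its two coordinates at the multiplicative places.
-/

set_option autoImplicit false

noncomputable section

open AlgebraicCurve ModularCurve Polynomial
open FermatAgent.ModFun (jBar jNBar biEval)

namespace FermatAgent.Mazur.Step3

local notation "Qb" => AlgebraicClosure ℚ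
local notation "GQ" => AlgebraicClosure ℚ ≃ₐ[ℚ] AlgebraicClosure ℚ

variable {p : ℕ} [hp : Fact p.Prime]


/-- Values satisfying the relations between `j` and `j(p ·)` are taken at a place. -/
theorem exists_place_over (a b : Qb)
    (h : ∀ P : Qb[X][X], biEval (jBar Qb p) (jNBar Qb p) P = 0 →
      (P.map (evalRingHom a)).eval b = 0) :
    ∃ v : Place Qb (modularFunctionFieldBar p),
      0 < v.ord (jBar Qb p - algebraMap Qb (modularFunctionFieldBar p) a) ∧
      0 < v.ord (jNBar Qb p - algebraMap Qb (modularFunctionFieldBar p) b) := by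
  let φ : Qb[X][X] →+* modularFunctionFieldBar p := biEval (jBar Qb p) (jNBar Qb p)
  let e : Qb[X][X] →+* Qb := (evalRingHom b).comp (mapRingHom (evalRingHom a))
  have hker : RingHom.ker φ.rangeRestrict ≤ RingHom.ker e := fun P hP =>
    h P (congrArg Subtype.val (RingHom.mem_ker.1 hP))
  have hI : Ideal.map φ.rangeRestrict (RingHom.ker e) ≠ ⊤ := by
    intro htop
    have h1 := Ideal.comap_map_of_surjective _ φ.rangeRestrict_surjective (RingHom.ker e)
    rw [htop, Ideal.comap_top, ← RingHom.ker_eq_comap_bot, sup_eq_left.2 hker] at h1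
    exact RingHom.ker_ne_top e h1.symm
  obtain ⟨V, hV, hVI⟩ := Ideal.image_subset_nonunits_valuationSubring _ hI
  have hmem : ∀ P : Qb[X][X], e P = 0 → φ P ∈ V.nonunits := fun P hP =>
    hVI ⟨φ.rangeRestrict P, Ideal.mem_map_of_mem _ (RingHom.mem_ker.2 hP), rfl⟩
  have e1 : φ (C (X - C a)) = jBar Qb p - algebraMap Qb (modularFunctionFieldBar p) a := by
    simp [φ, biEval]
  have e2 : φ (X - C (C b)) = jNBar Qb p - algebraMap Qb (modularFunctionFieldBar p) b := by
    simp [φ, biEval]
  have m1 := hmem (C (X - C a)) (by simp [e])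
  have m2 := hmem (X - C (C b)) (by simp [e])
  rw [e1] at m1
  rw [e2] at m2
  have h1 : jBar Qb p - algebraMap Qb (modularFunctionFieldBar p) a ≠ 0 := fun h0 =>
    FermatAgent.ModFun.transcendental_jBar Qb p (by
      rw [sub_eq_zero.1 h0]; exact isAlgebraic_algebraMap a)
  have h2 : jNBar Qb p - algebraMap Qb (modularFunctionFieldBar p) b ≠ 0 := fun h0 =>
    transcendental_jNBar p (by rw [sub_eq_zero.1 h0]; exact isAlgebraic_algebraMap b)
  have hne : V ≠ ⊤ := by
    rintro rfl
    rw [ValuationSubring.mem_nonunits_iff_exists_mem_maximalIdeal] at m1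
    obtain ⟨hm, hmax⟩ := m1
    exact hmax (IsUnit.of_mul_eq_one ⟨_, ValuationSubring.mem_top _⟩
      (Subtype.ext (mul_inv_cancel₀ h1)))
  have hK : ∀ c : Qb, algebraMap Qb (modularFunctionFieldBar p) c ∈ V := fun c =>
    hV ⟨C (C c), by simp [φ, biEval]⟩
  obtain ⟨v, hv⟩ : ∃ v : Place Qb (modularFunctionFieldBar p), v.toValuationSubring = V :=
    ⟨FermatAgent.Curve.placeOfValuationSubring V hK hne, rfl⟩
  subst hv
  exact ⟨v, ((FermatAgent.Curve.mem_nonunits_iff_ord_pos v).1 m1).resolve_left h1,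
    ((FermatAgent.Curve.mem_nonunits_iff_ord_pos v).1 m2).resolve_left h2⟩

omit hp in
/-- A conjugate of a place over rational values lies over the same values. -/
theorem ord_galois_jBar [NeZero p] (σ : GQ) {a : Qb} (ha : σ a = a)
    {P : Place Qb (modularFunctionFieldBar p)}
    (hPa : 0 < P.ord (jBar Qb p - algebraMap Qb (modularFunctionFieldBar p) a)) :
    0 < (arithmeticGalois (modularFunctionFieldFull p) σ • P).ord
      (jBar Qb p - algebraMap Qb (modularFunctionFieldBar p) a) := by
  set g := arithmeticGalois (modularFunctionFieldFull p) σ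
  have hfix : g • (jBar Qb p - algebraMap Qb (modularFunctionFieldBar p) a) =
      jBar Qb p - algebraMap Qb (modularFunctionFieldBar p) a := by
    have hc : g • algebraMap Qb (modularFunctionFieldBar p) a =
        algebraMap Qb (modularFunctionFieldBar p) a := by
      conv_rhs => rw [← ha]
      exact arithmeticRingAut_algebraMap (modularFunctionFieldFull p) σ a
    rw [smul_sub, galois_jBar, hc]
  rw [← hfix, SemilinearAut.ord_smul]
  exact hPa

omit hp in
theorem ord_galois_jNBar [NeZero p] (σ : GQ) {b : Qb} (hb : σ b = b)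
    {P : Place Qb (modularFunctionFieldBar p)}
    (hPb : 0 < P.ord (jNBar Qb p - algebraMap Qb (modularFunctionFieldBar p) b)) :
    0 < (arithmeticGalois (modularFunctionFieldFull p) σ • P).ord
      (jNBar Qb p - algebraMap Qb (modularFunctionFieldBar p) b) := by
  set g := arithmeticGalois (modularFunctionFieldFull p) σ
  have hfix : g • (jNBar Qb p - algebraMap Qb (modularFunctionFieldBar p) b) =
      jNBar Qb p - algebraMap Qb (modularFunctionFieldBar p) b := by
    have hc : g • algebraMap Qb (modularFunctionFieldBar p) b =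
        algebraMap Qb (modularFunctionFieldBar p) b := by
      conv_rhs => rw [← hb]
      exact arithmeticRingAut_algebraMap (modularFunctionFieldFull p) σ b
    rw [smul_sub, galois_jNBar, hc]
  rw [← hfix, SemilinearAut.ord_smul]
  exact hPb

section Curve

open FermatAgent.Local WeierstrassCurve WeierstrassCurve.Affine

variable (W : WeierstrassCurve ℤ)

/-- The two coordinates of the point attached to a rational point of order `p`, with their sizes
at the multiplicative places. -/
theorem exists_point (hp2 : p ≠ 2) (hΔ : W.Δ ≠ 0)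
    (Q : ((W.map (Int.castRingHom ℚ))⁄(AlgebraicClosure ℚ)).Point)
    (hQfix : ∀ σ : GQ, σ • Q = Q) (hQord : addOrderOf Q = p) :
    ∃ (a b : Qb) (v : Place Qb (modularFunctionFieldBar p)),
      (∀ σ : GQ, σ a = a ∧ σ b = b) ∧
      0 < v.ord (jBar Qb p - algebraMap Qb (modularFunctionFieldBar p) a) ∧
      0 < v.ord (jNBar Qb p - algebraMap Qb (modularFunctionFieldBar p) b) ∧
      ∀ q : ℕ, q.Prime → q ≠ p → (q : ℤ) ∣ W.Δ → ¬ (q : ℤ) ∣ W.c₄ →
        ∀ A : ValuationSubring Qb, A.LiesOverPrime q →
          a ∉ A ∧ ∃ β : A, b = (β : Qb) * a ^ p ∧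
            (W.InZeroComponentAt A Q ↔ IsLocalRing.residue A β ≠ 0) := by
  classical
  set E := qbarCurve W with hE
  let L : Line E p :=
    { gen := Q
      gen_ne := fun h => hp.out.ne_one (by rw [← hQord, h]; exact addOrderOf_zero)
      nsmul_gen := by
        have h := addOrderOf_nsmul_eq_zero Q
        rwa [hQord] at h
      odd := hp.out.odd_of_ne_two hp2 }
  have hΔ' : WeierstrassCurve.Δ E = ((W.Δ : ℤ) : Qb) := qbarCurve_Δ W
  have hc₄' : WeierstrassCurve.c₄ E = ((W.c₄ : ℤ) : Qb) := qbarCurve_c₄ W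
  obtain ⟨S⟩ : Nonempty (Split E) := exists_splitting (by rw [hΔ']; exact_mod_cast hΔ)
  let ι : Qb →+* ℂ := (FermatAgent.ModFun.qbarToC).toRingHom
  set a : Qb := WeierstrassCurve.c₄ E ^ 3 / WeierstrassCurve.Δ E with ha
  set b : Qb := jQ L S with hb
  obtain ⟨τ, hτa, hτb⟩ :=
    exists_tau ι L S
  obtain ⟨v, hva, hvb⟩ := exists_place_over a b fun P hP =>
    eval_eq_zero_of_biEval' p ι hP hτa hτb
  refine ⟨a, b, v, fun σ => ⟨?_, jQ_fixed L S σ (hQfix σ)⟩, hva, hvb, fun q hq hqp hqΔ hqc₄ A hA => ?_⟩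
  · rw [ha, hΔ', hc₄']
    simp
  have hW : IntCoeffs A E := qbarCurve_intCoeffs W A
  have hvΔ : A.valuation (WeierstrassCurve.Δ E) < 1 := by
    rw [hΔ']; exact (val_intCast_lt_one_iff hq hA _).2 hqΔ
  have hvc : A.valuation (WeierstrassCurve.c₄ E) = 1 := by
    rw [hc₄']; exact val_intCast_eq_one hq hA hqc₄
  obtain ⟨T, hT⟩ := exists_node hW (by rw [hΔ']; exact_mod_cast hΔ) hvΔ hvc
  have hpA : A.valuation (p : Qb) = 1 :=
    val_natCast_eq_one hq hA fun h => hqp ((Nat.prime_dvd_prime_iff_eq hq hp.out).1 h)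
  have h1 : 1 < A.valuation a := one_lt_val_j hT
  have haA : a ∉ A := fun h => absurd ((A.valuation_le_one_iff a).2 h) (not_le.2 h1)
  refine ⟨haA, ?_⟩
  have ha0 : a ≠ 0 := fun h => haA (h ▸ zero_mem A)
  have hbT : jQ L T = b := jQ_eq L S T
  have hpt : ∀ n : ZMod p, L.pt n = n.val • L.gen := fun n => by
    rw [← L.pt_natCast, ZMod.natCast_zmod_val]
  by_cases hin : InE0 A E Q
  · have hall : ∀ n : ZMod p, InE0 A E (L.pt n) := fun n => by
      rw [hpt n]
      exact mem_e0Subgroup.1 ((e0Subgroup A E hW).nsmul_mem (mem_e0Subgroup.2 hin) n.val)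
    have hv := val_jQ_of_in hT L hW hpA hall
    rw [hbT] at hv
    have hv' : A.valuation (b / a ^ p) = 1 := by
      rw [map_div₀, map_pow, hv, div_self]
      exact pow_ne_zero _ (ne_of_gt (zero_lt_one.trans h1))
    have hmem : b / a ^ p ∈ A := (A.valuation_le_one_iff _).1 hv'.le
    refine ⟨⟨_, hmem⟩, (div_mul_cancel₀ _ (pow_ne_zero _ ha0)).symm, iff_of_true
      ((inZeroComponentAt_iff W A Q).2 hin) fun h0 => ?_⟩
    rw [IsLocalRing.residue_eq_zero_iff, ValuationSubring.valuation_lt_one_iff] at h0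
    exact h0.ne hv'
  · have hnone : ∀ n : ZMod p, n ≠ 0 → ¬ InE0 A E (L.pt n) := fun n hn h => by
      refine hin ?_
      have h' := mem_e0Subgroup.1 ((e0Subgroup A E hW).nsmul_mem
        ((mem_e0Subgroup (hW := hW)).2 h) (n⁻¹).val)
      have he : (n⁻¹).val • L.pt n = L.gen := by
        show (n⁻¹).val • L.ptHom n = L.gen
        rw [← map_nsmul, nsmul_eq_mul, ZMod.natCast_zmod_val, inv_mul_cancel₀ hn]
        have h1 := L.pt_natCast 1
        rw [Nat.cast_one, one_nsmul] at h1
        exact h1
      rwa [he] at h'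
    have hv := val_jQ_of_out hT L hW hnone
    rw [hbT] at hv
    have hv' : A.valuation (b / a ^ p) < 1 := by
      rw [map_div₀, map_pow, div_lt_one₀ (pow_pos (zero_lt_one.trans h1) _)]
      exact hv
    have hmem : b / a ^ p ∈ A := (A.valuation_le_one_iff _).1 hv'.le
    refine ⟨⟨_, hmem⟩, (div_mul_cancel₀ _ (pow_ne_zero _ ha0)).symm, iff_of_false
      (fun h => hin ((inZeroComponentAt_iff W A Q).1 h)) fun h0 => h0 ?_⟩
    rw [IsLocalRing.residue_eq_zero_iff, ValuationSubring.valuation_lt_one_iff]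
    exact hv'

end Curve

end FermatAgent.Mazur.Step3
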