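import Fermat.Agent.Mazur.Step3.Fibre
import Fermat.Agent.Mazur.Step3.Point
import Fermat.Agent.Mazur.Step3.HeckeNorm
import Fermat.Agent.Mazur.Step3.CuspTorsion
import Fermat.Agent.Mazur.Step3.Genus
import Fermat.Agent.Mazur.Descent.Main
import Fermat.Agent.Igusa.GoodRed.Concrete
import Fermat.Agent.RT.Frobenius

/-!
Mazur's third step: a rational point of order `p` off the component of the origin at `2` and `3`
is off that component at every multiplicative place.
-/

set_option autoImplicit false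
set_option linter.style.haveILetI false
set_option maxHeartbeats 800000
set_option linter.unusedSectionVars false

noncomputable section

open AlgebraicCurve ModularCurve
open FermatAgent.ModFun (jBar jNBar)
open FermatAgent.JacCharts (GoodReductionDatum)
open scoped WeierstrassCurve.Affine

namespace FermatAgent.Mazur.Step3

local notation "Qb" => AlgebraicClosure ℚ
local notation "GQ" => AlgebraicClosure ℚ ≃ₐ[ℚ] AlgebraicClosure ℚ

section Kernel

variable {p : ℕ} [hp : Fact p.Prime] {A : ValuationSubring Qb} {k : Type*} [Field k]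
variable {π : A →+* k} {ℓ : ℕ} [Fact ℓ.Prime] [CharP k ℓ]
variable {d : GoodReductionDatum A π (modularFunctionFieldBar p) (modularFunctionFieldFullC k p)}
variable [IsAlgClosed k] [FermatAgent.Curve.IsFunctionField1 k (modularFunctionFieldFullC k p)]

/-- The classes of divisors reducing to the zero divisor. -/
def InKer (d : GoodReductionDatum A π (modularFunctionFieldBar p) (modularFunctionFieldFullC k p))
    (x : JZero p) : Prop :=
  ∃ D : Divisor.degZero (K := Qb) (F := modularFunctionFieldBar p), Pic0.mk D = x ∧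
    d.redDiv (D : Divisor Qb (modularFunctionFieldBar p)) = 0

theorem InKer.redPic0 {x : JZero p} (hx : InKer d x) : d.redPic0 x = 0 := by
  obtain ⟨D, rfl, hD⟩ := hx
  rw [GoodReductionDatum.redPic0_mk_eq_zero_iff, hD]
  exact zero_mem _

theorem InKer.add {x y : JZero p} (hx : InKer d x) (hy : InKer d y) : InKer d (x + y) := by
  obtain ⟨D, rfl, hD⟩ := hx
  obtain ⟨E, rfl, hE⟩ := hy
  exact ⟨D + E, rfl, by rw [AddSubgroup.coe_add, map_add, hD, hE, add_zero]⟩

theorem InKer.zsmul {x : JZero p} (a : ℤ) (hx : InKer d x) : InKer d (a • x) := by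
  obtain ⟨D, rfl, hD⟩ := hx
  exact ⟨a • D, rfl, by rw [AddSubgroup.coe_zsmul, map_zsmul, hD, smul_zero]⟩

theorem InKer.heckeOperatorBar (hd : d.IsLaurent) (hℓp : ℓ ≠ p) (q : Nat.Primes) {x : JZero p}
    (hx : InKer d x) : InKer d (ModularCurve.heckeOperatorBar p q x) := by
  haveI : NeZero (q : ℕ) := ⟨q.2.ne_zero⟩
  obtain ⟨D, rfl, hD⟩ := hx
  obtain ⟨h, he⟩ := heckeOperatorBar_mk p q D
  exact ⟨⟨_, h⟩, he.symm, IsRigid.redDiv_eq_zero (isRigid_heckeDiv hd hℓp q q.2) hD⟩

theorem InKer.heckeEvalBar (hd : d.IsLaurent) (hℓp : ℓ ≠ p) (h : HeckeOperatorsCommuteBar p)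
    (t : HeckeAlg) : ∀ {x : JZero p}, InKer d x → InKer d (ModularCurve.heckeEvalBar h t x) := by
  induction t using MvPolynomial.induction_on with
  | C a =>
    intro x hx
    rw [heckeEvalBar_C, Module.End.intCast_apply]
    exact hx.zsmul a
  | add s t hs ht =>
    intro x hx
    rw [map_add, LinearMap.add_apply]
    exact (hs hx).add (ht hx)
  | mul_X s q hs =>
    intro x hx
    rw [map_mul, Module.End.mul_apply, show (MvPolynomial.X q : HeckeAlg) = heckeGen q from rfl,
      heckeEvalBar_heckeGen]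
    exact hs (hx.heckeOperatorBar hd hℓp q)

end Kernel

variable {p : ℕ} [hp : Fact p.Prime]

theorem inKer_pairDiv {A : ValuationSubring Qb} {k : Type*} [Field k] {π : A →+* k}
    {d : GoodReductionDatum A π (modularFunctionFieldBar p) (modularFunctionFieldFullC k p)}
    {P Q : Place Qb (modularFunctionFieldBar p)} (h : d.place P = d.place Q) :
    InKer d (Pic0.mk (pairDiv p P Q)) :=
  ⟨_, rfl, by
    simp only [coe_pairDiv, map_sub, Finsupp.mapDomain.addMonoidHom_apply,
      Finsupp.mapDomain_single, h, sub_self]⟩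

theorem pairDiv_add (P Q R : Place Qb (modularFunctionFieldBar p)) :
    (Pic0.mk (pairDiv p P R) : JZero p) = Pic0.mk (pairDiv p P Q) + Pic0.mk (pairDiv p Q R) := by
  refine (congrArg Pic0.mk (Subtype.ext ?_) : Pic0.mk (pairDiv p P R) =
    Pic0.mk (pairDiv p P Q + pairDiv p Q R))
  rw [AddSubgroup.coe_add, coe_pairDiv, coe_pairDiv, coe_pairDiv]
  abel

section Place

variable {ℓ : ℕ} (hℓ : ℓ.Prime) (hℓp : ℓ ≠ p) {A : ValuationSubring Qb} (hA : A.LiesOverPrime ℓ)

include hℓ hℓp in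
theorem not_dvd : ¬ ℓ ∣ p :=
  fun h => hℓp ((Nat.prime_dvd_prime_iff_eq hℓ hp.out).1 h)

end Place

open FermatAgent.Igusa.Down in
/-- Mazur's third step. -/
theorem not_inZeroComponentAt (hp' : p ∉ ({2, 3, 5, 7, 13} : Finset ℕ))
    (W : WeierstrassCurve ℤ) (hΔ : W.Δ ≠ 0)
    (Q : ((W.map (Int.castRingHom ℚ))⁄(AlgebraicClosure ℚ)).Point)
    (hQfix : ∀ σ : GQ, σ • Q = Q) (hQord : addOrderOf Q = p)
    (h2Δ : (2 : ℤ) ∣ W.Δ) (h2c₄ : ¬ (2 : ℤ) ∣ W.c₄)
    (h2 : ∀ A : ValuationSubring Qb, A.LiesOverPrime 2 → ¬ W.InZeroComponentAt A Q)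
    (h3Δ : (3 : ℤ) ∣ W.Δ) (h3c₄ : ¬ (3 : ℤ) ∣ W.c₄)
    (h3 : ∀ A : ValuationSubring Qb, A.LiesOverPrime 3 → ¬ W.InZeroComponentAt A Q)
    {ℓ : ℕ} (hℓ : ℓ.Prime) (hℓp : ℓ ≠ p) (hℓΔ : (ℓ : ℤ) ∣ W.Δ) (hℓc₄ : ¬ (ℓ : ℤ) ∣ W.c₄)
    (A : ValuationSubring Qb) (hA : A.LiesOverPrime ℓ) :
    ¬ W.InZeroComponentAt A Q := by
  classical
  intro hin
  have hp5 : 11 ≤ p := by
    have := hp.out.two_le
    simp only [Finset.mem_insert, Finset.mem_singleton, not_or] at hp'
    by_contra hlt
    push Not at hlt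
    interval_cases p <;> first | omega | (exfalso; exact absurd hp.out (by norm_num))
  obtain ⟨a, b, v, hfix, hva, hvb, hval⟩ := exists_point W (p := p) (by omega) hΔ Q hQfix hQord
  haveI := isFunctionField1_bar p
  letI := heckeModuleBar p
  have hcomm := FermatAgent.ModCurveTorsion.heckeOperatorsCommuteBar p
  -- the place `ℓ`
  haveI := Fact.mk hℓ
  haveI := charP_residueField hℓ hA
  haveI := isAlgClosed_residueField A
  haveI := isFunctionField1_fibre' p hℓ (not_dvd hℓ hℓp) hA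
  set d := datum p hℓ (not_dvd hℓ hℓp) hA
  have hd : d.IsLaurent := isLaurent_datum p hℓ (not_dvd hℓ hℓp) hA
  obtain ⟨haA, β, hβ, hiff⟩ := hval ℓ hℓ hℓp hℓΔ hℓc₄ A hA
  have hrv : d.place v = d.place (cInf p) :=
    place_eq_cInf hA hℓp hd haA hva hvb hβ (hiff.1 hin)
  have hvfix : ∀ σ : GQ, arithmeticGalois (modularFunctionFieldFull p) σ • v = v := fun σ =>
    eq_of_place_eq_cInf hA hℓp hd haA (ord_galois_jBar σ (hfix σ).1 hva) hva
      (place_eq_cInf hA hℓp hd haA (ord_galois_jBar σ (hfix σ).1 hva)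
        (ord_galois_jNBar σ (hfix σ).2 hvb) hβ (hiff.1 hin)) hrv
  set X : JZero p := Pic0.mk (pairDiv p v (cZero p)) with hX
  have hXfix : ∀ σ : GQ, σ • X = X := fun σ =>
    galois_smul_pair p σ (hvfix σ) (galois_smul_cZero p σ)
  -- the classes killed by the Eisenstein numerator
  have hn2 := two_le_eisensteinNumerator hp.out hp'
  have hn1 : eisensteinNumerator p ≠ 1 := by omega
  have hC : eisensteinNumerator p • cuspClass p = 0 := by
    obtain ⟨τ, hτ, htors⟩ := FermatAgent.Mazur.Descent.exists_hecke_smul_torsion hp.out hp5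
      (Nat.minFac_prime hn1) (Nat.minFac_dvd _)
    obtain ⟨m, hm⟩ := exists_smul_cuspClass p hτ
    obtain ⟨n, hn, hn'⟩ := htors _ (galois_smul_cuspClass p)
    rw [hm, ← natCast_zsmul, smul_smul] at hn'
    have hne : (n : ℤ) * (1 + (eisensteinNumerator p).minFac * m) ≠ 0 := by
      refine mul_ne_zero (by exact_mod_cast hn) fun h0 => ?_
      have : ((eisensteinNumerator p).minFac : ℤ) ∣ 1 := ⟨-m, by linear_combination h0⟩
      exact (Nat.minFac_prime hn1).not_dvd_one (by exact_mod_cast this)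
    exact eisensteinNumerator_nsmul_cuspClass (Int.natAbs_ne_zero.2 hne)
      (natAbs_nsmul_eq_zero.2 hn')
  -- the cuspidal class survives reduction
  set o := addOrderOf (d.redPic0 (cuspClass p)) with ho
  have ho1 : o ≠ 1 := by
    rw [ho, Ne, AddMonoid.addOrderOf_eq_one_iff, cuspClass,
      GoodReductionDatum.redPic0_mk_eq_zero_iff, coe_pairDiv]
    simp only [map_sub, Finsupp.mapDomain.addMonoidHom_apply, Finsupp.mapDomain_single]
    refine pair_notMem_principal ?_ (place_cInf_ne_cZero hA hℓp hd)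
    rw [d.genus_eq]
    exact genusFF_bar_ne_zero hp'
  have hon : o ∣ eisensteinNumerator p :=
    addOrderOf_dvd_of_nsmul_eq_zero (by rw [← map_nsmul, hC, map_zero])
  set l := o.minFac
  have hl : l.Prime := Nat.minFac_prime ho1
  obtain ⟨τ, hτ, htors⟩ := FermatAgent.Mazur.Descent.exists_hecke_smul_torsion hp.out hp5 hl
    ((Nat.minFac_dvd o).trans hon)
  obtain ⟨m, hm⟩ := exists_smul_cuspClass p hτ
  obtain ⟨n, hn, hn'⟩ := htors X hXfix
  -- at `2` and `3` the class of `v - 0` reduces to zero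
  have hsmall : ∀ q : ℕ, q.Prime → q ≠ p → (q : ℤ) ∣ W.Δ → ¬ (q : ℤ) ∣ W.c₄ →
      (∀ B : ValuationSubring Qb, B.LiesOverPrime q → ¬ W.InZeroComponentAt B Q) →
      ∀ r : ℕ, ¬ q ∣ r → ∀ c : ℕ, r • (c • (τ • X)) = 0 → c • (τ • X) = 0 := by
    intro q hq hqp hqΔ hqc₄ hout r hr c hrc
    obtain ⟨B, hB⟩ := FermatAgent.RT.exists_liesOverPrime hq
    haveI := Fact.mk hq
    haveI := charP_residueField hq hB
    haveI := isAlgClosed_residueField B
    haveI := isFunctionField1_fibre' p hq (not_dvd hq hqp) hB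
    haveI : Infinite (IsLocalRing.ResidueField B) := IsAlgClosed.instInfinite
    obtain ⟨haB, γ, hγ, hiffB⟩ := hval q hq hqp hqΔ hqc₄ B hB
    have he := isLaurent_datum p hq (not_dvd hq hqp) hB
    have hu : IsLocalRing.residue B γ = 0 := by
      by_contra hne
      exact hout B hB (hiffB.2 hne)
    have hker : InKer (datum p hq (not_dvd hq hqp) hB) X :=
      inKer_pairDiv (place_eq_cZero hB hqp he haB hva hvb hγ hu)
    have hred := (hker.heckeEvalBar he hqp hcomm τ).redPic0
    rw [← heckeModuleBar_smul_def hcomm] at hred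
    refine FermatAgent.JacCharts.GoodReductionDatum.eq_zero_of_redPic0_eq_zero_of_nsmul_eq_zero
      (d := datum p hq (not_dvd hq hqp) hB) ?_ (m := r) (fun h => hr ?_) hrc
    · rw [map_nsmul, hred, smul_zero]
    · exact (CharP.cast_eq_zero_iff (IsLocalRing.ResidueField B) q r).1 h
  have hy : τ • X = 0 := by
    obtain ⟨e, r, hr, rfl⟩ := Nat.exists_eq_pow_mul_and_not_dvd hn 2 (by norm_num)
    have hr' : r • (τ • X) = 0 := hsmall 3 Nat.prime_three (by omega) h3Δ h3c₄ h3 (2 ^ e)
      (fun h => absurd ((Nat.prime_three.dvd_of_dvd_pow h)) (by norm_num)) r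
      (by rw [← mul_nsmul', hn'])
    simpa using hsmall 2 Nat.prime_two (by omega) h2Δ h2c₄ h2 r hr 1 (by simpa using hr')
  -- at `ℓ` the class of `v - ∞` reduces to zero
  have hred := ((inKer_pairDiv hrv).heckeEvalBar hd hℓp hcomm τ).redPic0
  rw [← heckeModuleBar_smul_def hcomm] at hred
  have hsum : τ • X = τ • (Pic0.mk (pairDiv p v (cInf p)) : JZero p) + τ • cuspClass p := by
    rw [← smul_add, cuspClass, ← pairDiv_add]
  have h0 := congrArg d.redPic0 hsum
  rw [hy, map_zero, map_add, hred, zero_add, hm, map_zsmul, eq_comm,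
    ← addOrderOf_dvd_iff_zsmul_eq_zero] at h0
  have hl1 : (l : ℤ) ∣ 1 :=
    (Int.dvd_add_left (dvd_mul_right (l : ℤ) m)).1
      ((Int.natCast_dvd_natCast.2 (Nat.minFac_dvd o)).trans h0)
  exact hl.not_dvd_one (by exact_mod_cast hl1)

end FermatAgent.Mazur.Step3
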