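import Fermat.Agent.JacCharts.Basic
import Fermat.Agent.ES.Hecke
import Mathlib.RingTheory.IntegralClosure.IsIntegralClosure.Basic
import Mathlib.RingTheory.Norm.Transitivity

/-!
Norms of elements congruent to one, and the valuation ring of a good reduction datum.
-/

set_option autoImplicit false
set_option linter.style.haveILetI false

noncomputable section

open AlgebraicCurve
open FermatAgent.JacCharts (GoodReductionDatum)

namespace FermatAgent.Mazur.Step3

/-- The elements integral along a ring homomorphism. -/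
def intSub {R S : Type*} [CommRing R] [CommRing S] (φ : R →+* S) : Subring S :=
  letI := φ.toAlgebra
  (integralClosure R S).toSubring

lemma mem_intSub {R S : Type*} [CommRing R] [CommRing S] {φ : R →+* S} {x : S} :
    x ∈ intSub φ ↔ φ.IsIntegralElem x := Iff.rfl

/-- A root in the field of a monic polynomial over a valuation subring lies in it. -/
lemma mem_of_isIntegralElem {F : Type*} [Field F] {O : ValuationSubring F} {x : F}
    (h : O.subtype.IsIntegralElem x) : x ∈ O := by
  obtain ⟨a, ha⟩ := (IsIntegrallyClosed.isIntegral_iff (R := O) (K := F)).mp h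
  exact ha ▸ a.2

lemma exists_prod_one_add {R : Type*} [CommRing R] (O : Subring R) {ι : Type*} (s : Finset ι)
    (c : R) (hc : c ∈ O) (h : ι → R) (hh : ∀ i ∈ s, h i ∈ O) :
    ∃ w ∈ O, ∏ i ∈ s, (1 + c * h i) = 1 + c * w := by
  classical
  induction s using Finset.induction with
  | empty => exact ⟨0, zero_mem O, by simp⟩
  | @insert a s ha ih =>
    obtain ⟨w, hw, hprod⟩ := ih fun i hi => hh i (Finset.mem_insert_of_mem hi)
    have h1 := hh a (Finset.mem_insert_self a s)
    refine ⟨h a + w + c * (h a * w), add_mem (add_mem h1 hw) (mul_mem hc (mul_mem h1 hw)), ?_⟩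
    rw [Finset.prod_insert ha, hprod]; ring

/-- The norm of `1 + c h`, with `h` integral over a valuation ring, is `1` up to a multiple of
`c`. -/
theorem norm_one_add {F F' : Type*} [Field F] [Field F'] [CharZero F] [Algebra F F']
    [Module.Finite F F'] (O : ValuationSubring F) {c : F} (hc : c ∈ O) {h : F'}
    (hh : ((algebraMap F F').comp O.subtype).IsIntegralElem h) :
    ∃ w ∈ O, Algebra.norm F (1 + algebraMap F F' c * h) = 1 + c * w := by
  rcases eq_or_ne c 0 with rfl | hc0
  · exact ⟨0, zero_mem _, by simp⟩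
  let Ω := AlgebraicClosure F
  set φ : O →+* Ω := (algebraMap F Ω).comp O.subtype
  have hσ : ∀ σ : F' →ₐ[F] Ω, σ h ∈ intSub φ := fun σ => by
    have h1 := hh.map (σ : F' →+* Ω)
    have e : ((σ : F' →+* Ω).comp ((algebraMap F F').comp O.subtype)) = φ :=
      RingHom.ext fun a => σ.commutes (a : F)
    rwa [e] at h1
  obtain ⟨w, hw, hprod⟩ := exists_prod_one_add (intSub φ) (Finset.univ : Finset (F' →ₐ[F] Ω))
    (algebraMap F Ω c) (mem_intSub.2 (φ.isIntegralElem_map (x := ⟨c, hc⟩))) (fun σ => σ h)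
    fun σ _ => hσ σ
  set u := (Algebra.norm F (1 + algebraMap F F' c * h) - 1) / c
  have hu : algebraMap F Ω u = w := by
    rw [map_div₀, map_sub, map_one, Algebra.norm_eq_prod_embeddings F Ω,
      div_eq_iff ((map_ne_zero _).2 hc0), sub_eq_iff_eq_add']
    simp only [map_add, map_one, map_mul, AlgHom.commutes]
    rw [hprod, mul_comm w]
  refine ⟨u, mem_of_isIntegralElem ?_, ?_⟩
  · refine (RingHom.IsIntegralElem.map_iff (g := algebraMap F Ω) (algebraMap F Ω).injective).1 ?_
    rw [hu]; exact hw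
  · simp only [u]; field_simp; ring

/-- The norm along an algebra map of `1 + c h`. -/
theorem normAlong_one_add {K F F' : Type*} [Field K] [Field F] [Field F'] [CharZero F]
    [Algebra K F] [Algebra K F'] (φ : F →ₐ[K] F') (hfin : FiniteAlong K φ) (O : ValuationSubring F)
    {c : F} (hc : c ∈ O) {h : F'} (hh : ((φ : F →+* F').comp O.subtype).IsIntegralElem h) :
    ∃ w ∈ O, ES.normAlong φ (1 + φ c * h) = 1 + c * w := by
  letI := algebraAlong φ
  haveI : Module.Finite F F' := hfin
  exact norm_one_add O hc hh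

theorem normAlong_mul {K F F' : Type*} [Field K] [Field F] [Field F'] [Algebra K F] [Algebra K F']
    (φ : F →ₐ[K] F') (x y : F') :
    ES.normAlong φ (x * y) = ES.normAlong φ x * ES.normAlong φ y := by
  letI := algebraAlong φ
  exact map_mul (Algebra.norm F) x y

theorem normAlong_ne_zero {K F F' : Type*} [Field K] [Field F] [Field F'] [Algebra K F]
    [Algebra K F'] (φ : F →ₐ[K] F') (hfin : FiniteAlong K φ) {x : F'} (hx : x ≠ 0) :
    ES.normAlong φ x ≠ 0 := by
  letI := algebraAlong φ
  haveI : Module.Finite F F' := hfin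
  exact Algebra.norm_ne_zero_iff.2 hx

section Datum

variable {K : Type*} [Field K] {A : ValuationSubring K} {k : Type*} [Field k] {π : A →+* k}
variable {F : Type*} [Field F] [Algebra K F] {Fb : Type*} [Field Fb] [Algebra k Fb]
variable {d : GoodReductionDatum A π F Fb}

/-- A constant which carries a primitive element to an integral one is integral. -/
theorem mem_of_smul_redsTo {c : K} {o g : F} {ob gb : Fb} (ho : d.RedsTo o ob) (hob : ob ≠ 0)
    (hg : d.RedsTo g gb) (h : g = c • o) : ∃ a : A, (a : K) = c ∧ gb = π a • ob := by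
  by_cases hc : c ∈ A
  · refine ⟨⟨c, hc⟩, rfl, hg.unique ?_⟩
    rw [h]; exact ho.smul ⟨c, hc⟩
  obtain ⟨a, ha, ha0⟩ := d.inv_mem_of_notMem hc
  have h1 := hg.smul a
  rw [ha0, zero_smul, ha, h, smul_smul, inv_mul_cancel₀ (fun h0 : c = 0 => hc (h0.symm ▸ A.zero_mem)),
    one_smul] at h1
  exact absurd (ho.unique h1) hob

theorem redsTo_inv {x : F} {xb : Fb} (hx : d.RedsTo x xb) (hxb : xb ≠ 0) :
    d.RedsTo x⁻¹ xb⁻¹ := by
  have hx0 := hx.ne_zero hxb
  obtain ⟨c, hc, v, hv, hw⟩ := d.exists_scale (inv_ne_zero hx0)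
  obtain ⟨a, ha, h2⟩ := mem_of_smul_redsTo (c := c) (GoodReductionDatum.redsTo_one (d := d))
    one_ne_zero (hx.mul hw) (by rw [mul_smul_comm, mul_inv_cancel₀ hx0])
  have hu : IsUnit a := (d.isUnit_iff_pi_ne_zero a).2 fun h0 =>
    mul_ne_zero hxb hv (by rw [h2, h0, zero_smul])
  obtain ⟨u, hu'⟩ := hu
  have h3 := hw.smul ((u⁻¹ : Aˣ) : A)
  have hinv : ((((u⁻¹ : Aˣ) : A)) : K) * c = 1 := by
    rw [← ha, ← hu']; exact congrArg Subtype.val u.inv_mul
  rw [smul_smul, hinv, one_smul] at h3
  have h4 := (hx.mul h3).unique (by rw [mul_inv_cancel₀ hx0]; exact GoodReductionDatum.redsTo_one)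
  rwa [eq_inv_of_mul_eq_one_right h4] at h3

theorem redsTo_div {x y : F} {xb yb : Fb} (hy : d.RedsTo y yb) (hx : d.RedsTo x xb)
    (hxb : xb ≠ 0) : d.RedsTo (y / x) (yb / xb) := by
  rw [div_eq_mul_inv, div_eq_mul_inv]; exact hy.mul (redsTo_inv hx hxb)

variable (d) in
/-- The integers form a valuation ring. -/
def intRing : ValuationSubring F where
  toSubring := d.integers
  mem_or_inv_mem' x := by
    rcases eq_or_ne x 0 with rfl | hx
    · exact Or.inl (zero_mem d.integers)
    obtain ⟨c, hc, v, hv, hw⟩ := d.exists_scale hx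
    rcases A.mem_or_inv_mem c⁻¹ with h | h
    · have := hw.smul ⟨c⁻¹, h⟩
      rw [smul_smul, inv_mul_cancel₀ hc, one_smul] at this
      exact Or.inl this.mem
    · rw [inv_inv] at h
      have := (redsTo_inv hw hv).smul ⟨c, h⟩
      rw [inv_smul_eq, smul_smul, mul_inv_cancel₀ hc, one_smul] at this
      exact Or.inr this.mem
where
  inv_smul_eq {c : K} {x : F} : (c • x)⁻¹ = c⁻¹ • x⁻¹ := by
    simp only [Algebra.smul_def, mul_inv, map_inv₀]

theorem mem_intRing {x : F} : x ∈ intRing d ↔ x ∈ d.integers := Iff.rfl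

end Datum

end FermatAgent.Mazur.Step3
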